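import Fermat.Agent.S20.Space

/-!
# The dimension formula for weight two cusp forms on `Γ₀(N)`
-/

set_option autoImplicit false

open scoped MatrixGroups

namespace Fermat.Agent.S20

open CongruenceSubgroup
open Gamma0Comb (X)

/-- **Genus formula**: the dimension of `S₂(Γ₀(N))`, integral form. -/
theorem finrank_int (N : ℕ) [NeZero N] :
    12 * (Module.finrank ℂ (CuspForm (Gamma0 N) 2) : ℤ) + 3 * ModularCurve.nuTwo N
      + 4 * ModularCurve.nuThree N + 6 * ModularCurve.cuspCount N
      = 12 + ModularCurve.dedekindPsi N := by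
  classical
  haveI : Fintype (X N) := Fintype.ofFinite _
  obtain ⟨k, F, h⟩ := exists_minFrame_X (N := N)
  obtain ⟨B⟩ := exists_EB (X := X N) N (Gamma0Comb.T_pow_N_smul N)
  haveI : Nonempty (X N) := ⟨x0 N⟩
  have h1 := B.count_ten h neg_one_smul_X
  have h2 := n_mul_eN_zero (t := tPerm (X N)) B.b B.e B.lt B.eig
  have h3 : ∀ γ : SL(2, ℤ), Nat.card (MulAction.fixedBy (X N) γ) = fx (X N) γ := by
    intro γ
    rw [Nat.card_eq_fintype_card, fx, ← Fintype.card_subtype]
    rfl
  have h4 : ∀ j : ℕ, fixN (tPerm (X N)) j =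
      Nat.card (MulAction.fixedBy (X N) (ModularGroup.T ^ j)) := by
    intro j
    rw [h3, fx, fixN]
    congr 1
    ext x
    rw [Finset.mem_filter, Finset.mem_filter, tPerm_pow_apply]
  simp_rw [h4] at h2
  rw [Gamma0Comb.sum_card_fixedBy_T] at h2
  have h5 : eN B.e 0 = ModularCurve.cuspCount N := Nat.eq_of_mul_eq_mul_left (NeZero.pos N) h2
  have h6 : fx (X N) ModularGroup.S = ModularCurve.nuTwo N := by
    rw [← h3, Gamma0Comb.card_fixedBy_S]
  have h7 : fx (X N) gU = ModularCurve.nuThree N := by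
    rw [← h3, gU, Gamma0Comb.card_fixedBy_ST]
  have h8 : Fintype.card (X N) = ModularCurve.dedekindPsi N := by
    rw [← Nat.card_eq_fintype_card, Gamma0Comb.card_X]
  rw [h5, h6, h7, h8] at h1
  rw [B.finrank_eq h]
  exact h1

/-- **Genus formula**. -/
theorem finrank_eq_genusFormula (N : ℕ) [NeZero N] :
    (Module.finrank ℂ (CuspForm (Gamma0 N) 2) : ℚ) = ModularCurve.genusFormula N := by
  have h1 := finrank_int N
  have h2 : (12 * (Module.finrank ℂ (CuspForm (Gamma0 N) 2) : ℚ) + 3 * ModularCurve.nuTwo N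
      + 4 * ModularCurve.nuThree N + 6 * ModularCurve.cuspCount N
      = 12 + ModularCurve.dedekindPsi N) := by exact_mod_cast h1
  rw [ModularCurve.genusFormula]
  linear_combination h2 / 12

end Fermat.Agent.S20
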