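import Fermat.Agent.S20.Cusp

/-!
# Numerical identities for a minimal frame
-/

set_option autoImplicit false

noncomputable section

open UpperHalfPlane hiding I
open Real Complex Filter ModularForm ModularFormClass EisensteinSeries Derivative
open scoped Manifold MatrixGroups ModularForm Topology

namespace Fermat.Agent.S20

/-- `q` -/
def qq (τ : ℍ) : ℂ := cexp (2 * π * Complex.I * τ)

lemma Delta_eq_q (τ : ℍ) :
    ModularForm.discriminant τ = qq τ * ∏' n, (1 - eta_q n τ) ^ 24 := by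
  rw [discriminant_eq_q_prod, qq, Function.Periodic.qParam]
  simp

lemma Delta_div_q_tendsto :
    Tendsto (fun τ : ℍ ↦ ModularForm.discriminant τ / qq τ) atImInfty (𝓝 1) := by
  refine tendsto_atImInfty_tprod_one_sub_eta_q_pow.congr fun τ ↦ ?_
  rw [Delta_eq_q, mul_div_cancel_left₀]
  exact Complex.exp_ne_zero _

lemma q_div_Delta_tendsto :
    Tendsto (fun τ : ℍ ↦ qq τ / ModularForm.discriminant τ) atImInfty (𝓝 1) := by
  have := Delta_div_q_tendsto.inv₀ one_ne_zero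
  rw [inv_one] at this
  refine this.congr fun τ ↦ ?_
  rw [inv_div]

variable {X : Type} [MulAction SL(2, ℤ) X] [Fintype X] [DecidableEq X]

variable {n : ℕ} (B : EB X n)

/-- the matrix of periodic coordinates -/
def EB.Phi (F : X → X → ℍ → ℂ) (τ : ℍ) : Matrix X X ℂ := Matrix.of fun i y ↦ B.uu (F i) y τ

/-- the matrix of limits -/
def EB.Phi0 (F : X → X → ℍ → ℂ) : Matrix X X ℂ := Matrix.of fun i y ↦ B.lim (F i) y

lemma EB.mat_mul_P [NeZero n] (F : X → X → ℍ → ℂ) (τ : ℍ) :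
    mat F τ * B.P = B.Phi F τ * Matrix.diagonal
      (fun y ↦ cexp (2 * π * Complex.I * ((B.e y / n : ℝ) : ℂ) * τ)) := by
  ext i y
  rw [Matrix.mul_diagonal, Matrix.mul_apply]
  simp only [mat, EB.P, EB.Phi, Matrix.of_apply, EB.uu]
  have e : cexp (2 * π * Complex.I * ((-(B.e y / n) : ℝ) : ℂ) * τ) *
      cexp (2 * π * Complex.I * ((B.e y / n : ℝ) : ℂ) * τ) = 1 := by
    rw [← Complex.exp_add]
    rw [Complex.exp_eq_one_iff]
    exact ⟨0, by push_cast; ring⟩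
  linear_combination (-(∑ x, F i x τ * B.b y x)) * e

lemma EB.dt_mul [NeZero n] (F : X → X → ℍ → ℂ) (τ : ℍ) :
    dt F τ * B.P.det = (B.Phi F τ).det * cexp (2 * π * Complex.I * (((∑ y, B.e y : ℕ) / n : ℝ) : ℂ) * τ) := by
  rw [dt, ← Matrix.det_mul, B.mat_mul_P, Matrix.det_mul, Matrix.det_diagonal, ← Complex.exp_sum]
  congr 2
  rw [← Finset.sum_mul, ← Finset.mul_sum]
  congr 2
  push_cast
  rw [Finset.sum_div]

omit [DecidableEq X] in
lemma EB.two_mul_sum [NeZero n] : 2 * ∑ y, B.e y + n * eN B.e 0 = n * Fintype.card X := by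
  classical
  exact two_mul_sum_e B.b B.e B.lt B.eig

lemma EB.dt_sq [NeZero n] (F : X → X → ℍ → ℂ) (τ : ℍ) :
    (dt F τ * B.P.det) ^ 2 = (B.Phi F τ).det ^ 2 * qq τ ^ (Fintype.card X - eN B.e 0) := by
  have h1 := B.two_mul_sum
  have hn : 0 < n := Nat.pos_of_ne_zero (NeZero.ne n)
  have hle : eN B.e 0 ≤ Fintype.card X := by
    rw [eN]
    exact (Finset.card_filter_le _ _).trans (by simp)
  have h2 : 2 * ∑ y, B.e y = n * (Fintype.card X - eN B.e 0) := by
    rw [Nat.mul_sub]; omega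
  rw [B.dt_mul, mul_pow, qq, ← Complex.exp_nat_mul, ← Complex.exp_nat_mul]
  congr 2
  have hn' : (n : ℂ) ≠ 0 := by exact_mod_cast hn.ne'
  have h3 : (2 : ℂ) * (∑ y, B.e y : ℕ) = n * ((Fintype.card X - eN B.e 0 : ℕ) : ℂ) := by
    exact_mod_cast h2
  push_cast at h3 ⊢
  field_simp
  linear_combination (τ : ℂ) * h3

lemma EB.Phi_tendsto [NeZero n] {k : X → ℤ} {F : X → X → ℍ → ℂ} (hF : ∀ i, IsVV (k i) (F i)) :
    Tendsto (B.Phi F) atImInfty (𝓝 (B.Phi0 F)) := by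
  exact tendsto_pi_nhds.mpr fun i ↦ tendsto_pi_nhds.mpr fun y ↦ B.tendsto_lim (hF i) y

lemma EB.Phi_det_tendsto [NeZero n] {k : X → ℤ} {F : X → X → ℍ → ℂ}
    (hF : ∀ i, IsVV (k i) (F i)) :
    Tendsto (fun τ ↦ (B.Phi F τ).det) atImInfty (𝓝 (B.Phi0 F).det) :=
  (continuous_id.matrix_det.tendsto (B.Phi0 F)).comp (B.Phi_tendsto hF)

/-- **Weight identity**: `∑ k = 6 (|X| - c)`. -/
theorem EB.sum_weights [NeZero n] {k : X → ℤ} {F : X → X → ℍ → ℂ} (h : IsMinFrame k F)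
    (hX : ∀ x : X, (-1 : SL(2, ℤ)) • x = x) :
    ∑ i, k i = 6 * ((Fintype.card X : ℤ) - eN B.e 0) := by
  have hle : eN B.e 0 ≤ Fintype.card X := by
    rw [eN]
    exact (Finset.card_filter_le _ _).trans (by simp)
  set m := Fintype.card X - eN B.e 0 with hm
  have hmZ : (m : ℤ) = (Fintype.card X : ℤ) - eN B.e 0 := by omega
  set R : ℍ → ℂ := fun τ ↦ dt F τ ^ 2 / ModularForm.discriminant τ ^ m with hR
  have hdt := h.dt_ne_zero hX
  have hRne : ∀ τ, R τ ≠ 0 := fun τ ↦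
    div_ne_zero (pow_ne_zero _ (hdt τ)) (pow_ne_zero _ (discriminant_ne_zero τ))
  have hP := B.P_det_ne
  have hRlim : Tendsto R atImInfty (𝓝 (((B.Phi0 F).det / B.P.det) ^ 2)) := by
    have h1 := ((B.Phi_det_tendsto h.1.vv).div_const B.P.det).pow 2
    have h2 := q_div_Delta_tendsto.pow m
    have h3 := h1.mul h2
    rw [one_pow, mul_one] at h3
    refine h3.congr fun τ ↦ ?_
    have h4 := B.dt_sq F τ
    have hΔ := discriminant_ne_zero τ
    rw [hR]
    simp only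
    rw [div_pow, div_pow]
    have h5 : (B.Phi F τ).det ^ 2 * qq τ ^ m = dt F τ ^ 2 * B.P.det ^ 2 := by
      rw [← mul_pow, h4]
    field_simp
    linear_combination h5
  have hL : ((B.Phi0 F).det / B.P.det) ^ 2 ≠ 0 :=
    pow_ne_zero _ (div_ne_zero (B.lim_det_ne h hX) hP)
  have hL1 := isL1_dt_sq h.1.vv
  have hΔm : ∀ (γ : SL(2, ℤ)) (τ : ℍ), ModularForm.discriminant (γ • τ) ^ m
      = denom γ τ ^ (12 * (m : ℤ)) * ModularForm.discriminant τ ^ m := by
    intro γ τ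
    rw [isL1Cusp_Delta.toL1.smul_apply, mul_pow, zpow_mul]
    rfl
  have hRsl : ∀ (γ : SL(2, ℤ)) (τ : ℍ), R (γ • τ)
      = denom γ τ ^ (2 * (∑ i, k i) - 12 * (m : ℤ)) * R τ := by
    intro γ τ
    have h1 := hL1.smul_apply γ τ
    simp only [hR]
    rw [hΔm, h1, zpow_sub₀ (denom_ne_zero _ _)]
    field_simp
  have hRd : MDiff R := (hL1.holo).div (holo_Delta.pow m)
    (fun τ ↦ pow_ne_zero _ (discriminant_ne_zero τ))
  have hRL1 : IsL1 (2 * (∑ i, k i) - 12 * (m : ℤ)) R :=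
    ⟨fun γ ↦ slash_of_smul_apply γ (hRsl γ), hRd, hRlim.isBigO_one ℝ⟩
  have hRinv : IsL1 (-(2 * (∑ i, k i) - 12 * (m : ℤ))) (fun τ ↦ (R τ)⁻¹) := by
    refine ⟨fun γ ↦ slash_of_smul_apply γ fun τ ↦ ?_, ?_, ?_⟩
    · rw [hRsl, mul_inv, zpow_neg]
    · have : (fun τ ↦ (R τ)⁻¹) = fun τ ↦ (1 : ℂ) / R τ := by ext τ; rw [one_div]
      rw [this]
      exact (mdifferentiable_const (c := (1 : ℂ))).div hRd hRne
    · exact (hRlim.inv₀ hL).isBigO_one ℝ
  have hw : 2 * (∑ i, k i) - 12 * (m : ℤ) = 0 := by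
    rcases lt_trichotomy (2 * (∑ i, k i) - 12 * (m : ℤ)) 0 with h0 | h0 | h0
    · exact absurd (congrFun (hRL1.eq_zero_of_neg h0) UpperHalfPlane.I) (hRne _)
    · exact h0
    · have := congrFun (hRinv.eq_zero_of_neg (by omega)) UpperHalfPlane.I
      exact absurd this (inv_ne_zero (hRne _))
  omega

/-- number of fixed points of `γ` on `X` -/
def fx (X : Type) [MulAction SL(2, ℤ) X] [Fintype X] [DecidableEq X] (γ : SL(2, ℤ)) : ℕ :=
  (Finset.univ.filter fun x : X ↦ γ • x = x).card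

lemma trace_permOp (γ : SL(2, ℤ)) :
    LinearMap.trace ℂ _ (permOp (X := X) γ) = fx X γ := by
  rw [LinearMap.trace_eq_matrix_trace ℂ (Pi.basisFun ℂ X), Matrix.trace, fx, Finset.card_filter]
  push_cast
  refine Finset.sum_congr rfl fun x _ ↦ ?_
  rw [Matrix.diag_apply, LinearMap.toMatrix_apply]
  simp only [Pi.basisFun_apply, Pi.basisFun_repr, permOp_apply]
  by_cases h : γ • x = x
  · have h' : γ⁻¹ • x = x := by rw [inv_smul_eq_iff, h]
    rw [if_pos h, h', Pi.single_eq_same]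
  · have h' : γ⁻¹ • x ≠ x := by
      intro h'; apply h; rw [inv_smul_eq_iff] at h'; exact h'.symm
    rw [if_neg h, Pi.single_eq_of_ne h']

/-- trace of an elliptic element in terms of the weights of a frame -/
lemma sum_eig [Nonempty X] {k : X → ℤ} {F : X → X → ℍ → ℂ} (hF : ∀ i, IsVV (k i) (F i)) {γ : SL(2, ℤ)}
    {τ : ℍ} (hτ : γ • τ = τ) (hdt : dt F τ ≠ 0) :
    ∑ i, denom γ τ ^ (-(k i)) = (fx X γ : ℂ) := by
  have h1 : LinearIndependent ℂ (mat F τ).row := by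
    rw [Matrix.linearIndependent_rows_iff_isUnit, Matrix.isUnit_iff_isUnit_det]
    exact hdt.isUnit
  let b : Module.Basis X ℂ (X → ℂ) := basisOfLinearIndependentOfCardEqFinrank h1 (by simp)
  have hb : ∀ i, b i = fun x ↦ F i x τ := by
    intro i
    have := congrFun (coe_basisOfLinearIndependentOfCardEqFinrank h1 (by simp)) i
    exact this
  rw [← trace_permOp, LinearMap.trace_eq_matrix_trace ℂ b, Matrix.trace]
  refine Finset.sum_congr rfl fun i _ ↦ ?_
  rw [Matrix.diag_apply, LinearMap.toMatrix_apply, hb, permOp_eigen (hF i) hτ, ← hb]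
  simp

end Fermat.Agent.S20
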