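import Mathlib

/-!
# An eigenbasis for an operator of finite order
-/

set_option autoImplicit false

noncomputable section

open Module

namespace Fermat.Agent.S20

/-- standard root of unity -/
def zt (n : ℕ) : ℂ := Complex.exp (2 * Real.pi * Complex.I / n)

lemma zt_prim (n : ℕ) [NeZero n] : IsPrimitiveRoot (zt n) n :=
  Complex.isPrimitiveRoot_exp n (NeZero.ne n)

lemma iSup_eigenspace_eq_top {V : Type*} [AddCommGroup V] [Module ℂ V] [FiniteDimensional ℂ V]
    (n : ℕ) [NeZero n] (A : End ℂ V) (hA : A ^ n = 1) : ⨆ μ, A.eigenspace μ = ⊤ := by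
  have hss : A.IsSemisimple := by
    refine Module.End.isSemisimple_of_squarefree_aeval_eq_zero
      (p := (Polynomial.X ^ n - 1 : Polynomial ℂ)) ?_ ?_
    · have : (Polynomial.X ^ n - 1 : Polynomial ℂ).Separable :=
        Polynomial.X_pow_sub_one_separable_iff.mpr (by exact_mod_cast NeZero.ne n)
      exact this.squarefree
    · simp [hA]
  have := Module.End.iSup_maxGenEigenspace_eq_top A
  rw [← this]
  refine iSup_congr fun μ ↦ ?_
  exact (hss.isFinitelySemisimple.maxGenEigenspace_eq_eigenspace μ).symm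

lemma exists_eigenbasis {X V : Type*} [Fintype X] [AddCommGroup V] [Module ℂ V]
    [FiniteDimensional ℂ V] (hcard : Fintype.card X = finrank ℂ V)
    (n : ℕ) [NeZero n] (A : End ℂ V) (hA : A ^ n = 1) :
    ∃ (b : Basis X ℂ V) (e : X → ℕ), (∀ y, e y < n) ∧ ∀ y, A (b y) = zt n ^ e y • b y := by
  classical
  let E : Set V := {v | ∃ e : ℕ, e < n ∧ A v = zt n ^ e • v}
  have hspan : ⊤ ≤ Submodule.span ℂ E := by
    rw [← iSup_eigenspace_eq_top n A hA]
    refine iSup_le fun μ v hv ↦ ?_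
    rw [Module.End.mem_eigenspace_iff] at hv
    by_cases h0 : v = 0
    · rw [h0]; exact zero_mem _
    · have hμ : μ ^ n = 1 := by
        have h1 : ∀ j : ℕ, (A ^ j) v = μ ^ j • v := by
          intro j
          induction j with
          | zero => simp
          | succ j ih => rw [pow_succ', Module.End.mul_apply, ih, map_smul, hv, smul_smul, pow_succ]
        have h2 := h1 n
        rw [hA, Module.End.one_apply] at h2
        have h3 : (μ ^ n - 1) • v = 0 := by rw [sub_smul, one_smul, ← h2, sub_self]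
        rcases smul_eq_zero.mp h3 with h4 | h4
        · exact sub_eq_zero.mp h4
        · exact absurd h4 h0
      obtain ⟨e, he, hζ⟩ := (zt_prim n).eq_pow_of_pow_eq_one hμ
      apply Submodule.subset_span
      exact ⟨e, he, by rw [hζ]; exact hv⟩
  let b₀ := Basis.ofSpan hspan
  have hfin : Fintype ((linearIndepOn_empty ℂ id).extend (Set.empty_subset E)) :=
    FiniteDimensional.fintypeBasisIndex b₀
  have hc : Fintype.card ((linearIndepOn_empty ℂ id).extend (Set.empty_subset E))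
      = Fintype.card X := by
    rw [hcard, Module.finrank_eq_card_basis b₀]
  let b : Basis X ℂ V := b₀.reindex (Fintype.equivOfCardEq hc)
  have hb : ∀ y, b y ∈ E := by
    intro y
    have : b y ∈ Set.range b₀ := by
      rw [Basis.reindex_apply]
      exact Set.mem_range_self _
    exact Basis.ofSpan_subset hspan this
  choose e he hAe using hb
  exact ⟨b, e, he, hAe⟩

section Perm

variable {X : Type*} [Fintype X] [DecidableEq X] (t : Equiv.Perm X)

/-- operator attached to a permutation -/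
def pA : End ℂ (X → ℂ) := LinearMap.funLeft ℂ ℂ t

omit [Fintype X] [DecidableEq X] in
lemma pA_apply (v : X → ℂ) (x : X) : pA t v x = v (t x) := rfl

omit [Fintype X] [DecidableEq X] in
lemma pA_pow_apply (j : ℕ) (v : X → ℂ) (x : X) : (pA t ^ j) v x = v ((t ^ j) x) := by
  induction j generalizing x with
  | zero => simp
  | succ j ih =>
    rw [pow_succ', Module.End.mul_apply, pA_apply, ih, pow_succ, Equiv.Perm.mul_apply]

omit [Fintype X] [DecidableEq X] in
lemma pA_pow_eq_one {n : ℕ} (h : t ^ n = 1) : pA t ^ n = 1 := by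
  ext v x
  simp [pA_pow_apply, h]

/-- number of fixed points of `t ^ j` -/
def fixN (j : ℕ) : ℕ := (Finset.univ.filter fun x ↦ (t ^ j) x = x).card

lemma trace_pA_pow (j : ℕ) : LinearMap.trace ℂ _ (pA t ^ j) = fixN t j := by
  rw [LinearMap.trace_eq_matrix_trace ℂ (Pi.basisFun ℂ X), Matrix.trace, fixN,
    Finset.card_filter]
  push_cast
  refine Finset.sum_congr rfl fun x _ ↦ ?_
  rw [Matrix.diag_apply, LinearMap.toMatrix_apply]
  simp only [Pi.basisFun_apply, Pi.basisFun_repr, pA_pow_apply]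
  have hit : (⇑t)^[j] x = (t ^ j) x := by rw [Equiv.Perm.iterate_eq_pow]
  rw [hit]
  by_cases h : (t ^ j) x = x
  · rw [if_pos h, h, Pi.single_eq_same]
  · rw [if_neg h, Pi.single_eq_of_ne h]

variable {t}

lemma sum_zt_eq {n : ℕ} (b : Basis X ℂ (X → ℂ)) (e : X → ℕ)
    (hb : ∀ y, pA t (b y) = zt n ^ e y • b y) (j : ℕ) :
    ∑ y, (zt n ^ e y) ^ j = (fixN t j : ℂ) := by
  rw [← trace_pA_pow, LinearMap.trace_eq_matrix_trace ℂ b, Matrix.trace]
  refine Finset.sum_congr rfl fun y _ ↦ ?_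
  have h1 : ∀ j : ℕ, (pA t ^ j) (b y) = (zt n ^ e y) ^ j • b y := by
    intro j
    induction j with
    | zero => simp
    | succ j ih => rw [pow_succ', Module.End.mul_apply, ih, map_smul, hb, smul_smul, pow_succ]
  rw [Matrix.diag_apply, LinearMap.toMatrix_apply, h1]
  simp

/-- orthogonality -/
lemma sum_range_zt {n : ℕ} [NeZero n] {a c : ℕ} (ha : a < n) (hc : c < n) :
    ∑ j ∈ Finset.range n, ((zt n)⁻¹ ^ c) ^ j * (zt n ^ a) ^ j = if a = c then (n : ℂ) else 0 := by
  have hz : zt n ≠ 0 := (zt_prim n).ne_zero (NeZero.ne n)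
  split_ifs with h
  · subst h
    have : ∀ j ∈ Finset.range n, ((zt n)⁻¹ ^ a) ^ j * (zt n ^ a) ^ j = 1 := by
      intro j _
      rw [← mul_pow, ← mul_pow, inv_mul_cancel₀ hz, one_pow, one_pow]
    rw [Finset.sum_congr rfl this]
    simp
  · have hne : ((zt n)⁻¹ ^ c) * (zt n ^ a) ≠ 1 := by
      intro h1
      rw [inv_pow, inv_mul_eq_one₀ (pow_ne_zero _ hz)] at h1
      exact h ((zt_prim n).pow_inj hc ha h1).symm
    have hr : (((zt n)⁻¹ ^ c) * (zt n ^ a)) ^ n = 1 := by
      rw [mul_pow, ← pow_mul, ← pow_mul, mul_comm c, mul_comm a, pow_mul, pow_mul, inv_pow,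
        (zt_prim n).pow_eq_one]
      simp
    have hg := mul_neg_geom_sum (((zt n)⁻¹ ^ c) * (zt n ^ a)) n
    rw [hr, sub_self] at hg
    have := (mul_eq_zero.mp hg).resolve_left (sub_ne_zero.mpr hne.symm)
    rw [← this]
    refine Finset.sum_congr rfl fun j _ ↦ ?_
    rw [mul_pow]

/-- number of `y` with `e y = c` -/
def eN (e : X → ℕ) (c : ℕ) : ℕ := (Finset.univ.filter fun y ↦ e y = c).card

lemma n_mul_eN {n : ℕ} [NeZero n] (b : Basis X ℂ (X → ℂ)) (e : X → ℕ) (he : ∀ y, e y < n)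
    (hb : ∀ y, pA t (b y) = zt n ^ e y • b y) {c : ℕ} (hc : c < n) :
    (n : ℂ) * eN e c = ∑ j ∈ Finset.range n, ((zt n)⁻¹ ^ c) ^ j * fixN t j := by
  simp_rw [← sum_zt_eq b e hb, Finset.mul_sum]
  rw [Finset.sum_comm]
  simp_rw [sum_range_zt (he _) hc]
  rw [eN, Finset.card_filter]
  push_cast
  rw [Finset.mul_sum]
  refine Finset.sum_congr rfl fun y _ ↦ ?_
  split_ifs <;> simp

lemma n_mul_eN_zero {n : ℕ} [NeZero n] (b : Basis X ℂ (X → ℂ)) (e : X → ℕ) (he : ∀ y, e y < n)
    (hb : ∀ y, pA t (b y) = zt n ^ e y • b y) :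
    n * eN e 0 = ∑ j ∈ Finset.range n, fixN t j := by
  have := n_mul_eN b e he hb (c := 0) (Nat.pos_of_ne_zero (NeZero.ne n))
  simp only [pow_zero, one_pow, one_mul] at this
  exact_mod_cast this

lemma eN_symm {n : ℕ} [NeZero n] (b : Basis X ℂ (X → ℂ)) (e : X → ℕ) (he : ∀ y, e y < n)
    (hb : ∀ y, pA t (b y) = zt n ^ e y • b y) {c : ℕ} (hc0 : 0 < c) (hc : c < n) :
    eN e (n - c) = eN e c := by
  have h1 := n_mul_eN b e he hb hc
  have h2 := n_mul_eN b e he hb (c := n - c) (by omega)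
  have hz : zt n ≠ 0 := (zt_prim n).ne_zero (NeZero.ne n)
  have hconj : (starRingEnd ℂ) (zt n)⁻¹ = zt n := by
    have hnorm : ‖zt n‖ = 1 := (zt_prim n).norm'_eq_one (NeZero.ne n)
    rw [Complex.inv_def, map_mul, Complex.conj_conj]
    rw [Complex.normSq_eq_norm_sq, hnorm]
    simp
  have e1 : (starRingEnd ℂ) ((n : ℂ) * eN e c) = (n : ℂ) * eN e (n - c) := by
    rw [h1, h2, map_sum]
    refine Finset.sum_congr rfl fun j _ ↦ ?_
    rw [map_mul, map_pow, map_pow, hconj, map_natCast]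
    congr 2
    have : (zt n)⁻¹ ^ (n - c) * (zt n)⁻¹ ^ c = 1 := by
      rw [← pow_add, Nat.sub_add_cancel hc.le, inv_pow, (zt_prim n).pow_eq_one, inv_one]
    have hi : (zt n)⁻¹ ^ c = (zt n ^ c)⁻¹ := inv_pow _ _
    rw [hi, mul_inv_eq_one₀ (pow_ne_zero _ hz)] at this
    exact this.symm
  rw [map_mul, map_natCast, map_natCast] at e1
  have hn : (n : ℂ) ≠ 0 := by exact_mod_cast NeZero.ne n
  have := mul_left_cancel₀ hn e1
  exact_mod_cast this.symm

lemma two_mul_sum_e {n : ℕ} [NeZero n] (b : Basis X ℂ (X → ℂ)) (e : X → ℕ) (he : ∀ y, e y < n)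
    (hb : ∀ y, pA t (b y) = zt n ^ e y • b y) :
    2 * ∑ y, e y + n * eN e 0 = n * Fintype.card X := by
  have hn : 0 < n := Nat.pos_of_ne_zero (NeZero.ne n)
  -- sums over fibers
  have h1 : ∑ y, e y = ∑ c ∈ Finset.range n, c * eN e c := by
    rw [← Finset.sum_fiberwise_of_maps_to (s := Finset.univ) (t := Finset.range n) (g := e)
      (fun y _ ↦ Finset.mem_range.mpr (he y))]
    refine Finset.sum_congr rfl fun c _ ↦ ?_
    rw [Finset.sum_congr rfl (g := fun _ ↦ c) (by
      intro y hy; exact (Finset.mem_filter.mp hy).2), Finset.sum_const, eN, smul_eq_mul, mul_comm]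
  have h2 : Fintype.card X = ∑ c ∈ Finset.range n, eN e c := by
    rw [← Finset.card_univ, Finset.card_eq_sum_card_fiberwise (f := e) (t := Finset.range n)
      (fun y _ ↦ Finset.mem_coe.mpr (Finset.mem_range.mpr (he y)))]
    rfl
  obtain ⟨m, rfl⟩ : ∃ m, n = m + 1 := ⟨n - 1, by omega⟩
  rw [h1, h2, Finset.sum_range_succ', Finset.sum_range_succ' (fun c ↦ eN e c)]
  have h3 : ∑ c ∈ Finset.range m, (c + 1) * eN e (c + 1)
      = ∑ c ∈ Finset.range m, (m - c) * eN e (c + 1) := by
    rw [← Finset.sum_range_reflect]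
    refine Finset.sum_congr rfl fun c hc ↦ ?_
    have hc' := Finset.mem_range.mp hc
    have e1 : m - 1 - c + 1 = (m + 1) - (c + 1) := by omega
    rw [e1, eN_symm b e he hb (c := c + 1) (by omega) (by omega)]
    congr 1
    omega
  have h4 : 2 * ∑ c ∈ Finset.range m, (c + 1) * eN e (c + 1)
      = (m + 1) * ∑ c ∈ Finset.range m, eN e (c + 1) := by
    rw [two_mul]
    nth_rewrite 1 [h3]
    rw [← Finset.sum_add_distrib, Finset.mul_sum]
    refine Finset.sum_congr rfl fun c hc ↦ ?_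
    have hc' := Finset.mem_range.mp hc
    rw [← add_mul]
    congr 1
    omega
  simp only [zero_mul, add_zero]
  rw [h4]
  ring

end Perm

end Fermat.Agent.S20
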