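import Fermat.Agent.S20.NonVan
import Fermat.Agent.S20.EigenBasis

/-!
# Local analysis of a minimal frame at infinity
-/

set_option autoImplicit false

noncomputable section

open UpperHalfPlane hiding I
open Real Complex Filter ModularForm ModularFormClass EisensteinSeries Derivative
open scoped Manifold MatrixGroups ModularForm Topology

namespace Fermat.Agent.S20

lemma mdiff_cexp (c : ℂ) : MDiff (fun τ : ℍ ↦ cexp (c * τ)) := by
  rw [UpperHalfPlane.mdifferentiable_iff]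
  have h : DifferentiableOn ℂ (fun z : ℂ ↦ cexp (c * z)) {z | 0 < z.im} := by fun_prop
  refine h.congr fun z hz ↦ ?_
  have hz' : 0 < z.im := hz
  rw [Function.comp_apply, ofComplex_apply_of_im_pos hz']

lemma norm_cexp_tau (a : ℝ) (τ : ℍ) : ‖cexp (2 * π * Complex.I * a * τ)‖
    = Real.exp (-2 * π * a * τ.im) := by
  rw [Complex.norm_exp]
  congr 1
  simp

/-- A periodic holomorphic function of growth less than `|q|^{-1}` is bounded. -/
lemma bdd_of_growth {u : ℍ → ℂ} (hu : MDiff u) (hper : ∀ τ : ℍ, u ((1 : ℝ) +ᵥ τ) = u τ)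
    {s : ℝ} (hs : s < 1) (hO : u =O[atImInfty] fun τ ↦ Real.exp (2 * π * s * τ.im)) :
    IsBoundedAtImInfty u := by
  set v : ℍ → ℂ := fun τ ↦ cexp (2 * π * Complex.I * (1 : ℝ) * τ) * u τ with hv
  have hvd : MDiff v := (mdiff_cexp (2 * π * Complex.I * (1 : ℝ))).mul hu
  have hvper : ∀ τ : ℍ, v ((1 : ℝ) +ᵥ τ) = v τ := by
    intro τ
    simp only [hv, hper, coe_vadd]
    congr 1
    rw [Complex.exp_eq_exp_iff_exists_int]
    exact ⟨1, by push_cast; ring⟩
  have hvO : v =O[atImInfty] fun τ ↦ Real.exp (-(2 * π * (1 - s)) * τ.im) := by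
    have h1 : (fun τ : ℍ ↦ cexp (2 * π * Complex.I * (1 : ℝ) * τ)) =O[atImInfty]
        fun τ ↦ Real.exp (-2 * π * 1 * τ.im) := by
      refine Asymptotics.IsBigO.of_bound 1 (Eventually.of_forall fun τ ↦ ?_)
      rw [norm_cexp_tau, Real.norm_of_nonneg (Real.exp_pos _).le, one_mul]
    refine (h1.mul hO).congr_right fun τ ↦ ?_
    rw [← Real.exp_add]
    congr 1; ring
  have hlim : Tendsto (fun τ : ℍ ↦ Real.exp (-(2 * π * (1 - s)) * τ.im)) atImInfty (𝓝 0) := by
    apply Real.tendsto_exp_atBot.comp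
    have h2 : Tendsto (fun τ : ℍ ↦ τ.im) atImInfty atTop := tendsto_comap
    refine Tendsto.const_mul_atTop_of_neg ?_ h2
    have : 0 < 1 - s := by linarith
    have := mul_pos (mul_pos two_pos Real.pi_pos) this
    linarith
  have hvz : IsZeroAtImInfty v := hvO.trans_tendsto hlim
  have hdec := IsZeroAtImInfty.exp_decay_atImInfty hvz one_pos (periodic_of_T hvper) hvd
    hvz.isBoundedAtImInfty
  obtain ⟨C, hC⟩ := hdec.bound
  rw [IsBoundedAtImInfty, BoundedAtFilter]
  refine Asymptotics.IsBigO.of_bound C ?_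
  filter_upwards [hC] with τ hτ
  simp only [hv, norm_mul, norm_cexp_tau] at hτ
  rw [Real.norm_of_nonneg (Real.exp_pos _).le] at hτ
  simp only [Pi.one_apply, norm_one, mul_one]
  have hpos : 0 < Real.exp (-2 * π * 1 * τ.im) := Real.exp_pos _
  have e : Real.exp (-2 * π * τ.im / 1) = Real.exp (-2 * π * 1 * τ.im) := by
    congr 1; ring
  rw [e, mul_comm C] at hτ
  exact le_of_mul_le_mul_left hτ hpos

variable {X : Type} [MulAction SL(2, ℤ) X] [Fintype X] [DecidableEq X]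

/-- the `T`-permutation of `X` -/
def tPerm (X : Type) [MulAction SL(2, ℤ) X] : Equiv.Perm X := MulAction.toPerm ModularGroup.T

omit [Fintype X] [DecidableEq X] in
lemma tPerm_apply (x : X) : tPerm X x = ModularGroup.T • x := rfl

omit [Fintype X] [DecidableEq X] in
lemma tPerm_pow_apply (j : ℕ) (x : X) : (tPerm X ^ j) x = ModularGroup.T ^ j • x := by
  have : (MulAction.toPermHom SL(2, ℤ) X ModularGroup.T ^ j) x = ModularGroup.T ^ j • x := by
    rw [← map_pow]; rfl
  exact this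

/-- data of an eigenbasis -/
structure EB (X : Type) [MulAction SL(2, ℤ) X] [Fintype X] (n : ℕ) where
  b : Module.Basis X ℂ (X → ℂ)
  e : X → ℕ
  lt : ∀ y, e y < n
  eig : ∀ y, pA (tPerm X) (b y) = zt n ^ e y • b y

omit [DecidableEq X] in
lemma exists_EB (n : ℕ) [NeZero n] (hT : ∀ x : X, ModularGroup.T ^ n • x = x) :
    Nonempty (EB X n) := by
  have h1 : tPerm X ^ n = 1 := by
    ext x
    rw [tPerm_pow_apply, hT]; rfl
  obtain ⟨b, e, he, hb⟩ := exists_eigenbasis (X := X) (V := X → ℂ) (by simp) n (pA (tPerm X))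
    (pA_pow_eq_one _ h1)
  exact ⟨⟨b, e, he, hb⟩⟩

variable {n : ℕ} (B : EB X n)

omit [DecidableEq X] in
lemma EB.apply_T (y x : X) : B.b y (ModularGroup.T • x) = zt n ^ B.e y * B.b y x := by
  have := congrFun (B.eig y) x
  rw [pA_apply] at this
  exact this

/-- the one-periodic coordinates -/
def EB.uu (G : X → ℍ → ℂ) (y : X) (τ : ℍ) : ℂ :=
  cexp (2 * π * Complex.I * ((-(B.e y / n) : ℝ) : ℂ) * τ) * ∑ x, G x τ * B.b y x

lemma vadd_eq_T_smul (τ : ℍ) : ((1 : ℝ) +ᵥ τ) = ModularGroup.T • τ :=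
  (UpperHalfPlane.modular_T_smul τ).symm

lemma denom_T (τ : ℍ) : denom ModularGroup.T τ = 1 := by
  simp [denom, ModularGroup.T]

omit [Fintype X] [DecidableEq X] in
lemma IsVV.vadd {k : ℤ} {G : X → ℍ → ℂ} (hG : IsVV k G) (x : X) (τ : ℍ) :
    G x ((1 : ℝ) +ᵥ τ) = G (ModularGroup.T⁻¹ • x) τ := by
  rw [vadd_eq_T_smul, hG.smul_apply, denom_T, one_zpow, one_mul]

omit [DecidableEq X] in
lemma EB.uu_per [NeZero n] {k : ℤ} {G : X → ℍ → ℂ} (hG : IsVV k G) (y : X) (τ : ℍ) :
    B.uu G y ((1 : ℝ) +ᵥ τ) = B.uu G y τ := by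
  have h1 : ∑ x, G x ((1 : ℝ) +ᵥ τ) * B.b y x = zt n ^ B.e y * ∑ x, G x τ * B.b y x := by
    simp_rw [hG.vadd]
    rw [← Equiv.sum_comp (MulAction.toPerm ModularGroup.T : Equiv.Perm X), Finset.mul_sum]
    refine Finset.sum_congr rfl fun x _ ↦ ?_
    simp only [MulAction.toPerm_apply, inv_smul_smul, B.apply_T]
    ring
  rw [EB.uu, EB.uu, h1, ← mul_assoc]
  congr 1
  rw [coe_vadd, zt, ← Complex.exp_nat_mul, ← Complex.exp_add]
  rw [Complex.exp_eq_exp_iff_exists_int]
  have hn : (n : ℂ) ≠ 0 := by exact_mod_cast NeZero.ne n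
  refine ⟨0, ?_⟩
  push_cast
  field_simp
  ring

omit [DecidableEq X] in
lemma EB.uu_mdiff {G : X → ℍ → ℂ} (hG : ∀ x, MDiff (G x)) (y : X) : MDiff (B.uu G y) := by
  have h1 : ∀ x, MDiff (B.b y x • G x) := fun x ↦ (hG x).const_smul _
  have h2 : MDiff (∑ x, B.b y x • G x) := .sum fun x _ ↦ h1 x
  have h3 := (mdiff_cexp (2 * π * Complex.I * ((-(B.e y / n) : ℝ) : ℂ))).mul h2
  have e : B.uu G y = (fun τ : ℍ ↦ cexp (2 * π * Complex.I * ((-(B.e y / n) : ℝ) : ℂ) * τ)) *
      (∑ x, B.b y x • G x) := by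
    ext τ
    simp only [EB.uu, Pi.mul_apply, Finset.sum_apply, Pi.smul_apply, smul_eq_mul]
    congr 1
    refine Finset.sum_congr rfl fun x _ ↦ mul_comm _ _
  rw [e]
  exact h3

omit [MulAction SL(2, ℤ) X] [DecidableEq X] in
lemma bdd_comb {G : X → ℍ → ℂ} (hG : ∀ x, IsBoundedAtImInfty (G x)) (c : X → ℂ) :
    IsBoundedAtImInfty (fun τ ↦ ∑ x, G x τ * c x) := by
  have h1 : ∀ x, c x • G x ∈ boundedAtImInftySubalgebra ℂ := fun x ↦
    Subalgebra.smul_mem _ (hG x) _
  have h2 : (∑ x, c x • G x) ∈ boundedAtImInftySubalgebra ℂ := Subalgebra.sum_mem _ fun x _ ↦ h1 x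
  have e : (fun τ ↦ ∑ x, G x τ * c x) = ∑ x, c x • G x := by
    ext τ
    simp only [Finset.sum_apply, Pi.smul_apply, smul_eq_mul]
    refine Finset.sum_congr rfl fun x _ ↦ mul_comm _ _
  rw [e]
  exact h2

omit [DecidableEq X] in
lemma EB.uu_bdd [NeZero n] {k : ℤ} {G : X → ℍ → ℂ} (hG : IsVV k G) (y : X) :
    IsBoundedAtImInfty (B.uu G y) := by
  have hn : (0 : ℝ) < n := by exact_mod_cast Nat.pos_of_ne_zero (NeZero.ne n)
  refine bdd_of_growth (s := B.e y / n) (B.uu_mdiff hG.holo y) (B.uu_per hG y) ?_ ?_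
  · rw [div_lt_one hn]
    exact_mod_cast B.lt y
  · have h1 := bdd_comb hG.bdd (B.b y)
    rw [IsBoundedAtImInfty, BoundedAtFilter] at h1
    have h2 : (fun τ : ℍ ↦ cexp (2 * π * Complex.I * ((-(B.e y / n) : ℝ) : ℂ) * τ)) =O[atImInfty]
        fun τ ↦ Real.exp (2 * π * (B.e y / n) * τ.im) := by
      refine Asymptotics.IsBigO.of_bound 1 (Eventually.of_forall fun τ ↦ ?_)
      rw [norm_cexp_tau, Real.norm_of_nonneg (Real.exp_pos _).le, one_mul]
      apply le_of_eq
      congr 1; ring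
    refine (h2.mul h1).congr_right fun τ ↦ ?_
    simp

/-- the limit of `uu` at infinity -/
def EB.lim (G : X → ℍ → ℂ) (y : X) : ℂ := valueAtInfty (B.uu G y)

omit [DecidableEq X] in
lemma EB.tendsto_lim [NeZero n] {k : ℤ} {G : X → ℍ → ℂ} (hG : IsVV k G) (y : X) :
    Tendsto (B.uu G y) atImInfty (𝓝 (B.lim G y)) :=
  tendsto_of_periodic_bdd (B.uu_mdiff hG.holo y) (B.uu_per hG y) (B.uu_bdd hG y)

/-- the matrix of the eigenbasis -/
def EB.P : Matrix X X ℂ := Matrix.of fun x y ↦ B.b y x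

lemma EB.P_det_ne : B.P.det ≠ 0 := by
  have h1 : LinearIndependent ℂ B.P.col := by
    have := B.b.linearIndependent
    exact this
  have h2 := Matrix.linearIndependent_cols_iff_isUnit.mp h1
  rw [Matrix.isUnit_iff_isUnit_det] at h2
  exact h2.ne_zero

/-- If all limits vanish, `G` is divisible by the discriminant. -/
lemma EB.isBigO_of_lim_zero [NeZero n] {k : ℤ} {G : X → ℍ → ℂ} (hG : IsVV k G)
    (h0 : ∀ y, B.lim G y = 0) (x : X) : G x =O[atImInfty] ModularForm.discriminant := by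
  have h1 : ∀ y, (fun τ ↦ ∑ x, G x τ * B.b y x) =O[atImInfty] ModularForm.discriminant := by
    intro y
    have hz : IsZeroAtImInfty (B.uu G y) := by
      have := B.tendsto_lim hG y
      rw [h0 y] at this
      exact this
    have hO := isBigO_of_periodic_zero (B.uu_mdiff hG.holo y) (B.uu_per hG y) hz
    refine Asymptotics.IsBigO.trans ?_ hO
    refine Asymptotics.IsBigO.of_bound 1 (Eventually.of_forall fun τ ↦ ?_)
    rw [one_mul, EB.uu, norm_mul, norm_cexp_tau]
    refine le_mul_of_one_le_left (norm_nonneg _) ?_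
    apply Real.one_le_exp
    have : 0 ≤ (B.e y / n : ℝ) := by positivity
    have h3 := τ.im_pos
    have h4 := Real.pi_pos
    have : -2 * π * -(B.e y / n : ℝ) * τ.im = 2 * π * (B.e y / n : ℝ) * τ.im := by ring
    rw [this]
    positivity
  -- invert the matrix
  have e : G x = fun τ ↦ ∑ y, (∑ x', G x' τ * B.b y x') * B.P⁻¹ y x := by
    ext τ
    have hu : IsUnit B.P.det := B.P_det_ne.isUnit
    have h2 : (Matrix.vecMul (Matrix.vecMul (fun x' ↦ G x' τ) B.P) B.P⁻¹) x = G x τ := by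
      rw [Matrix.vecMul_vecMul, Matrix.mul_nonsing_inv _ hu, Matrix.vecMul_one]
    rw [← h2]
    rfl
  rw [e]
  refine Asymptotics.IsBigO.fun_sum fun y _ ↦ ?_
  have := (h1 y).const_mul_left (B.P⁻¹ y x)
  refine this.congr_left fun τ ↦ mul_comm _ _

/-- **The matrix of limits of a minimal frame is invertible.** -/
theorem EB.lim_det_ne [NeZero n] {k : X → ℤ} {F : X → X → ℍ → ℂ} (h : IsMinFrame k F)
    (hX : ∀ x : X, (-1 : SL(2, ℤ)) • x = x) :
    (Matrix.of fun i y ↦ B.lim (F i) y).det ≠ 0 := by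
  classical
  intro h0
  obtain ⟨c, hc, hrel⟩ := Matrix.exists_vecMul_eq_zero_iff.mpr h0
  obtain ⟨m, hm, hmax⟩ := exists_max_index k c hc
  have hab : ∀ i, c i ≠ 0 → ∃ a b : ℕ, k m + 4 - k i = 4 * a + 6 * b := by
    intro i hi
    have h1 := hmax i hi
    have h2 : Even (k m + 4 - k i) :=
      (Even.add (h.1.even hX m) ⟨2, rfl⟩).sub (h.1.even hX i)
    obtain ⟨a, b, hab⟩ := exists_ab (k := (k m + 4 - k i).toNat) (by
      have : ((k m + 4 - k i).toNat : ℤ) = k m + 4 - k i := Int.toNat_of_nonneg (by omega)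
      rw [← this] at h2
      exact_mod_cast h2) (by omega)
    exact ⟨a, b, by omega⟩
  choose! a b hab using hab
  let g : X → ℍ → ℂ := fun i ↦ (c i) • ((E₄ : ℍ → ℂ) ^ a i * (E₆ : ℍ → ℂ) ^ b i)
  have hg : ∀ i, IsL1 ((k m + 4) - k i) (g i) := by
    intro i
    by_cases hi : c i = 0
    · have : g i = 0 := by simp [g, hi]
      rw [this]; exact isL1_zero _
    · exact ((isL1_E4E6 (a i) (b i)).smul _).congr (hab i hi).symm
  have hglim : ∀ i, Tendsto (g i) atImInfty (𝓝 (c i)) := by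
    intro i
    have h1 := ((E4_tendsto.pow (a i)).mul (E6_tendsto.pow (b i))).const_mul (c i)
    rw [one_pow, one_pow, one_mul, mul_one] at h1
    exact h1
  have hG := isVV_comb h.1.vv (k m + 4) g hg
  set G : X → ℍ → ℂ := fun x τ ↦ ∑ i, g i τ * F i x τ with hGdef
  have huG : ∀ y τ, B.uu G y τ = ∑ i, g i τ * B.uu (F i) y τ := by
    intro y τ
    simp only [EB.uu, hGdef]
    rw [Finset.mul_sum]
    simp_rw [Finset.sum_mul, Finset.mul_sum]
    rw [Finset.sum_comm]
    refine Finset.sum_congr rfl fun i _ ↦ ?_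
    refine Finset.sum_congr rfl fun x _ ↦ ?_
    ring
  have hlim : ∀ y, B.lim G y = 0 := by
    intro y
    have h1 := B.tendsto_lim hG y
    have h2 : Tendsto (fun τ ↦ ∑ i, g i τ * B.uu (F i) y τ) atImInfty
        (𝓝 (∑ i, c i * B.lim (F i) y)) :=
      tendsto_finsetSum _ fun i _ ↦ (hglim i).mul (B.tendsto_lim (h.1.vv i) y)
    have h3 : ∑ i, c i * B.lim (F i) y = 0 := by
      have := congrFun hrel y
      simpa [Matrix.vecMul, dotProduct] using this
    rw [h3] at h2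
    exact tendsto_nhds_unique h1 (h2.congr fun τ ↦ (huG y τ).symm)
  obtain ⟨G', hG', hGG'⟩ := hG.exists_div_Delta (B.isBigO_of_lim_zero hG hlim)
  refine h.descent m (by omega : k m + 4 - 12 < k m) hG' g ModularForm.discriminant
    (hg m).holo ?_ ?_
  · intro h0
    have h1 := hglim m
    rw [h0] at h1
    have h2 : Tendsto (0 : ℍ → ℂ) atImInfty (𝓝 0) := tendsto_const_nhds
    exact hm (tendsto_nhds_unique h1 h2)
  · intro x τ'
    exact hGG' x τ'

end Fermat.Agent.S20
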