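import Fermat.Agent.S20.Count

/-!
# The dual frame and the space of weight two cusp forms
-/

set_option autoImplicit false

noncomputable section

open UpperHalfPlane hiding I
open Real Complex Filter ModularForm ModularFormClass EisensteinSeries Derivative
open scoped Manifold MatrixGroups ModularForm Topology

namespace Fermat.Agent.S20

variable {X : Type} [MulAction SL(2, ℤ) X]

/-- Vector valued cusp forms. -/
structure IsVVCusp (k : ℤ) (F : X → ℍ → ℂ) : Prop where
  slash : ∀ (γ : SL(2, ℤ)) (x : X), (F x) ∣[k] γ = F (γ⁻¹ • x)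
  holo : ∀ x, MDiff (F x)
  zero : ∀ x, IsZeroAtImInfty (F x)

lemma IsVVCusp.toVV {k : ℤ} {F : X → ℍ → ℂ} (h : IsVVCusp k F) : IsVV k F :=
  ⟨h.slash, h.holo, fun x ↦ (h.zero x).isBoundedAtImInfty⟩

variable [Fintype X]

lemma IsVV.pair {k l : ℤ} {F G : X → ℍ → ℂ} (hF : IsVV k F) (hG : IsVV l G) :
    IsL1 (k + l) (fun τ ↦ ∑ x, F x τ * G x τ) where
  slash γ := by
    apply slash_of_smul_apply
    intro τ
    rw [← Equiv.sum_comp (MulAction.toPerm γ : Equiv.Perm X), Finset.mul_sum]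
    refine Finset.sum_congr rfl fun x _ ↦ ?_
    rw [hF.smul_apply, hG.smul_apply, zpow_add₀ (denom_ne_zero _ _)]
    simp only [MulAction.toPerm_apply, inv_smul_smul]
    ring
  holo := by
    have h1 : ∀ x, MDiff (F x * G x) := fun x ↦ (hF.holo x).mul (hG.holo x)
    have h2 : MDiff (∑ x, F x * G x) := .sum fun x _ ↦ h1 x
    have e : (fun τ ↦ ∑ x, F x τ * G x τ) = ∑ x, F x * G x := by
      ext τ; simp [Finset.sum_apply]
    rw [e]; exact h2
  bdd := by
    have h2 : (∑ x, F x * G x) ∈ boundedAtImInftySubalgebra ℂ :=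
      Subalgebra.sum_mem _ fun x _ ↦ Subalgebra.mul_mem _ (hF.bdd x) (hG.bdd x)
    have e : (fun τ ↦ ∑ x, F x τ * G x τ) = ∑ x, F x * G x := by
      ext τ; simp [Finset.sum_apply]
    rw [e]; exact h2

lemma IsVVCusp.pair {k l : ℤ} {F G : X → ℍ → ℂ} (hF : IsVVCusp k F) (hG : IsVV l G) :
    IsL1Cusp (k + l) (fun τ ↦ ∑ x, F x τ * G x τ) where
  slash := (hF.toVV.pair hG).slash
  holo := (hF.toVV.pair hG).holo
  zero := by
    have h1 : Tendsto (fun τ ↦ ∑ x, F x τ * G x τ) atImInfty (𝓝 (∑ _x : X, (0 : ℂ))) := by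
      refine tendsto_finsetSum _ fun x _ ↦ ?_
      have := IsZeroAtImInfty.mul_bdd (hG.bdd x) (hF.zero x)
      refine Tendsto.congr (fun τ ↦ ?_) this
      simp [mul_comm]
    rw [Finset.sum_const_zero] at h1
    exact h1

variable [DecidableEq X]

/-- dual family -/
def dual (F : X → X → ℍ → ℂ) (j x : X) (τ : ℍ) : ℂ :=
  ModularForm.discriminant τ * (mat F τ)⁻¹ x j

section
variable {k : X → ℤ} {F : X → X → ℍ → ℂ}

lemma dual_smul (hF : ∀ i, IsVV (k i) (F i)) (hdt : ∀ τ, dt F τ ≠ 0) (j x : X) (γ : SL(2, ℤ))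
    (τ : ℍ) : dual F j x (γ • τ) = denom γ τ ^ (12 - k j) * dual F j (γ⁻¹ • x) τ := by
  have hden := denom_ne_zero (γ : GL (Fin 2) ℝ) τ
  set N : Matrix X X ℂ := Matrix.of fun x j ↦ (mat F τ)⁻¹ (γ⁻¹ • x) j * denom γ τ ^ (-k j) with hN
  have hinv : (mat F (γ • τ))⁻¹ = N := by
    apply Matrix.inv_eq_right_inv
    ext i j
    rw [Matrix.mul_apply]
    have e1 : ∀ x, mat F (γ • τ) i x * N x j =
        denom γ τ ^ (k i - k j) * (mat F τ i (γ⁻¹ • x) * (mat F τ)⁻¹ (γ⁻¹ • x) j) := by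
      intro x
      simp only [hN, mat, Matrix.of_apply]
      rw [(hF i).smul_apply, sub_eq_add_neg, zpow_add₀ hden]
      ring
    simp_rw [e1]
    rw [← Finset.mul_sum]
    have e2 : ∑ x, mat F τ i (γ⁻¹ • x) * (mat F τ)⁻¹ (γ⁻¹ • x) j
        = ∑ x, mat F τ i x * (mat F τ)⁻¹ x j :=
      Equiv.sum_comp (MulAction.toPerm γ⁻¹ : Equiv.Perm X)
        (fun x ↦ mat F τ i x * (mat F τ)⁻¹ x j)
    rw [e2, ← Matrix.mul_apply, Matrix.mul_nonsing_inv _ (hdt τ).isUnit]
    by_cases hij : i = j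
    · subst hij; simp
    · simp [Matrix.one_apply_ne hij]
  rw [dual, hinv, isL1Cusp_Delta.toL1.smul_apply, dual, sub_eq_add_neg, zpow_add₀ hden]
  simp only [hN, Matrix.of_apply]
  ring

lemma dual_mdiff (hF : ∀ i, IsVV (k i) (F i)) (hdt : ∀ τ, dt F τ ≠ 0) (j x : X) :
    MDiff (dual F j x) := by
  -- adjugate as determinant of a modified family
  set F' : X → X → ℍ → ℂ := Function.update F j (fun x' _ ↦ Pi.single (M := fun _ ↦ ℂ) x 1 x')
    with hF'
  have h1 : ∀ τ, (mat F τ).adjugate x j = dt F' τ := by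
    intro τ
    rw [Matrix.adjugate_apply, dt]
    congr 1
    ext i x'
    by_cases hi : i = j
    · subst hi; simp [mat, hF']
    · simp [mat, hF', hi]
  have h2 : MDiff (dt F') := by
    apply dt_mdiff
    intro i x'
    by_cases hi : i = j
    · subst hi
      simp only [hF', Function.update_self]
      exact mdifferentiable_const
    · simp only [hF', Function.update_of_ne hi]
      exact (hF i).holo x'
  have h3 : MDiff (dt F) := dt_mdiff fun i x ↦ (hF i).holo x
  have e : dual F j x = ModularForm.discriminant * (dt F' / dt F) := by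
    ext τ
    rw [dual, Matrix.inv_def, Ring.inverse_eq_inv', Matrix.smul_apply, h1]
    simp only [Pi.mul_apply, Pi.div_apply, smul_eq_mul, dt]
    rw [div_eq_inv_mul]
  rw [e]
  exact holo_Delta.mul (h2.div h3 hdt)

variable {n : ℕ} (B : EB X n)

lemma EB.Phi_det_ne [NeZero n] (hdt : ∀ τ, dt F τ ≠ 0) (τ : ℍ) : (B.Phi F τ).det ≠ 0 := by
  intro h0
  have := B.dt_mul F τ
  rw [h0, zero_mul] at this
  exact mul_ne_zero (hdt τ) B.P_det_ne this

lemma EB.dual_eq [NeZero n] (hdt : ∀ τ, dt F τ ≠ 0) (j x : X) (τ : ℍ) :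
    dual F j x τ = ∑ y, B.P x y * ((ModularForm.discriminant τ / qq τ) *
      cexp (2 * π * Complex.I * ((1 - B.e y / n : ℝ) : ℂ) * τ)) * (B.Phi F τ)⁻¹ y j := by
  set d1 : X → ℂ := fun y ↦ cexp (2 * π * Complex.I * ((B.e y / n : ℝ) : ℂ) * τ) with hd1
  set d2 : X → ℂ := fun y ↦ cexp (2 * π * Complex.I * ((-(B.e y / n) : ℝ) : ℂ) * τ) with hd2
  have hd : ∀ y, d1 y * d2 y = 1 := by
    intro y
    rw [← Complex.exp_add, Complex.exp_eq_one_iff]
    exact ⟨0, by push_cast; ring⟩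
  have hinv : (mat F τ)⁻¹ = B.P * (Matrix.diagonal d2 * (B.Phi F τ)⁻¹) := by
    apply Matrix.inv_eq_right_inv
    rw [← mul_assoc, B.mat_mul_P, mul_assoc, ← mul_assoc (Matrix.diagonal _),
      Matrix.diagonal_mul_diagonal]
    have : (fun y ↦ cexp (2 * π * Complex.I * ((B.e y / n : ℝ) : ℂ) * τ) * d2 y)
        = fun _ ↦ (1 : ℂ) := by
      ext y; exact hd y
    rw [this, Matrix.diagonal_one, one_mul, Matrix.mul_nonsing_inv _ (B.Phi_det_ne hdt τ).isUnit]
  rw [dual, hinv, Matrix.mul_apply, Finset.mul_sum]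
  refine Finset.sum_congr rfl fun y _ ↦ ?_
  rw [Matrix.diagonal_mul]
  have h3 : cexp (2 * π * Complex.I * ((1 - B.e y / n : ℝ) : ℂ) * τ) = qq τ * d2 y := by
    rw [qq, hd2]
    simp only
    rw [← Complex.exp_add]
    congr 1
    push_cast
    ring
  rw [h3]
  have hq : qq τ ≠ 0 := Complex.exp_ne_zero _
  field_simp

lemma cexp_tendsto_zero {a : ℝ} (ha : 0 < a) :
    Tendsto (fun τ : ℍ ↦ cexp (2 * π * Complex.I * a * τ)) atImInfty (𝓝 0) := by
  rw [tendsto_zero_iff_norm_tendsto_zero]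
  simp_rw [norm_cexp_tau]
  apply Real.tendsto_exp_atBot.comp
  have h2 : Tendsto (fun τ : ℍ ↦ τ.im) atImInfty atTop := tendsto_comap
  refine Tendsto.const_mul_atTop_of_neg ?_ h2
  have := mul_pos (mul_pos two_pos Real.pi_pos) ha
  linarith

include B in
lemma EB.dual_zero [NeZero n] (h : IsMinFrame k F)
    (hX : ∀ x : X, (-1 : SL(2, ℤ)) • x = x) (j x : X) : IsZeroAtImInfty (dual F j x) := by
  have hdt := h.dt_ne_zero hX
  have hn : (0 : ℝ) < n := by exact_mod_cast Nat.pos_of_ne_zero (NeZero.ne n)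
  have h0 : (B.Phi0 F).det ≠ 0 := B.lim_det_ne h hX
  have hinv : ∀ y, Tendsto (fun τ ↦ (B.Phi F τ)⁻¹ y j) atImInfty (𝓝 ((B.Phi0 F)⁻¹ y j)) := by
    intro y
    have h1 := B.Phi_tendsto h.1.vv
    have h2 : Tendsto (fun τ ↦ (B.Phi F τ).adjugate) atImInfty (𝓝 (B.Phi0 F).adjugate) :=
      (continuous_id.matrix_adjugate.tendsto (B.Phi0 F)).comp h1
    have h3 : Tendsto (fun τ ↦ (B.Phi F τ).adjugate y j) atImInfty
        (𝓝 ((B.Phi0 F).adjugate y j)) :=
      tendsto_pi_nhds.mp (tendsto_pi_nhds.mp h2 y) j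
    have h4 := (B.Phi_det_tendsto h.1.vv).inv₀ h0
    have h5 := h4.mul h3
    have e : ∀ M : Matrix X X ℂ, M⁻¹ y j = M.det⁻¹ * M.adjugate y j := by
      intro M
      rw [Matrix.inv_def, Ring.inverse_eq_inv', Matrix.smul_apply, smul_eq_mul]
    simp_rw [e]
    exact h5
  have hsum : Tendsto (dual F j x) atImInfty (𝓝 (∑ y : X, B.P x y * (1 * 0) *
      (B.Phi0 F)⁻¹ y j)) := by
    have : dual F j x = fun τ ↦ ∑ y, B.P x y * ((ModularForm.discriminant τ / qq τ) *
      cexp (2 * π * Complex.I * ((1 - B.e y / n : ℝ) : ℂ) * τ)) * (B.Phi F τ)⁻¹ y j :=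
      funext fun τ ↦ B.dual_eq hdt j x τ
    rw [this]
    refine tendsto_finsetSum _ fun y _ ↦ ?_
    refine Tendsto.mul (Tendsto.const_mul _ (Delta_div_q_tendsto.mul ?_)) (hinv y)
    apply cexp_tendsto_zero
    have : (B.e y : ℝ) / n < 1 := by
      rw [div_lt_one hn]; exact_mod_cast B.lt y
    linarith
  simp only [mul_zero, zero_mul, Finset.sum_const_zero] at hsum
  exact hsum

include B in
lemma EB.dual_vvcusp [NeZero n] (h : IsMinFrame k F)
    (hX : ∀ x : X, (-1 : SL(2, ℤ)) • x = x) (j : X) : IsVVCusp (12 - k j) (dual F j) where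
  slash γ x := slash_of_smul_apply γ fun τ ↦ dual_smul h.1.vv (h.dt_ne_zero hX) j x γ τ
  holo x := dual_mdiff h.1.vv (h.dt_ne_zero hX) j x
  zero x := B.dual_zero h hX j x

omit [MulAction SL(2, ℤ) X] in
lemma dual_pair (hdt : ∀ τ, dt F τ ≠ 0) (i j : X) (τ : ℍ) :
    ∑ x, F i x τ * dual F j x τ = if i = j then ModularForm.discriminant τ else 0 := by
  have h1 : (mat F τ * (mat F τ)⁻¹) i j = (1 : Matrix X X ℂ) i j := by
    rw [Matrix.mul_nonsing_inv _ (hdt τ).isUnit]
  rw [Matrix.mul_apply, Matrix.one_apply] at h1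
  have h2 : ∑ x, F i x τ * dual F j x τ = ModularForm.discriminant τ *
      ∑ x, mat F τ i x * (mat F τ)⁻¹ x j := by
    rw [Finset.mul_sum]
    refine Finset.sum_congr rfl fun x _ ↦ ?_
    rw [dual, mat, Matrix.of_apply]; ring
  rw [h2, h1]
  split_ifs <;> simp

omit [MulAction SL(2, ℤ) X] in
lemma dual_pair' (hdt : ∀ τ, dt F τ ≠ 0) (x x' : X) (τ : ℍ) :
    ∑ j, dual F j x τ * F j x' τ = if x = x' then ModularForm.discriminant τ else 0 := by
  have h1 : ((mat F τ)⁻¹ * mat F τ) x x' = (1 : Matrix X X ℂ) x x' := by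
    rw [Matrix.nonsing_inv_mul _ (hdt τ).isUnit]
  rw [Matrix.mul_apply, Matrix.one_apply] at h1
  have h2 : ∑ j, dual F j x τ * F j x' τ = ModularForm.discriminant τ *
      ∑ j, (mat F τ)⁻¹ x j * mat F τ j x' := by
    rw [Finset.mul_sum]
    refine Finset.sum_congr rfl fun j _ ↦ ?_
    rw [dual, mat, Matrix.of_apply]; ring
  rw [h2, h1]
  split_ifs <;> simp

lemma dual_ne_zero (h : IsMinFrame k F)
    (hX : ∀ x : X, (-1 : SL(2, ℤ)) • x = x) (j : X) : dual F j ≠ 0 := by
  intro h0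
  have h1 := dual_pair (h.dt_ne_zero hX) j j UpperHalfPlane.I
  rw [h0] at h1
  simp at h1
  exact discriminant_ne_zero _ h1.symm

include B in
/-- weights are at most ten -/
lemma EB.weight_le [NeZero n] (h : IsMinFrame k F)
    (hX : ∀ x : X, (-1 : SL(2, ℤ)) • x = x) (j : X) : k j ≤ 10 := by
  have h1 := B.dual_vvcusp h hX j
  have h2 := dual_ne_zero h hX j
  have h3 := h.1.even hX j
  by_contra! h4
  have h5 : 12 ≤ k j := by
    obtain ⟨m, hm⟩ := h3
    omega
  rcases h5.lt_or_eq with h6 | h6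
  · exact h2 (h1.toVV.eq_zero_of_neg (by omega))
  · apply h2
    ext x τ
    have h7 : IsVV 0 (dual F j) := h1.toVV.congr (by omega)
    obtain ⟨c, hc⟩ := h7.exists_const x
    have h8 := h1.zero x
    have h9 : Tendsto (dual F j x) atImInfty (𝓝 c) := by
      have : dual F j x = fun _ ↦ c := funext hc
      rw [this]; exact tendsto_const_nhds
    have := tendsto_nhds_unique h9 h8
    rw [hc, this]; rfl

include B in
/-- existence of a weight zero member -/
lemma EB.exists_weight_zero [NeZero n] [Nonempty X] (h : IsMinFrame k F)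
    (hX : ∀ x : X, (-1 : SL(2, ℤ)) • x = x) : ∃ j, k j = 0 := by
  by_contra! h0
  have hone : IsVV (X := X) 0 (fun _ _ ↦ (1 : ℂ)) :=
    ⟨fun γ x ↦ is_invariant_const γ 1, fun x ↦ mdifferentiable_const,
      fun x ↦ const_boundedAtFilter _ _⟩
  have h1 : ∀ j, (fun τ ↦ ∑ x, dual F j x τ * (1 : ℂ)) = 0 := by
    intro j
    have h2 := (B.dual_vvcusp h hX j).pair hone
    obtain ⟨g, hg, hgeq⟩ := h2.exists_div
    have h3 : g = 0 := hg.eq_zero_of_neg (by
      have := h.1.nonneg j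
      have := h0 j
      omega)
    ext τ
    have := hgeq τ
    rw [h3] at this
    simpa using this
  obtain ⟨x'⟩ := ‹Nonempty X›
  have h4 : ∑ x, ∑ j, dual F j x UpperHalfPlane.I * F j x' UpperHalfPlane.I
      = ModularForm.discriminant UpperHalfPlane.I := by
    simp_rw [dual_pair' (h.dt_ne_zero hX)]
    simp
  rw [Finset.sum_comm] at h4
  have h5 : ∀ j, ∑ x, dual F j x UpperHalfPlane.I * F j x' UpperHalfPlane.I = 0 := by
    intro j
    rw [← Finset.sum_mul]
    have := congrFun (h1 j) UpperHalfPlane.I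
    simp only [mul_one, Pi.zero_apply] at this
    rw [this, zero_mul]
  simp_rw [h5] at h4
  simp at h4
  exact discriminant_ne_zero _ h4.symm

/-- uniqueness of the weight zero member -/
lemma IsFrame.weight_zero_unique [MulAction.IsPretransitive SL(2, ℤ) X] (h : IsFrame k F)
    {i j : X} (hi : k i = 0) (hj : k j = 0) : i = j := by
  by_contra hij
  have key : ∀ i, k i = 0 → ∀ x x' : X, ∀ τ, F i x τ = F i x' τ := by
    intro i hi x x' τ
    have h1 : IsVV 0 (F i) := (h.vv i).congr hi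
    obtain ⟨γ, hγ⟩ := MulAction.exists_smul_eq SL(2, ℤ) x' x
    have h2 := h1.smul_apply γ x τ
    rw [zpow_zero, one_mul] at h2
    have h3 : γ⁻¹ • x = x' := by rw [inv_smul_eq_iff, hγ]
    rw [h3] at h2
    obtain ⟨c, hc⟩ := h1.exists_const x
    rw [← h2, hc, hc]
  obtain ⟨τ, hτ⟩ := h.exists_ne
  apply hτ
  -- two proportional rows
  by_cases hX : Nonempty X
  · obtain ⟨x₀⟩ := hX
    by_cases h0 : F i x₀ τ = 0
    · apply Matrix.det_eq_zero_of_row_eq_zero i
      intro x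
      rw [mat, Matrix.of_apply, key i hi x x₀ τ, h0]
    · have h5 : ∃ v : X → ℂ, v ≠ 0 ∧ Matrix.vecMul v (mat F τ) = 0 := by
        refine ⟨Pi.single j (F i x₀ τ) - Pi.single i (F j x₀ τ), ?_, ?_⟩
        · intro h6
          have := congrFun h6 j
          rw [Pi.sub_apply, Pi.single_eq_same, Pi.single_eq_of_ne (Ne.symm hij), sub_zero] at this
          exact h0 this
        · rw [Matrix.sub_vecMul]
          ext x
          simp only [Pi.sub_apply, Matrix.single_vecMul, Pi.zero_apply, mat]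
          rw [Pi.smul_apply, Pi.smul_apply]
          simp only [Matrix.row_apply, Matrix.of_apply, smul_eq_mul]
          rw [key i hi x x₀ τ, key j hj x x₀ τ]
          ring
      exact Matrix.exists_vecMul_eq_zero_iff.mp h5
  · exact absurd ⟨i⟩ hX

end

end Fermat.Agent.S20
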