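import Fermat.Agent.S20.Numeric
import Fermat.Agent.IntStr.DeltaN
import Fermat.Agent.Gamma0Comb.Orbits

/-!
# Existence of a frame for `SL(2,ℤ) / Γ₀(N)`
-/

set_option autoImplicit false

noncomputable section

open UpperHalfPlane hiding I
open Real Complex Filter ModularForm ModularFormClass EisensteinSeries Derivative
open scoped Manifold MatrixGroups ModularForm Topology

namespace Fermat.Agent.S20

open CongruenceSubgroup

section general
variable {X : Type} [MulAction SL(2, ℤ) X]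

lemma IsVV.mulVV {k l : ℤ} {F G : X → ℍ → ℂ} (hF : IsVV k F) (hG : IsVV l G) :
    IsVV (k + l) (fun x ↦ F x * G x) where
  slash γ x := by rw [mul_slash_SL2, hF.slash, hG.slash]
  holo x := (hF.holo x).mul (hG.holo x)
  bdd x := (hF.bdd x).mul (hG.bdd x)

lemma IsVV.one : IsVV (X := X) 0 (fun _ ↦ (1 : ℍ → ℂ)) where
  slash γ x := is_invariant_one γ
  holo x := mdifferentiable_const
  bdd x := const_boundedAtFilter _ _

lemma IsVV.pow {k : ℤ} {F : X → ℍ → ℂ} (hF : IsVV k F) (n : ℕ) :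
    IsVV (n * k) (fun x ↦ F x ^ n) := by
  induction n with
  | zero => simpa using IsVV.one (X := X)
  | succ n ih =>
    simp_rw [pow_succ]
    exact (ih.mulVV hF).congr (by push_cast; ring)

/-- A family of pairwise distinct forms gives a frame. -/
lemma exists_frame_of_injective [Fintype X] [DecidableEq X] {k : ℤ} {f : X → ℍ → ℂ}
    (hf : IsVV k f) (hinj : Function.Injective f) :
    ∃ (k' : X → ℤ) (F : X → X → ℍ → ℂ), IsFrame k' F := by
  classical
  obtain ⟨τ, hτ⟩ : ∃ τ, Function.Injective (fun x ↦ f x τ) := by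
    set s : Finset (X × X) := Finset.univ.filter fun p ↦ p.1 ≠ p.2 with hs
    have h1 : ∏ p ∈ s, (f p.1 - f p.2) ≠ 0 := by
      intro h0
      rw [UpperHalfPlane.prod_eq_zero_iff] at h0
      · obtain ⟨p, hp, hp0⟩ := h0
        rw [hs, Finset.mem_filter] at hp
        exact hp.2 (hinj (sub_eq_zero.mp hp0))
      · intro p _
        exact (hf.holo _).sub (hf.holo _)
    obtain ⟨τ, hτ⟩ := Function.ne_iff.mp h1
    refine ⟨τ, fun x y hxy ↦ ?_⟩
    by_contra hne
    apply hτ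
    rw [Finset.prod_apply]
    apply Finset.prod_eq_zero (i := (x, y)) (by simp [hs, hne])
    simpa [sub_eq_zero] using hxy
  let e := Fintype.equivFin X
  refine ⟨fun i ↦ (e i : ℕ) * k, fun i x ↦ f x ^ (e i : ℕ), fun i ↦ hf.pow _, ?_⟩
  intro h0
  have h1 := congrFun h0 τ
  rw [dt, ← Matrix.det_reindex_self e] at h1
  have h2 : Matrix.reindex e e (mat (fun i x ↦ f x ^ (e i : ℕ)) τ) =
      (Matrix.vandermonde (fun j ↦ f (e.symm j) τ)).transpose := by
    ext a b
    simp [mat, Matrix.vandermonde]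
  rw [h2, Matrix.det_transpose] at h1
  apply Matrix.det_vandermonde_ne_zero_iff.mpr _ h1
  exact hτ.comp e.symm.injective

end general

variable {N : ℕ}

local notation "XX" => SL(2, ℤ) ⧸ Gamma0 N

/-- The coset function of a `Γ₀(N)`-invariant function. -/
def cosetFun (k : ℤ) (f : ℍ → ℂ) (x : XX) : ℍ → ℂ := f ∣[k] (x.out : SL(2, ℤ))⁻¹

lemma cosetFun_mk {k : ℤ} {f : ℍ → ℂ} (hf : ∀ γ : SL(2, ℤ), γ ∈ Gamma0 N → f ∣[k] γ = f)
    (g : SL(2, ℤ)) : cosetFun k f (g : XX) = f ∣[k] g⁻¹ := by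
  obtain ⟨h, hh⟩ := QuotientGroup.mk_out_eq_mul (Gamma0 N) g
  rw [cosetFun, hh, mul_inv_rev, SlashAction.slash_mul, hf _ (inv_mem h.2)]

lemma cosetFun_slash {k : ℤ} {f : ℍ → ℂ} (hf : ∀ γ : SL(2, ℤ), γ ∈ Gamma0 N → f ∣[k] γ = f)
    (γ : SL(2, ℤ)) (x : XX) : cosetFun k f x ∣[k] γ = cosetFun k f (γ⁻¹ • x) := by
  obtain ⟨g, rfl⟩ := QuotientGroup.mk_surjective x
  have : γ⁻¹ • (g : XX) = ((γ⁻¹ * g : SL(2, ℤ)) : XX) := rfl
  rw [this, cosetFun_mk hf, cosetFun_mk hf, ← SlashAction.slash_mul, mul_inv_rev, inv_inv]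

lemma isVV_cosetFun {k : ℤ} {f : ℍ → ℂ} (hf : IntStr.IsForm N k f) :
    IsVV k (cosetFun (N := N) k f) where
  slash := cosetFun_slash hf.slash
  holo x := MDifferentiable.slash hf.holo _ _
  bdd x := hf.bdd _

lemma cosetFun_hN_injective (h0 : N ≠ 0) :
    Function.Injective (cosetFun (N := N) 12 (IntStr.hN N)) := by
  intro x y hxy
  obtain ⟨g, rfl⟩ := QuotientGroup.mk_surjective x
  obtain ⟨h, rfl⟩ := QuotientGroup.mk_surjective y
  rw [cosetFun_mk (IntStr.isForm_hN h0).slash, cosetFun_mk (IntStr.isForm_hN h0).slash] at hxy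
  rw [QuotientGroup.eq]
  apply IntStr.gamma0_of_slash_hN h0
  rw [SlashAction.slash_mul, hxy, ← SlashAction.slash_mul, inv_mul_cancel, SlashAction.slash_one]

instance finiteX [NeZero N] : Finite XX := inferInstance

lemma exists_minFrame_X [NeZero N] [Fintype XX] [DecidableEq XX] :
    ∃ (k : XX → ℤ) (F : XX → XX → ℍ → ℂ), IsMinFrame k F := by
  obtain ⟨k, F, h⟩ := exists_frame_of_injective (isVV_cosetFun (IntStr.isForm_hN (NeZero.ne N)))
    (cosetFun_hN_injective (NeZero.ne N))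
  exact exists_minFrame h

lemma neg_one_smul_X (x : XX) : (-1 : SL(2, ℤ)) • x = x := by
  obtain ⟨g, rfl⟩ := QuotientGroup.mk_surjective x
  have : (-1 : SL(2, ℤ)) • (g : XX) = ((-1 * g : SL(2, ℤ)) : XX) := rfl
  rw [this, QuotientGroup.eq, Gamma0_mem]
  simp

end Fermat.Agent.S20
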