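import Fermat.Agent.S20.VV

/-!
# Frames: `|X|` vector valued forms with nonvanishing determinant
-/

set_option autoImplicit false

noncomputable section

open UpperHalfPlane hiding I
open Real Complex Filter ModularForm ModularFormClass EisensteinSeries Derivative
open scoped Manifold MatrixGroups ModularForm Topology

namespace Fermat.Agent.S20

variable {X : Type} [MulAction SL(2, ℤ) X]

instance stab_finiteIndex [Finite X] (x : X) : (MulAction.stabilizer SL(2, ℤ) x).FiniteIndex := by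
  have : Finite (SL(2, ℤ) ⧸ MulAction.stabilizer SL(2, ℤ) x) :=
    Finite.of_equiv _ (MulAction.orbitEquivQuotientStabilizer SL(2, ℤ) x)
  exact Subgroup.finiteIndex_of_finite_quotient

/-- each component of a VV form is a modular form on the stabilizer -/
def IsVV.toMF [Finite X] {k : ℤ} {F : X → ℍ → ℂ} (hF : IsVV k F) (x : X) :
    ModularForm (MulAction.stabilizer SL(2, ℤ) x : Subgroup SL(2, ℤ)) k where
  toFun := F x
  slash_action_eq' := by
    rintro _ ⟨γ, hγ, rfl⟩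
    have h := hF.slash γ x
    have h2 : γ • x = x := hγ
    have h3 : γ⁻¹ • x = x := by rw [inv_smul_eq_iff, h2]
    rw [h3] at h
    exact h
  holo' := hF.holo x
  bdd_at_cusps' {c} hc := by
    rw [Subgroup.IsArithmetic.isCusp_iff_isCusp_SL2Z] at hc
    rw [OnePoint.isBoundedAt_iff_forall_SL2Z hc]
    intro γ _
    rw [hF.slash γ]
    exact hF.bdd _

lemma IsVV.eq_zero_of_neg [Finite X] {k : ℤ} {F : X → ℍ → ℂ} (hF : IsVV k F) (hk : k < 0) :
    F = 0 := by
  ext x τ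
  have := ModularForm.isZero_of_neg_weight hk (hF.toMF x)
  exact congrFun (congrArg DFunLike.coe this) τ

lemma IsVV.exists_const [Finite X] {F : X → ℍ → ℂ} (hF : IsVV 0 F) (x : X) :
    ∃ c : ℂ, ∀ τ, F x τ = c := by
  obtain ⟨c, hc⟩ := ModularForm.eq_const_of_weight_zero (hF.toMF x)
  exact ⟨c, fun τ ↦ congrFun hc τ⟩

variable [Fintype X] [DecidableEq X]

/-- matrix of values of a family of vector valued functions -/
def mat (F : X → X → ℍ → ℂ) (τ : ℍ) : Matrix X X ℂ := Matrix.of fun i x ↦ F i x τ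

/-- determinant function -/
def dt (F : X → X → ℍ → ℂ) (τ : ℍ) : ℂ := (mat F τ).det

omit [MulAction SL(2, ℤ) X] in
lemma dt_def (F : X → X → ℍ → ℂ) :
    dt F = ∑ σ : Equiv.Perm X, ((Equiv.Perm.sign σ : ℤ) : ℂ) • ∏ i, F (σ i) i := by
  ext τ
  rw [dt, Matrix.det_apply]
  simp [mat, Finset.sum_apply, Finset.prod_apply, Units.smul_def]

omit [MulAction SL(2, ℤ) X] in
lemma dt_mdiff {F : X → X → ℍ → ℂ} (hF : ∀ i x, MDiff (F i x)) : MDiff (dt F) := by
  rw [dt_def]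
  have h1 : ∀ σ : Equiv.Perm X, MDiff (∏ i, F (σ i) i) := fun σ ↦ .prod fun i _ ↦ hF _ _
  have h2 : ∀ σ : Equiv.Perm X, MDiff (((Equiv.Perm.sign σ : ℤ) : ℂ) • ∏ i, F (σ i) i) :=
    fun σ ↦ (h1 σ).const_smul _
  exact .sum fun σ _ ↦ h2 σ

lemma prod_zpow_sum {ι : Type} (s : Finset ι) (a : ℂ) (ha : a ≠ 0) (k : ι → ℤ) :
    ∏ i ∈ s, a ^ k i = a ^ (∑ i ∈ s, k i) := by
  classical
  induction s using Finset.induction_on with
  | empty => simp
  | insert i s hi ih => rw [Finset.prod_insert hi, Finset.sum_insert hi, zpow_add₀ ha, ih]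

omit [MulAction SL(2, ℤ) X] in
lemma dt_bdd {F : X → X → ℍ → ℂ} (hF : ∀ i x, IsBoundedAtImInfty (F i x)) :
    IsBoundedAtImInfty (dt F) := by
  rw [dt_def]
  have h1 : ∀ σ : Equiv.Perm X, IsBoundedAtImInfty
      (((Equiv.Perm.sign σ : ℤ) : ℂ) • ∏ i, F (σ i) i) := by
    intro σ
    apply Filter.BoundedAtFilter.smul
    show (∏ i, F (σ i) i) ∈ boundedAtImInftySubalgebra ℂ
    exact Subalgebra.prod_mem _ fun i _ ↦ hF _ _
  show (∑ σ : Equiv.Perm X, ((Equiv.Perm.sign σ : ℤ) : ℂ) • ∏ i, F (σ i) i) ∈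
    boundedAtImInftySubalgebra ℂ
  exact Subalgebra.sum_mem _ fun σ _ ↦ h1 σ

/-- A frame of weights `k`. -/
structure IsFrame (k : X → ℤ) (F : X → X → ℍ → ℂ) : Prop where
  vv : ∀ i, IsVV (k i) (F i)
  det_ne : dt F ≠ 0

lemma mat_smul {k : X → ℤ} {F : X → X → ℍ → ℂ} (hF : ∀ i, IsVV (k i) (F i)) (γ : SL(2, ℤ))
    (τ : ℍ) : mat F (γ • τ) = Matrix.diagonal (fun i ↦ denom γ τ ^ k i) *
      (mat F τ).submatrix id (MulAction.toPerm γ⁻¹) := by
  ext i x
  rw [Matrix.diagonal_mul]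
  simp only [mat, Matrix.of_apply, Matrix.submatrix_apply, id, MulAction.toPerm_apply]
  exact (hF i).smul_apply γ x τ

lemma dt_smul {k : X → ℤ} {F : X → X → ℍ → ℂ} (hF : ∀ i, IsVV (k i) (F i)) (γ : SL(2, ℤ))
    (τ : ℍ) : dt F (γ • τ) = denom γ τ ^ (∑ i, k i) *
      (((Equiv.Perm.sign (MulAction.toPerm γ⁻¹ : Equiv.Perm X) : ℤ) : ℂ) * dt F τ) := by
  rw [dt, mat_smul hF, Matrix.det_mul, Matrix.det_diagonal, Matrix.det_permute', dt,
    prod_zpow_sum _ _ (denom_ne_zero _ _)]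

lemma isL1_dt_sq {k : X → ℤ} {F : X → X → ℍ → ℂ} (hF : ∀ i, IsVV (k i) (F i)) :
    IsL1 (2 * ∑ i, k i) (fun τ ↦ dt F τ ^ 2) where
  slash γ := by
    apply slash_of_smul_apply
    intro τ
    rw [dt_smul hF, mul_pow, mul_pow]
    have h1 : (((Equiv.Perm.sign (MulAction.toPerm γ⁻¹ : Equiv.Perm X) : ℤ) : ℂ)) ^ 2 = 1 := by
      rcases Int.units_eq_one_or (Equiv.Perm.sign (MulAction.toPerm γ⁻¹ : Equiv.Perm X)) with h | h
      · rw [h]; simp
      · rw [h]; simp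
    rw [h1, one_mul, zpow_mul', ← zpow_natCast]
    rfl
  holo := (dt_mdiff fun i x ↦ (hF i).holo x).pow 2
  bdd := by
    have h := dt_bdd fun i x ↦ (hF i).bdd x
    have := h.mul h
    have e : (fun τ ↦ dt F τ ^ 2) = dt F * dt F := by
      ext τ
      simp [pow_two]
    rw [e]
    exact this

lemma IsFrame.exists_ne {k : X → ℤ} {F : X → X → ℍ → ℂ} (h : IsFrame k F) :
    ∃ τ, dt F τ ≠ 0 := by
  by_contra! h0
  exact h.det_ne (funext h0)

lemma IsFrame.ne_zero {k : X → ℤ} {F : X → X → ℍ → ℂ} (h : IsFrame k F) (i : X) :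
    F i ≠ 0 := by
  obtain ⟨τ, hτ⟩ := h.exists_ne
  intro h0
  apply hτ
  rw [dt]
  apply Matrix.det_eq_zero_of_row_eq_zero i
  intro j
  simp [mat, h0]

lemma IsFrame.nonneg {k : X → ℤ} {F : X → X → ℍ → ℂ} (h : IsFrame k F) (i : X) : 0 ≤ k i := by
  by_contra! h0
  exact h.ne_zero i ((h.vv i).eq_zero_of_neg h0)

lemma IsFrame.even {k : X → ℤ} {F : X → X → ℍ → ℂ} (h : IsFrame k F)
    (hX : ∀ x : X, (-1 : SL(2, ℤ)) • x = x) (i : X) : Even (k i) := by
  by_contra h0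
  rw [Int.not_even_iff_odd] at h0
  exact h.ne_zero i ((h.vv i).eq_zero_of_odd hX h0)

/-- minimality of a frame -/
def IsMinFrame (k : X → ℤ) (F : X → X → ℍ → ℂ) : Prop :=
  IsFrame k F ∧ ∀ (k' : X → ℤ) (F' : X → X → ℍ → ℂ), IsFrame k' F' → ∑ i, k i ≤ ∑ i, k' i

lemma exists_minFrame {k : X → ℤ} {F : X → X → ℍ → ℂ} (h : IsFrame k F) :
    ∃ k' F', IsMinFrame (X := X) k' F' := by
  classical
  let S : Set ℕ := {n | ∃ k' F', IsFrame (X := X) k' F' ∧ (∑ i, k' i).toNat = n}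
  have hS : S.Nonempty := ⟨_, k, F, h, rfl⟩
  obtain ⟨k', F', hF', hn⟩ := Nat.sInf_mem hS
  refine ⟨k', F', hF', fun k'' F'' hF'' ↦ ?_⟩
  have h1 : sInf S ≤ (∑ i, k'' i).toNat := Nat.sInf_le ⟨k'', F'', hF'', rfl⟩
  rw [← hn] at h1
  have h2 : 0 ≤ ∑ i, k' i := Finset.sum_nonneg fun i _ ↦ hF'.nonneg i
  have h3 : 0 ≤ ∑ i, k'' i := Finset.sum_nonneg fun i _ ↦ hF''.nonneg i
  omega

/-- **Descent**: a minimal frame has no relation producing a form of smaller weight. -/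
lemma IsMinFrame.descent {k : X → ℤ} {F : X → X → ℍ → ℂ} (h : IsMinFrame k F) (m : X)
    {k' : ℤ} (hk' : k' < k m) {G : X → ℍ → ℂ} (hG : IsVV k' G) (g : X → ℍ → ℂ) (p : ℍ → ℂ)
    (hgm : MDiff (g m)) (hgm0 : g m ≠ 0)
    (hrel : ∀ x τ, ∑ i, g i τ * F i x τ = p τ * G x τ) : False := by
  classical
  set k₁ : X → ℤ := Function.update k m k' with hk₁
  set F₁ : X → X → ℍ → ℂ := Function.update F m G with hF₁
  have hdet : ∀ τ, p τ * dt F₁ τ = g m τ * dt F τ := by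
    intro τ
    have e1 : mat F₁ τ = (mat F τ).updateRow m (fun x ↦ G x τ) := by
      ext i x
      by_cases hi : i = m
      · subst hi; simp [mat, hF₁]
      · simp [mat, hF₁, hi]
    have e2 := Matrix.det_updateRow_sum (mat F τ) m (fun i ↦ g i τ)
    have e3 : (∑ i, g i τ • (mat F τ) i) = p τ • (fun x ↦ G x τ) := by
      ext x
      have := hrel x τ
      simpa [mat] using this
    rw [e3, Matrix.det_updateRow_smul] at e2
    rw [dt, e1, e2, smul_eq_mul, dt]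
  have hvv : ∀ i, IsVV (k₁ i) (F₁ i) := by
    intro i
    by_cases hi : i = m
    · subst hi; simpa [hk₁, hF₁] using hG
    · simpa [hk₁, hF₁, hi] using h.1.vv i
  have hne : dt F₁ ≠ 0 := by
    intro h0
    have h1 : g m * dt F = 0 := by
      ext τ
      have := hdet τ
      rw [h0] at this
      simpa using this.symm
    rcases (UpperHalfPlane.mul_eq_zero_iff hgm
      (dt_mdiff fun i x ↦ (h.1.vv i).holo x)).mp h1 with h2 | h2
    · exact hgm0 h2
    · exact h.1.det_ne h2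
  have := h.2 k₁ F₁ ⟨hvv, hne⟩
  have h4 : ∑ i, k₁ i < ∑ i, k i := by
    apply Finset.sum_lt_sum
    · intro i _
      by_cases hi : i = m
      · subst hi; simpa [hk₁] using hk'.le
      · simp [hk₁, hi]
    · exact ⟨m, Finset.mem_univ m, by simpa [hk₁] using hk'⟩
  omega

end Fermat.Agent.S20
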