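import Mathlib

/-!
# A lattice in `ℂ` is determined by its Eisenstein sums `G n`, `n ≥ 3`.
-/

set_option autoImplicit false

noncomputable section

open Complex Filter Topology
open scoped PeriodPair

namespace Fermat.Agent.S20

open PeriodPair

lemma countable_lattice (L : PeriodPair) : (L.lattice : Set ℂ).Countable := by
  have : Countable L.lattice := L.latticeEquivProd.toEquiv.countable_iff.mpr inferInstance
  exact Set.countable_coe_iff.mp this

lemma P_eventuallyEq {L L' : PeriodPair} (h : ∀ n : ℕ, 3 ≤ n → L.G n = L'.G n) :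
    L.weierstrassPExcept 0 =ᶠ[𝓝 0] L'.weierstrassPExcept 0 := by
  have h1 := L.hasFPowerSeriesAt_weierstrassPExcept 0
  have h2 := L'.hasFPowerSeriesAt_weierstrassPExcept 0
  have e : (fun i : ℕ ↦ if i = 0 then L.weierstrassPExcept 0 0 else
      ((i : ℂ) + 1) * L.sumInvPow 0 (i + 2)) = (fun i : ℕ ↦ if i = 0 then
      L'.weierstrassPExcept 0 0 else ((i : ℂ) + 1) * L'.sumInvPow 0 (i + 2)) := by
    ext i
    split_ifs with hi
    · simp
    · rw [sumInvPow_zero, sumInvPow_zero, h _ (by omega)]
  rw [e] at h1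
  obtain ⟨r1, hr1⟩ := h1
  obtain ⟨r2, hr2⟩ := h2
  filter_upwards [Metric.eball_mem_nhds (0 : ℂ) (lt_min hr1.r_pos hr2.r_pos)] with z hz
  have a := (hr1.mono (lt_min hr1.r_pos hr2.r_pos) (min_le_left _ _)).hasSum (y := z) (by
    simpa using hz)
  have b := (hr2.mono (lt_min hr1.r_pos hr2.r_pos) (min_le_right _ _)).hasSum (y := z) (by
    simpa using hz)
  simpa using a.unique b

lemma lattice_le_of_G_eq {L L' : PeriodPair} (h : ∀ n : ℕ, 3 ≤ n → L.G n = L'.G n) :
    L.lattice ≤ L'.lattice := by
  set U : Set ℂ := (((L.lattice : Set ℂ) ∪ L'.lattice) \ {0})ᶜ with hU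
  have hclosed : IsClosed (((L.lattice : Set ℂ) ∪ L'.lattice) \ {0}) := by
    rw [Set.union_sdiff_distrib]
    exact (L.isClosed_of_subset_lattice Set.sdiff_subset).union
      (L'.isClosed_of_subset_lattice Set.sdiff_subset)
  have hUo : IsOpen U := hclosed.isOpen_compl
  have hcount : (((L.lattice : Set ℂ) ∪ L'.lattice) \ {0}).Countable :=
    ((countable_lattice L).union (countable_lattice L')).mono Set.sdiff_subset
  have hUc : IsPreconnected U :=
    (hcount.isPathConnected_compl_of_one_lt_rank (by simp)).isConnected.isPreconnected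
  have h0 : (0 : ℂ) ∈ U := by simp [hU]
  have a1 : AnalyticOnNhd ℂ (L.weierstrassPExcept 0) U :=
    (L.analyticOnNhd_weierstrassPExcept 0).mono (by
      intro z hz
      simp only [hU, Set.mem_compl_iff, Set.mem_sdiff, Set.mem_union, Set.mem_singleton_iff] at hz ⊢
      tauto)
  have a2 : AnalyticOnNhd ℂ (L'.weierstrassPExcept 0) U :=
    (L'.analyticOnNhd_weierstrassPExcept 0).mono (by
      intro z hz
      simp only [hU, Set.mem_compl_iff, Set.mem_sdiff, Set.mem_union, Set.mem_singleton_iff] at hz ⊢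
      tauto)
  have heq := a1.eqOn_of_preconnected_of_eventuallyEq a2 hUc h0 (P_eventuallyEq h)
  intro l hl
  by_contra hl'
  have hl0 : l ≠ 0 := by rintro rfl; exact hl' (zero_mem _)
  have hord := L.order_weierstrassP l hl
  -- near l (punctured), ℘[L] = ℘[L' - 0] + 1/z^2
  have hpunct : L.weierstrassP =ᶠ[𝓝[≠] l] fun z ↦ L'.weierstrassPExcept 0 z + 1 / z ^ 2 := by
    have hopen : (((L.lattice : Set ℂ) ∪ L'.lattice) \ {l})ᶜ ∈ 𝓝 l := by
      apply IsOpen.mem_nhds
      · rw [Set.union_sdiff_distrib]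
        exact ((L.isClosed_of_subset_lattice Set.sdiff_subset).union
          (L'.isClosed_of_subset_lattice Set.sdiff_subset)).isOpen_compl
      · simp
    have hmem : ∀ᶠ z in 𝓝[≠] l, z ∈ U := by
      rw [eventually_nhdsWithin_iff]
      filter_upwards [hopen] with z hz hzl
      simp only [hU, Set.mem_compl_iff, Set.mem_sdiff, Set.mem_union,
        Set.mem_singleton_iff] at hz hzl ⊢
      tauto
    filter_upwards [hmem] with z hz
    rw [← heq hz]
    have := L.weierstrassPExcept_add ⟨0, zero_mem _⟩ z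
    rw [← this]
    simp
  rw [meromorphicOrderAt_congr hpunct] at hord
  have han : AnalyticAt ℂ (fun z ↦ L'.weierstrassPExcept 0 z + 1 / z ^ 2) l := by
    refine AnalyticAt.add (L'.analyticOnNhd_weierstrassPExcept 0 l ?_) ?_
    · intro h; exact hl' h.1
    · exact analyticAt_const.div (analyticAt_id.pow 2) (pow_ne_zero 2 hl0)
  have := han.meromorphicOrderAt_nonneg
  rw [hord] at this
  exact absurd this (by decide)

lemma lattice_eq_of_G_eq {L L' : PeriodPair} (h : ∀ n : ℕ, 3 ≤ n → L.G n = L'.G n) :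
    L.lattice = L'.lattice :=
  le_antisymm (lattice_le_of_G_eq h) (lattice_le_of_G_eq fun n hn ↦ (h n hn).symm)

end Fermat.Agent.S20
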