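import Fermat.Agent.S20.LevelOne
import Fermat.Agent.S20.LatticeG

/-!
# Injectivity of `j`: if `(E₄, E₆)(τ₂) = (λ⁴ E₄, λ⁶ E₆)(τ₁)` then `τ₂ ∈ SL₂(ℤ) τ₁`.
-/

set_option autoImplicit false

noncomputable section

open UpperHalfPlane hiding I
open Real Complex Filter ModularForm ModularFormClass EisensteinSeries Derivative
open scoped Manifold MatrixGroups ModularForm Topology

namespace Fermat.Agent.S20

lemma IsL1Cusp.exists_div {k : ℤ} {f : ℍ → ℂ} (hf : IsL1Cusp k f) :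
    ∃ h : ℍ → ℂ, IsL1 (k - 12) h ∧ ∀ z, f z = ModularForm.discriminant z * h z := by
  refine ⟨CuspForm.discriminantEquiv hf.toCF, isL1_of_MF _, fun z ↦ ?_⟩
  have := ModularForm.discriminant_mul_discriminantEquiv_apply hf.toCF z
  exact this.symm

lemma IsL1.eq_zero_of_neg {k : ℤ} {f : ℍ → ℂ} (hf : IsL1 k f) (hk : k < 0) : f = 0 :=
  ModularFormClass.levelOne_neg_weight_eq_zero hk hf.toMF

lemma IsL1.eq_zero_of_odd {k : ℤ} {f : ℍ → ℂ} (hf : IsL1 k f) (hk : Odd k) : f = 0 := by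
  have := ModularForm.levelOne_odd_weight_eq_zero hk hf.toMF
  exact congrArg DFunLike.coe this

lemma IsL1.eq_zero_of_two {f : ℍ → ℂ} (hf : IsL1 2 f) : f = 0 := by
  have := rank_zero_iff_forall_zero.mp ModularForm.levelOne_weight_two_rank_zero hf.toMF
  exact congrArg DFunLike.coe this

lemma IsL1.eq_const {f : ℍ → ℂ} (hf : IsL1 0 f) : ∃ c : ℂ, ∀ z, f z = c := by
  obtain ⟨c, hc⟩ := ModularFormClass.levelOne_weight_zero_const hf.toMF
  exact ⟨c, fun z ↦ congrFun hc z⟩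

/-- A product `E₄^a E₆^b`. -/
lemma isL1_E4E6 (a b : ℕ) : IsL1 (4 * a + 6 * b) ((E₄ : ℍ → ℂ) ^ a * (E₆ : ℍ → ℂ) ^ b) := by
  have := (isL1_E4.pow a).mul (isL1_E6.pow b)
  convert this using 1
  ring

lemma exists_ab {k : ℕ} (hk : Even k) (hk4 : 4 ≤ k) : ∃ a b : ℕ, k = 4 * a + 6 * b := by
  obtain ⟨m, rfl⟩ := hk
  rcases Nat.even_or_odd m with ⟨n, rfl⟩ | ⟨n, rfl⟩
  · exact ⟨n, 0, by ring⟩
  · exact ⟨n - 1, 1, by omega⟩

lemma eval_ratio {τ₁ τ₂ : ℍ} {l : ℂ} (h4 : E₄ τ₂ = l ^ 4 * E₄ τ₁)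
    (h6 : E₆ τ₂ = l ^ 6 * E₆ τ₁) (k : ℕ) (f : ℍ → ℂ) (hf : IsL1 k f) :
    f τ₂ = l ^ k * f τ₁ := by
  have hΔ : ModularForm.discriminant τ₂ = l ^ 12 * ModularForm.discriminant τ₁ := by
    have e1 := Delta_eq τ₁
    have e2 := Delta_eq τ₂
    rw [h4, h6] at e2
    have : (1728 : ℂ) ≠ 0 := by norm_num
    apply mul_left_cancel₀ this
    linear_combination e2 - l ^ 12 * e1
  induction k using Nat.strong_induction_on generalizing f with
  | _ k ih =>
    rcases Nat.even_or_odd k with hk | hk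
    swap
    · have h0 := hf.eq_zero_of_odd (by exact_mod_cast hk)
      simp [h0]
    rcases Nat.lt_or_ge k 4 with hk4 | hk4
    · have : k = 0 ∨ k = 2 := by
        obtain ⟨m, rfl⟩ := hk
        omega
      rcases this with rfl | rfl
      · obtain ⟨c, hc⟩ := IsL1.eq_const hf
        simp [hc]
      · have h0 := IsL1.eq_zero_of_two hf
        simp [h0]
    obtain ⟨a, b, hab⟩ := exists_ab hk hk4
    have hg := isL1_E4E6 a b
    have hkab : (k : ℤ) = 4 * a + 6 * b := by exact_mod_cast hab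
    rw [← hkab] at hg
    set g := (E₄ : ℍ → ℂ) ^ a * (E₆ : ℍ → ℂ) ^ b with hgdef
    have hgt : Tendsto g atImInfty (𝓝 1) := by
      have := (E4_tendsto.pow a).mul (E6_tendsto.pow b)
      rw [one_pow, one_pow, one_mul] at this
      exact this
    set c := valueAtInfty f with hc
    have hcusp : IsL1Cusp k (f + (-c) • g) := by
      have h1 := hf.add (hg.smul (-c))
      refine ⟨h1.slash, h1.holo, ?_⟩
      have := hf.tendsto.add (hgt.const_mul (-c))
      rw [← hc, mul_one, add_neg_cancel] at this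
      exact this
    obtain ⟨h, hh, hfh⟩ := hcusp.exists_div
    have hmain : ModularForm.discriminant τ₂ * h τ₂
        = l ^ k * (ModularForm.discriminant τ₁ * h τ₁) := by
      rcases Nat.lt_or_ge k 12 with hk12 | hk12
      · have h0 := hh.eq_zero_of_neg (by omega)
        simp [h0]
      · have := ih (k - 12) (by omega) h (by
          convert hh using 1
          omega)
        rw [this, hΔ]
        have e : l ^ k = l ^ 12 * l ^ (k - 12) := by
          rw [← pow_add]; congr 1; omega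
        rw [e]; ring
    have e1 := hfh τ₁
    have e2 := hfh τ₂
    rw [hmain, ← e1] at e2
    have hg2 : g τ₂ = l ^ k * g τ₁ := by
      simp only [hgdef, Pi.mul_apply, Pi.pow_apply, h4, h6]
      rw [hab, pow_add, pow_mul, pow_mul]
      ring
    simp only [Pi.add_apply, Pi.smul_apply, smul_eq_mul] at e2
    rw [hg2] at e2
    linear_combination e2

/-- The period pair `(μ τ, μ)`. -/
def pp (τ : ℍ) (μ : ℂ) (hμ : μ ≠ 0) : PeriodPair where
  ω₁ := μ * τ
  ω₂ := μ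
  indep := by
    rw [LinearIndependent.pair_iff]
    intro s t h
    have h1 : (s : ℂ) * τ + t = 0 := by
      have : μ * ((s : ℂ) * τ + t) = 0 := by
        rw [← h]; simp only [real_smul]; ring
      exact (mul_eq_zero.mp this).resolve_left hμ
    have h2 := congrArg Complex.im h1
    simp at h2
    have hs : s = 0 := h2.resolve_right (UpperHalfPlane.im_ne_zero τ)
    subst hs
    simp at h1
    exact ⟨rfl, h1⟩

lemma pp_G (τ : ℍ) (μ : ℂ) (hμ : μ ≠ 0) (n : ℕ) :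
    (pp τ μ hμ).G n = (μ ^ n)⁻¹ * ∑' v : Fin 2 → ℤ, eisSummand n v τ := by
  rw [PeriodPair.G, ← (pp τ μ hμ).latticeEquivProd.symm.toEquiv.tsum_eq,
    ← (finTwoArrowEquiv ℤ).tsum_eq, ← tsum_mul_left]
  refine tsum_congr fun v ↦ ?_
  have : (((pp τ μ hμ).latticeEquivProd.symm.toEquiv (finTwoArrowEquiv ℤ v) :
      (pp τ μ hμ).lattice) : ℂ) = μ * (v 0 * τ + v 1) := by
    have := (pp τ μ hμ).latticeEquiv_symm_apply (finTwoArrowEquiv ℤ v)
    refine this.trans ?_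
    simp [pp, finTwoArrowEquiv]
    ring
  rw [this, mul_pow, mul_inv, eisSummand, zpow_neg, zpow_natCast]

lemma pp_G_eq {τ₁ τ₂ : ℍ} {l : ℂ} (hl : l ≠ 0) (h4 : E₄ τ₂ = l ^ 4 * E₄ τ₁)
    (h6 : E₆ τ₂ = l ^ 6 * E₆ τ₁) (n : ℕ) (hn : 3 ≤ n) :
    (pp τ₂ 1 one_ne_zero).G n = (pp τ₁ l⁻¹ (inv_ne_zero hl)).G n := by
  rcases Nat.even_or_odd n with he | ho
  swap
  · rw [PeriodPair.G_eq_zero_of_odd _ _ ho, PeriodPair.G_eq_zero_of_odd _ _ ho]
  rw [pp_G, pp_G]
  have key := eval_ratio h4 h6 n (E hn) (isL1_of_MF (E hn))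
  have e : ∀ z : ℍ, ∑' v : Fin 2 → ℤ, eisSummand n v z = 2 * riemannZeta n * E hn z := by
    intro z
    rw [tsum_eisSummand_eq_riemannZeta_mul_eisensteinSeries hn z]
    rw [show E hn z = (1 / 2 : ℂ) • eisensteinSeriesSIF (N := 1) 0 n z from rfl,
      eisensteinSeriesSIF_apply 0 n z]
    simp only [smul_eq_mul]
    ring
  rw [e, e, key]
  simp only [one_pow, inv_one, one_mul, inv_pow, inv_inv]
  ring

/-- **Injectivity of `j`** in homogeneous form. -/
theorem exists_smul_eq_of_ratio {τ₁ τ₂ : ℍ} {l : ℂ} (hl : l ≠ 0) (h4 : E₄ τ₂ = l ^ 4 * E₄ τ₁)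
    (h6 : E₆ τ₂ = l ^ 6 * E₆ τ₁) : ∃ γ : SL(2, ℤ), γ • τ₁ = τ₂ := by
  have hlat := lattice_eq_of_G_eq (pp_G_eq hl h4 h6)
  set L₂ := pp τ₂ 1 one_ne_zero with hL₂
  set L₁ := pp τ₁ l⁻¹ (inv_ne_zero hl) with hL₁
  -- express the periods
  have m1 : (τ₂ : ℂ) ∈ L₁.lattice := by
    rw [← hlat, PeriodPair.mem_lattice]
    exact ⟨1, 0, by simp [hL₂, pp]⟩
  have m2 : (1 : ℂ) ∈ L₁.lattice := by
    rw [← hlat, PeriodPair.mem_lattice]
    exact ⟨0, 1, by simp [hL₂, pp]⟩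
  have m3 : l⁻¹ * (τ₁ : ℂ) ∈ L₂.lattice := by
    rw [hlat, PeriodPair.mem_lattice]
    exact ⟨1, 0, by simp [hL₁, pp]⟩
  have m4 : l⁻¹ ∈ L₂.lattice := by
    rw [hlat, PeriodPair.mem_lattice]
    exact ⟨0, 1, by simp [hL₁, pp]⟩
  rw [PeriodPair.mem_lattice] at m1 m2 m3 m4
  obtain ⟨a, b, hab⟩ := m1
  obtain ⟨c, d, hcd⟩ := m2
  obtain ⟨a', b', hab'⟩ := m3
  obtain ⟨c', d', hcd'⟩ := m4
  simp only [hL₁, hL₂, pp, one_mul, mul_one] at hab hcd hab' hcd'
  -- linear independence of `τ₂, 1` over `ℤ`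
  have indep : ∀ x y : ℤ, (x : ℂ) * τ₂ + y = 0 → x = 0 ∧ y = 0 := by
    intro x y h
    have h2 := congrArg Complex.im h
    simp at h2
    have hx : x = 0 := h2.resolve_right (UpperHalfPlane.im_ne_zero τ₂)
    subst hx
    simp at h
    exact ⟨rfl, h⟩
  have e1 : (((a * a' + b * c' - 1 : ℤ)) : ℂ) * τ₂ + ((a * b' + b * d' : ℤ) : ℂ) = 0 := by
    push_cast
    linear_combination a * hab' + b * hcd' + hab
  have e2 : (((c * a' + d * c' : ℤ)) : ℂ) * τ₂ + ((c * b' + d * d' - 1 : ℤ) : ℂ) = 0 := by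
    push_cast
    linear_combination c * hab' + d * hcd' + hcd
  obtain ⟨f1, f2⟩ := indep _ _ e1
  obtain ⟨f3, f4⟩ := indep _ _ e2
  have hdet : (a * d - b * c) * (a' * d' - b' * c') = 1 := by
    have h1 : a * a' + b * c' = 1 := by omega
    have h4 : c * b' + d * d' = 1 := by omega
    linear_combination (c * b' + d * d') * h1 + h4 - (c * a' + d * c') * f2
  have hu : IsUnit (a * d - b * c) := IsUnit.of_mul_eq_one _ hdet
  have hden : (c : ℂ) * τ₁ + d ≠ 0 := by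
    intro h0
    have : l⁻¹ * ((c : ℂ) * τ₁ + d) = 1 := by linear_combination hcd
    rw [h0, mul_zero] at this
    exact zero_ne_one this
  have hτ : (τ₂ : ℂ) * ((c : ℂ) * τ₁ + d) = a * τ₁ + b := by
    have h1 : l⁻¹ * ((c : ℂ) * τ₁ + d) = 1 := by linear_combination hcd
    have h2 : l⁻¹ * ((a : ℂ) * τ₁ + b) = τ₂ := by linear_combination hab
    have h3 : (τ₂ : ℂ) * ((c : ℂ) * τ₁ + d) = l * (l⁻¹ * ((a : ℂ) * τ₁ + b)) *
      (l⁻¹ * ((c : ℂ) * τ₁ + d)) := by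
      rw [h2]; field_simp
    rw [h3, h1]; field_simp
  -- sign of the determinant
  have him : τ₂.im * Complex.normSq ((c : ℂ) * τ₁ + d) = (a * d - b * c : ℤ) * τ₁.im := by
    have h1 : (τ₂ : ℂ) * ((c : ℂ) * τ₁ + d) * (starRingEnd ℂ) ((c : ℂ) * τ₁ + d)
        = (a * τ₁ + b) * (starRingEnd ℂ) ((c : ℂ) * τ₁ + d) := by rw [hτ]
    rw [mul_assoc, Complex.mul_conj] at h1
    have h2 := congrArg Complex.im h1
    rw [Complex.im_mul_ofReal] at h2
    have h3 : (τ₂ : ℂ).im = τ₂.im := rfl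
    rw [← h3, h2]
    simp
    ring
  have hpos : 0 < (a * d - b * c : ℤ) := by
    have h1 : 0 < τ₂.im * Complex.normSq ((c : ℂ) * τ₁ + d) :=
      mul_pos τ₂.im_pos (Complex.normSq_pos.mpr hden)
    rw [him] at h1
    have := (mul_pos_iff_of_pos_right τ₁.im_pos).mp h1
    exact_mod_cast this
  have hdet1 : a * d - b * c = 1 := by
    rcases Int.isUnit_iff.mp hu with h | h
    · exact h
    · omega
  refine ⟨⟨!![a, b; c, d], by rw [Matrix.det_fin_two_of]; linarith⟩, ?_⟩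
  ext
  rw [UpperHalfPlane.specialLinearGroup_apply]
  simp
  rw [div_eq_iff hden]
  exact hτ.symm

end Fermat.Agent.S20
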