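import Mathlib

/-!
# Level one facts: simple zeros of E4, E6, and of `E4^3 - c Δ`.
-/

set_option autoImplicit false

noncomputable section

open UpperHalfPlane hiding I
open Real Complex Filter ModularForm ModularFormClass EisensteinSeries Derivative
open scoped Manifold MatrixGroups ModularForm Topology

namespace Fermat.Agent.S20

/-- Unbundled level one modular forms. -/
structure IsL1 (k : ℤ) (f : ℍ → ℂ) : Prop where
  slash : ∀ γ : SL(2, ℤ), f ∣[k] γ = f
  holo : MDiff f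
  bdd : IsBoundedAtImInfty f

/-- Unbundled level one cusp forms. -/
structure IsL1Cusp (k : ℤ) (f : ℍ → ℂ) : Prop where
  slash : ∀ γ : SL(2, ℤ), f ∣[k] γ = f
  holo : MDiff f
  zero : IsZeroAtImInfty f

lemma IsL1Cusp.toL1 {k : ℤ} {f : ℍ → ℂ} (h : IsL1Cusp k f) : IsL1 k f :=
  ⟨h.slash, h.holo, h.zero.isBoundedAtImInfty⟩

/-- bundle -/
def IsL1.toMF {k : ℤ} {f : ℍ → ℂ} (h : IsL1 k f) : ModularForm 𝒮ℒ k where
  toFun := f
  slash_action_eq' := by
    rintro _ ⟨γ, rfl⟩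
    exact h.slash γ
  holo' := h.holo
  bdd_at_cusps' {c} hc := by
    rw [Subgroup.IsArithmetic.isCusp_iff_isCusp_SL2Z] at hc
    rw [OnePoint.isBoundedAt_iff_forall_SL2Z hc]
    intro γ _
    rw [h.slash γ]
    exact h.bdd

def IsL1Cusp.toCF {k : ℤ} {f : ℍ → ℂ} (h : IsL1Cusp k f) : CuspForm 𝒮ℒ k where
  toFun := f
  slash_action_eq' := by
    rintro _ ⟨γ, rfl⟩
    exact h.slash γ
  holo' := h.holo
  zero_at_cusps' {c} hc := by
    rw [Subgroup.IsArithmetic.isCusp_iff_isCusp_SL2Z] at hc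
    rw [OnePoint.isZeroAt_iff_forall_SL2Z hc]
    intro γ _
    rw [h.slash γ]
    exact h.zero

@[simp] lemma IsL1.coe_toMF {k : ℤ} {f : ℍ → ℂ} (h : IsL1 k f) : (h.toMF : ℍ → ℂ) = f := rfl
@[simp] lemma IsL1Cusp.coe_toCF {k : ℤ} {f : ℍ → ℂ} (h : IsL1Cusp k f) :
    (h.toCF : ℍ → ℂ) = f := rfl

lemma isL1_of_MF {k : ℤ} (f : ModularForm 𝒮ℒ k) : IsL1 k f where
  slash γ := f.slash_action_eq' _ ⟨γ, rfl⟩
  holo := f.holo'
  bdd := ModularFormClass.bdd_at_infty f

lemma isL1Cusp_of_CF {k : ℤ} (f : CuspForm 𝒮ℒ k) : IsL1Cusp k f where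
  slash γ := f.slash_action_eq' _ ⟨γ, rfl⟩
  holo := f.holo'
  zero := CuspFormClass.zero_at_infty f

lemma isL1_E4 : IsL1 4 E₄ := isL1_of_MF E₄
lemma isL1_E6 : IsL1 6 E₆ := isL1_of_MF E₆
lemma isL1Cusp_Delta : IsL1Cusp 12 ModularForm.discriminant := isL1Cusp_of_CF CuspForm.discriminant

lemma IsL1.mul {k l : ℤ} {f g : ℍ → ℂ} (hf : IsL1 k f) (hg : IsL1 l g) : IsL1 (k + l) (f * g) where
  slash γ := by rw [mul_slash_SL2, hf.slash, hg.slash]
  holo := hf.holo.mul hg.holo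
  bdd := hf.bdd.mul hg.bdd

lemma IsL1.one : IsL1 0 (1 : ℍ → ℂ) where
  slash γ := is_invariant_one γ
  holo := mdifferentiable_const
  bdd := const_boundedAtFilter _ _

lemma IsL1.const (c : ℂ) : IsL1 0 (fun _ : ℍ ↦ c) where
  slash γ := is_invariant_const γ c
  holo := mdifferentiable_const
  bdd := const_boundedAtFilter _ _

lemma IsL1.smul {k : ℤ} {f : ℍ → ℂ} (c : ℂ) (hf : IsL1 k f) : IsL1 k (c • f) where
  slash γ := by rw [SL_smul_slash, hf.slash]
  holo := hf.holo.const_smul c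
  bdd := hf.bdd.smul c

lemma IsL1.add {k : ℤ} {f g : ℍ → ℂ} (hf : IsL1 k f) (hg : IsL1 k g) : IsL1 k (f + g) where
  slash γ := by rw [SlashAction.add_slash, hf.slash, hg.slash]
  holo := hf.holo.add hg.holo
  bdd := hf.bdd.add hg.bdd

lemma IsL1.pow {k : ℤ} {f : ℍ → ℂ} (hf : IsL1 k f) (n : ℕ) : IsL1 (n * k) (f ^ n) := by
  induction n with
  | zero => simpa using IsL1.one
  | succ n ih =>
    have := ih.mul hf
    rw [pow_succ]
    convert this using 1
    push_cast; ring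

/-- Cauchy estimate: the derivative of a function bounded at infinity tends to zero at infinity. -/
lemma zero_deriv {f : ℍ → ℂ} (hf : MDiff f) (hb : IsBoundedAtImInfty f) :
    IsZeroAtImInfty (D f) := by
  rw [isBoundedAtImInfty_iff] at hb
  obtain ⟨M, A, h⟩ := hb
  rw [isZeroAtImInfty_iff]
  intro ε hε
  set C : ℝ := ‖(2 * π * I : ℂ)⁻¹‖ with hC
  have hC0 : 0 ≤ C := norm_nonneg _
  set B : ℝ := max A 0 with hB
  have hM : 0 ≤ M := (norm_nonneg _).trans (h ⟨Complex.I * (B + 1 : ℝ), by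
    simp only [Complex.I_mul_im, Complex.ofReal_re]; have := le_max_right A 0; linarith⟩ (by
    show A ≤ (Complex.I * (B + 1 : ℝ)).im
    simp only [Complex.I_mul_im, Complex.ofReal_re]; have := le_max_left A 0; linarith))
  refine ⟨B + 1 + C * M / ε, fun z hz ↦ ?_⟩
  have hCM : 0 ≤ C * M / ε := by positivity
  set R : ℝ := z.im - B - 1 / 2 with hR
  have hR1 : C * M / ε + 1 / 2 ≤ R := by rw [hR]; linarith
  have hR0 : 0 < R := by linarith
  have him : ∀ w ∈ Metric.closedBall (z : ℂ) R, B + 1 / 2 ≤ w.im := by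
    intro w hw
    rw [Metric.mem_closedBall, dist_eq_norm] at hw
    have := (Complex.abs_im_le_norm (w - z)).trans hw
    rw [Complex.sub_im, abs_le] at this
    have h3 : (z : ℂ).im = z.im := rfl
    linarith [this.1]
  have key : ‖deriv (f ∘ ofComplex) z‖ ≤ M / R := by
    apply Complex.norm_deriv_le_of_forall_mem_sphere_norm_le hR0
    · rw [UpperHalfPlane.mdifferentiable_iff] at hf
      apply DifferentiableOn.diffContOnCl
      rw [closure_ball _ hR0.ne']
      refine hf.mono fun w hw ↦ ?_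
      have := him w hw
      show 0 < w.im
      have := le_max_right A 0
      linarith
    · intro w hw
      have h1 := him w (Metric.sphere_subset_closedBall hw)
      have h2 := le_max_right A 0
      have h3 := le_max_left A 0
      have hw0 : 0 < w.im := by linarith
      rw [Function.comp_apply, ofComplex_apply_of_im_pos hw0]
      apply h
      show A ≤ w.im
      linarith
  rw [normalizedDerivOfComplex, norm_mul]
  calc C * ‖deriv (f ∘ ofComplex) z‖ ≤ C * (M / R) := by gcongr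
    _ = C * M / R := by ring
    _ ≤ ε := by
      rw [div_le_iff₀ hR0]
      have : C * M / ε ≤ R := by linarith
      rwa [div_le_iff₀ hε, mul_comm R] at this

lemma bdd_deriv {f : ℍ → ℂ} (hf : MDiff f) (hb : IsBoundedAtImInfty f) :
    IsBoundedAtImInfty (D f) := (zero_deriv hf hb).isBoundedAtImInfty

lemma bracket_slash {k l : ℤ} {f g : ℍ → ℂ} (hf : MDiff f) (hg : MDiff g)
    (γ : SL(2, ℤ)) (h1 : f ∣[k] γ = f) (h2 : g ∣[l] γ = g) :
    ((k : ℂ) • (f * D g) - (l : ℂ) • (g * D f)) ∣[k + l + 2] γ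
      = (k : ℂ) • (f * D g) - (l : ℂ) • (g * D f) := by
  have e1 := normalizedDerivOfComplex_SL_slash (k := k) hf (γ := γ)
  have e2 := normalizedDerivOfComplex_SL_slash (k := l) hg (γ := γ)
  rw [h1] at e1
  rw [h2] at e2
  rw [sub_eq_add_neg, SlashAction.add_slash, SlashAction.neg_slash, SL_smul_slash, SL_smul_slash]
  have e3 : (f * D g) ∣[k + l + 2] γ = f * (D g ∣[l + 2] γ) := by
    rw [add_assoc, mul_slash_SL2, h1]
  have e4 : (g * D f) ∣[k + l + 2] γ = g * (D f ∣[k + 2] γ) := by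
    rw [add_comm k l, add_assoc, mul_slash_SL2, h2]
  rw [e3, e4]
  ext z
  have e1' := congrFun e1 z
  have e2' := congrFun e2 z
  simp only [Pi.sub_apply] at e1' e2'
  simp only [Pi.add_apply, Pi.smul_apply, Pi.mul_apply, Pi.neg_apply, smul_eq_mul]
  linear_combination (k * f z) * (-1 : ℂ) * e2' + (l * g z) * e1'

/-- The Wronskian-like form `4 E4 D E6 - 6 E6 D E4`. -/
def W : ℍ → ℂ := ((4 : ℤ) : ℂ) • ((E₄ : ℍ → ℂ) * D E₆) - ((6 : ℤ) : ℂ) • ((E₆ : ℍ → ℂ) * D E₄)

lemma W_apply (z : ℍ) : W z = 4 * (E₄ z * D E₆ z) - 6 * (E₆ z * D E₄ z) := by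
  simp [W]

lemma IsZeroAtImInfty.mul_bdd {f g : ℍ → ℂ} (hf : IsBoundedAtImInfty f)
    (hg : IsZeroAtImInfty g) : IsZeroAtImInfty (f * g) := by
  have : IsZeroAtImInfty (g * f) := by
    have h : Tendsto (g * f) atImInfty (𝓝 0) := by
      have hf' : IsBoundedUnder (· ≤ ·) atImInfty (norm ∘ f) := by
        rw [IsBoundedAtImInfty, BoundedAtFilter] at hf
        exact (Asymptotics.isBigO_one_iff (F := ℝ)).mp hf
      exact hg.zero_mul_isBoundedUnder_le hf'
    exact h
  rwa [mul_comm] at this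

lemma isL1Cusp_W : IsL1Cusp 12 W where
  slash γ := by
    have := bracket_slash (k := 4) (l := 6) E₄.holo' E₆.holo' γ (isL1_E4.slash γ) (isL1_E6.slash γ)
    exact this
  holo := ((E₄.holo'.mul (normalizedDerivOfComplex_mdifferentiable E₆.holo')).const_smul _).sub
    ((E₆.holo'.mul (normalizedDerivOfComplex_mdifferentiable E₄.holo')).const_smul _)
  zero := by
    have h4 := zero_deriv isL1_E4.holo isL1_E4.bdd
    have h6 := zero_deriv isL1_E6.holo isL1_E6.bdd
    have a := (IsZeroAtImInfty.mul_bdd isL1_E4.bdd h6).smul ((4 : ℤ) : ℂ)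
    have b := (IsZeroAtImInfty.mul_bdd isL1_E6.bdd h4).smul ((6 : ℤ) : ℂ)
    have c := a.add (b.neg)
    rw [← sub_eq_add_neg] at c
    exact c

/-- one-periodicity from `T`-invariance -/
lemma periodic_of_T {f : ℍ → ℂ} (h : ∀ τ : ℍ, f ((1 : ℝ) +ᵥ τ) = f τ) :
    Function.Periodic (f ∘ ofComplex) ((1 : ℝ) : ℂ) := by
  intro w
  by_cases hw : 0 < w.im
  · have h2 : 0 < (w + ((1 : ℝ) : ℂ)).im := by simp [hw]
    simp only [Function.comp_apply, ofComplex_apply_of_im_pos h2, ofComplex_apply_of_im_pos hw]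
    rw [← h ⟨w, hw⟩]
    congr 1
    ext
    simp [add_comm]
  · have h2 : (w + ((1 : ℝ) : ℂ)).im ≤ 0 := by simpa using hw
    rw [Function.comp_apply, Function.comp_apply, ofComplex_apply_of_im_nonpos h2,
      ofComplex_apply_of_im_nonpos (not_lt.mp hw)]

lemma tendsto_of_periodic_bdd {f : ℍ → ℂ} (hf : MDiff f) (h : ∀ τ : ℍ, f ((1 : ℝ) +ᵥ τ) = f τ)
    (hb : IsBoundedAtImInfty f) : Tendsto f atImInfty (𝓝 (valueAtInfty f)) := by
  have hper := periodic_of_T h
  have := (analyticAt_cuspFunction_zero one_pos hper hf hb).continuousAt.tendsto.comp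
    (qParam_tendsto_atImInfty one_pos)
  rw [cuspFunction_apply_zero one_pos (analyticAt_cuspFunction_zero one_pos hper hf hb) hper] at this
  refine this.congr fun τ ↦ ?_
  exact eq_cuspFunction τ one_ne_zero hper

lemma isBigO_of_periodic_zero {f : ℍ → ℂ} (hf : MDiff f) (h : ∀ τ : ℍ, f ((1 : ℝ) +ᵥ τ) = f τ)
    (hz : IsZeroAtImInfty f) : f =O[atImInfty] ModularForm.discriminant := by
  have := IsZeroAtImInfty.exp_decay_atImInfty hz one_pos (periodic_of_T h) hf hz.isBoundedAtImInfty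
  refine this.trans ?_
  simpa using exp_isBigO_discriminant

lemma IsL1.vadd {k : ℤ} {f : ℍ → ℂ} (hf : IsL1 k f) (τ : ℍ) : f ((1 : ℝ) +ᵥ τ) = f τ := by
  have := congrFun (hf.slash ModularGroup.T) τ
  rw [SL_slash_apply, UpperHalfPlane.modular_T_smul] at this
  simpa [denom, ModularGroup.T] using this

lemma IsL1.tendsto {k : ℤ} {f : ℍ → ℂ} (hf : IsL1 k f) :
    Tendsto f atImInfty (𝓝 (valueAtInfty f)) :=
  tendsto_of_periodic_bdd hf.holo hf.vadd hf.bdd

lemma valueAtInfty_E {k : ℕ} (hk : 3 ≤ k) (hk2 : Even k) : valueAtInfty (E hk) = 1 := by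
  rw [← qExpansion_coeff_zero one_pos
      (ModularFormClass.analyticAt_cuspFunction_zero (E hk) one_pos one_mem_strictPeriods_SL)
      (SlashInvariantFormClass.periodic_comp_ofComplex (E hk) one_mem_strictPeriods_SL),
      E_qExpansion_coeff_zero hk hk2]

lemma E4_tendsto : Tendsto (E₄ : ℍ → ℂ) atImInfty (𝓝 1) := by
  have := isL1_E4.tendsto
  rwa [valueAtInfty_E _ ⟨2, rfl⟩] at this

lemma E6_tendsto : Tendsto (E₆ : ℍ → ℂ) atImInfty (𝓝 1) := by
  have := isL1_E6.tendsto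
  rwa [valueAtInfty_E _ ⟨3, rfl⟩] at this

lemma Delta_tendsto : Tendsto ModularForm.discriminant atImInfty (𝓝 0) :=
  isL1Cusp_Delta.zero

lemma Delta_eq (z : ℍ) : 1728 * ModularForm.discriminant z = E₄ z ^ 3 - E₆ z ^ 2 := by
  rw [discriminant_eq_E₄_cube_sub_E₆_sq]; ring

lemma holo_E4 : MDiff (E₄ : ℍ → ℂ) := isL1_E4.holo
lemma holo_E6 : MDiff (E₆ : ℍ → ℂ) := isL1_E6.holo
lemma holo_Delta : MDiff ModularForm.discriminant := isL1Cusp_Delta.holo

lemma D_E4_cube (z : ℍ) : D ((E₄ : ℍ → ℂ) ^ 3) z = 3 * E₄ z ^ 2 * D E₄ z := by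
  rw [normalizedDerivOfComplex_pow _ _ holo_E4]
  simp

lemma D_E6_sq (z : ℍ) : D ((E₆ : ℍ → ℂ) ^ 2) z = 2 * E₆ z * D E₆ z := by
  rw [normalizedDerivOfComplex_pow _ _ holo_E6]
  simp

lemma D_Delta (z : ℍ) : 1728 * D ModularForm.discriminant z
    = 3 * E₄ z ^ 2 * D E₄ z - 2 * E₆ z * D E₆ z := by
  have h : (1728 : ℂ) • ModularForm.discriminant = (E₄ : ℍ → ℂ) ^ 3 - (E₆ : ℍ → ℂ) ^ 2 := by
    ext z; simpa using Delta_eq z
  have := congrFun (congrArg D h) z
  rw [normalizedDerivOfComplex_sub _ _ (holo_E4.pow 3) (holo_E6.pow 2), Pi.sub_apply, D_E4_cube,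
    D_E6_sq, normalizedDerivOfComplex_smul _ _ holo_Delta] at this
  simpa using this

/-- `W` is a nonzero multiple of the discriminant. -/
lemma exists_W_eq : ∃ c : ℂ, c ≠ 0 ∧ ∀ z, W z = c * ModularForm.discriminant z := by
  obtain ⟨c, hc⟩ := CuspForm.exists_smul_discriminant_of_weight_eq_twelve isL1Cusp_W.toCF
  have hc' : ∀ z, W z = c * ModularForm.discriminant z := fun z ↦ by
    have := DFunLike.congr_fun hc z
    exact this.symm
  refine ⟨c, ?_, hc'⟩
  rintro rfl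
  -- then `E4^3 / Δ` has zero derivative
  have hW : ∀ z, 2 * (E₄ z * D E₆ z) = 3 * (E₆ z * D E₄ z) := fun z ↦ by
    have := hc' z
    rw [W_apply, zero_mul] at this
    linear_combination this / 2
  have hd : ∀ z : ℍ, D ((E₄ : ℍ → ℂ) ^ 3) z * ModularForm.discriminant z
      = E₄ z ^ 3 * D ModularForm.discriminant z := by
    intro z
    have h1 := D_E4_cube z
    have h2 := D_Delta z
    have h3 := Delta_eq z
    have h4 := hW z
    rw [h1]
    have : (1728 : ℂ) ≠ 0 := by norm_num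
    apply mul_left_cancel₀ this
    linear_combination (3 * E₄ z ^ 2 * D E₄ z) * h3 - E₄ z ^ 3 * h2
      + E₄ z ^ 2 * E₆ z * h4
  have hF : DifferentiableOn ℂ (fun w ↦ (((E₄ : ℍ → ℂ) ^ 3) ∘ ofComplex) w /
      (ModularForm.discriminant ∘ ofComplex) w) {z | 0 < z.im} := by
    refine DifferentiableOn.fun_div ?_ ?_ ?_
    · exact UpperHalfPlane.mdifferentiable_iff.mp (holo_E4.pow 3)
    · exact UpperHalfPlane.mdifferentiable_iff.mp holo_Delta
    · intro w hw; exact discriminant_ne_zero _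
  have hconst := isOpen_upperHalfPlaneSet.exists_is_const_of_deriv_eq_zero
    (convex_halfSpace_im_gt 0).isPreconnected hF (by
      intro w hw
      have hw' : 0 < w.im := hw
      have hdw := hd ⟨w, hw'⟩
      have d1 := (UpperHalfPlane.mdifferentiable_iff.mp (holo_E4.pow 3)).differentiableAt
        (isOpen_upperHalfPlaneSet.mem_nhds hw)
      have d2 := (UpperHalfPlane.mdifferentiable_iff.mp holo_Delta).differentiableAt
        (isOpen_upperHalfPlaneSet.mem_nhds hw)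
      rw [deriv_fun_div d1 d2 (discriminant_ne_zero _)]
      have hpi : (2 * π * I : ℂ)⁻¹ ≠ 0 := by
        simp [Real.pi_ne_zero]
      rw [normalizedDerivOfComplex, normalizedDerivOfComplex] at hdw
      have hdw' : deriv (((E₄ : ℍ → ℂ) ^ 3) ∘ ofComplex) w * ModularForm.discriminant ⟨w, hw'⟩
          = E₄ ⟨w, hw'⟩ ^ 3 * deriv (ModularForm.discriminant ∘ ofComplex) w := by
        apply mul_left_cancel₀ hpi
        linear_combination hdw
      have e1 : ofComplex w = ⟨w, hw'⟩ := ofComplex_apply_of_im_pos hw'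
      simp only [Function.comp_apply, e1, Pi.pow_apply]
      rw [hdw', sub_self, zero_div]
      rfl)
  obtain ⟨C, hC⟩ := hconst
  have hC' : ∀ z : ℍ, E₄ z ^ 3 = C * ModularForm.discriminant z := by
    intro z
    have := hC z z.im_pos
    simp only [Function.comp_apply, ofComplex_apply, Pi.pow_apply] at this
    rw [← this, div_mul_cancel₀ _ (discriminant_ne_zero z)]
  have l1 : Tendsto (fun z : ℍ ↦ E₄ z ^ 3) atImInfty (𝓝 (1 ^ 3)) := E4_tendsto.pow 3
  have l2 : Tendsto (fun z : ℍ ↦ E₄ z ^ 3) atImInfty (𝓝 (C * 0)) := by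
    simp_rw [hC']
    exact Delta_tendsto.const_mul C
  have := tendsto_nhds_unique l1 l2
  norm_num at this

/-- At a zero of `E₄` the derivative does not vanish. -/
lemma D_E4_ne_zero {z : ℍ} (h : E₄ z = 0) : D E₄ z ≠ 0 := by
  obtain ⟨c, hc, hW⟩ := exists_W_eq
  intro h0
  have := hW z
  rw [W_apply, h, h0] at this
  simp only [zero_mul, mul_zero, sub_zero] at this
  exact mul_ne_zero hc (discriminant_ne_zero z) this.symm

lemma D_E6_ne_zero {z : ℍ} (h : E₆ z = 0) : D E₆ z ≠ 0 := by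
  obtain ⟨c, hc, hW⟩ := exists_W_eq
  intro h0
  have := hW z
  rw [W_apply, h, h0] at this
  simp only [zero_mul, mul_zero, sub_zero] at this
  exact mul_ne_zero hc (discriminant_ne_zero z) this.symm

/-- The weight 12 form `Δ(τ₀) E₄^3 - E₄(τ₀)^3 Δ`. -/
def hForm (τ₀ : ℍ) : ℍ → ℂ :=
  (ModularForm.discriminant τ₀) • ((E₄ : ℍ → ℂ) ^ 3) - (E₄ τ₀ ^ 3) • ModularForm.discriminant

lemma hForm_apply (τ₀ z : ℍ) : hForm τ₀ z = ModularForm.discriminant τ₀ * E₄ z ^ 3
    - E₄ τ₀ ^ 3 * ModularForm.discriminant z := by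
  simp [hForm]

lemma isL1_hForm (τ₀ : ℍ) : IsL1 12 (hForm τ₀) := by
  have h1 := (isL1_E4.pow 3).smul (ModularForm.discriminant τ₀)
  have h2 := isL1Cusp_Delta.toL1.smul (-(E₄ τ₀ ^ 3))
  have h3 : IsL1 12 ((ModularForm.discriminant τ₀) • ((E₄ : ℍ → ℂ) ^ 3)) := by
    convert h1 using 1
    norm_num
  have := h3.add h2
  rwa [_root_.neg_smul, ← sub_eq_add_neg] at this

lemma E4_ne_or_E6_ne (z : ℍ) : E₄ z ≠ 0 ∨ E₆ z ≠ 0 := by
  by_contra! h
  have := Delta_eq z
  rw [h.1, h.2] at this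
  have h2 := discriminant_ne_zero z
  simp at this
  exact h2 this

/-- At a zero of `hForm τ₀` (with `E₄ τ₀ ≠ 0`, `E₆ τ₀ ≠ 0`), the derivative does not vanish. -/
lemma D_hForm_ne_zero {τ₀ z : ℍ} (h4 : E₄ τ₀ ≠ 0) (h6 : E₆ τ₀ ≠ 0) (h : hForm τ₀ z = 0) :
    D (hForm τ₀) z ≠ 0 := by
  obtain ⟨c, hc, hW⟩ := exists_W_eq
  have hΔ0 := discriminant_ne_zero τ₀
  have hΔz := discriminant_ne_zero z
  rw [hForm_apply] at h
  have hE4 : E₄ z ≠ 0 := by
    intro h0
    rw [h0] at h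
    have : E₄ τ₀ ^ 3 * ModularForm.discriminant z = 0 := by linear_combination -h
    exact mul_ne_zero (pow_ne_zero 3 h4) hΔz this
  have hE6 : E₆ z ≠ 0 := by
    intro h0
    have e1 := Delta_eq z
    have e2 := Delta_eq τ₀
    rw [h0] at e1
    have e3 : ModularForm.discriminant z * E₆ τ₀ ^ 2 = 0 := by
      linear_combination -h + (ModularForm.discriminant z) * e2 - (ModularForm.discriminant τ₀) * e1
    exact mul_ne_zero hΔz (pow_ne_zero 2 h6) e3
  intro hD
  have e : D (hForm τ₀) z = ModularForm.discriminant τ₀ * (3 * E₄ z ^ 2 * D E₄ z)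
      - E₄ τ₀ ^ 3 * D ModularForm.discriminant z := by
    rw [hForm, normalizedDerivOfComplex_sub _ _ ((holo_E4.pow 3).const_smul _)
      (holo_Delta.const_smul _), normalizedDerivOfComplex_smul _ _ (holo_E4.pow 3),
      normalizedDerivOfComplex_smul _ _ holo_Delta]
    simp [D_E4_cube]
  rw [e] at hD
  have hDz := D_Delta z
  have e1 := Delta_eq z
  have hWz := hW z
  rw [W_apply] at hWz
  -- 2 * (1728 Δ(z)) * D h = Δ₀ * E4^2 E6 W
  have : ModularForm.discriminant τ₀ * (E₄ z ^ 2 * E₆ z) * (c * ModularForm.discriminant z) = 0 := by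
    rw [← hWz]
    linear_combination (2 * 1728 * ModularForm.discriminant z) * hD
      - 2 * ModularForm.discriminant τ₀ * (3 * E₄ z ^ 2 * D E₄ z) * e1
      - 2 * ModularForm.discriminant τ₀ * E₄ z ^ 3 * hDz * (-1)
      + 2 * 1728 * D ModularForm.discriminant z * (-1) * h
  have h3 := mul_ne_zero (mul_ne_zero hΔ0 (mul_ne_zero (pow_ne_zero 2 hE4) hE6))
    (mul_ne_zero hc hΔz)
  exact h3 this

end Fermat.Agent.S20
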