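import Fermat.Agent.S20.Frame

/-!
# A minimal frame has nowhere vanishing determinant
-/

set_option autoImplicit false

noncomputable section

open UpperHalfPlane hiding I
open Real Complex Filter ModularForm ModularFormClass EisensteinSeries Derivative
open scoped Manifold MatrixGroups ModularForm Topology

namespace Fermat.Agent.S20

/-- a relation between eigenvectors can be chosen with a single eigenvalue -/
lemma exists_eigen_relation {ι V : Type*} [Fintype ι] [AddCommGroup V] [Module ℂ V]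
    (P : V →ₗ[ℂ] V) (u : ι → V) (lam : ι → ℂ) (hP : ∀ i, P (u i) = lam i • u i)
    (c : ι → ℂ) (hc : c ≠ 0) (hrel : ∑ i, c i • u i = 0) :
    ∃ c' : ι → ℂ, c' ≠ 0 ∧ ∑ i, c' i • u i = 0 ∧
      ∀ i j, c' i ≠ 0 → c' j ≠ 0 → lam i = lam j := by
  classical
  induction h : (Finset.univ.filter fun i ↦ c i ≠ 0).card using Nat.strong_induction_on
    generalizing c with
  | _ n ih =>
    by_cases hall : ∀ i j, c i ≠ 0 → c j ≠ 0 → lam i = lam j
    · exact ⟨c, hc, hrel, hall⟩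
    · push Not at hall
      obtain ⟨m, j, hm, hj, hmj⟩ := hall
      set c' : ι → ℂ := fun i ↦ c i * (lam i - lam m) with hc'
      have h1 : c' ≠ 0 := by
        intro h0
        have := congrFun h0 j
        simp only [hc', Pi.zero_apply, mul_eq_zero] at this
        rcases this with h2 | h2
        · exact hj h2
        · exact hmj (sub_eq_zero.mp h2).symm
      have h2 : ∑ i, c' i • u i = 0 := by
        have e : ∑ i, c' i • u i = P (∑ i, c i • u i) - lam m • ∑ i, c i • u i := by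
          rw [map_sum, Finset.smul_sum, ← Finset.sum_sub_distrib]
          refine Finset.sum_congr rfl fun i _ ↦ ?_
          rw [map_smul, hP, hc', smul_smul, smul_smul, ← sub_smul]
          congr 1; ring
        rw [e, hrel]; simp
      refine ih _ ?_ c' h1 h2 rfl
      rw [← h]
      apply Finset.card_lt_card
      rw [Finset.ssubset_iff_of_subset]
      · exact ⟨m, by simp [hm], by simp [hc']⟩
      · intro i hi
        simp only [hc', Finset.mem_filter, Finset.mem_univ, true_and, ne_eq, mul_eq_zero,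
          not_or] at hi ⊢
        exact hi.1

variable {X : Type} [MulAction SL(2, ℤ) X] [Fintype X] [DecidableEq X]

/-- the permutation operator -/
def permOp (γ : SL(2, ℤ)) : (X → ℂ) →ₗ[ℂ] (X → ℂ) := LinearMap.funLeft ℂ ℂ (fun x ↦ γ⁻¹ • x)

omit [Fintype X] [DecidableEq X] in
lemma permOp_apply (γ : SL(2, ℤ)) (v : X → ℂ) (x : X) : permOp γ v x = v (γ⁻¹ • x) := rfl

omit [Fintype X] [DecidableEq X] in
lemma permOp_eigen {k : ℤ} {F : X → ℍ → ℂ} (hF : IsVV k F) {γ : SL(2, ℤ)} {τ : ℍ}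
    (hτ : γ • τ = τ) : permOp γ (fun x ↦ F x τ) = (denom γ τ ^ (-k)) • (fun x ↦ F x τ) := by
  ext x
  rw [permOp_apply]
  have := hF.smul_apply γ x τ
  rw [hτ] at this
  have hd : denom γ τ ^ k ≠ 0 := zpow_ne_zero _ (denom_ne_zero _ _)
  simp only [Pi.smul_apply, smul_eq_mul]
  rw [this, zpow_neg]
  field_simp

/-- choose an index with maximal weight in the support of a nonzero relation -/
lemma exists_max_index (k : X → ℤ) (c : X → ℂ) (hc : c ≠ 0) :
    ∃ m, c m ≠ 0 ∧ ∀ i, c i ≠ 0 → k i ≤ k m := by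
  classical
  have : (Finset.univ.filter fun i ↦ c i ≠ 0).Nonempty := by
    obtain ⟨i, hi⟩ := Function.ne_iff.mp hc
    exact ⟨i, by simpa using hi⟩
  obtain ⟨m, hm, hmax⟩ := Finset.exists_max_image _ k this
  refine ⟨m, by simpa using hm, fun i hi ↦ hmax i (by simpa using hi)⟩

omit [MulAction SL(2, ℤ) X] in
lemma exists_rel {F : X → X → ℍ → ℂ} {τ : ℍ} (h : dt F τ = 0) :
    ∃ c : X → ℂ, c ≠ 0 ∧ ∑ i, c i • (fun x ↦ F i x τ) = 0 := by
  obtain ⟨c, hc, hcM⟩ := Matrix.exists_vecMul_eq_zero_iff.mpr h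
  refine ⟨c, hc, ?_⟩
  ext x
  have := congrFun hcM x
  simpa [Matrix.vecMul, dotProduct, mat] using this

lemma vanish_orbit {k : ℤ} {G : X → ℍ → ℂ} (hG : IsVV k G) {τ : ℍ} (h : ∀ x, G x τ = 0)
    (γ : SL(2, ℤ)) (x : X) : G x (γ • τ) = 0 := by
  rw [hG.smul_apply, h, mul_zero]

/-- combination of VV forms with level one coefficients. -/
lemma isVV_comb {k : X → ℤ} {F : X → X → ℍ → ℂ} (hF : ∀ i, IsVV (k i) (F i)) (K : ℤ)
    (g : X → ℍ → ℂ) (hg : ∀ i, IsL1 (K - k i) (g i)) :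
    IsVV K (fun x τ ↦ ∑ i, g i τ * F i x τ) := by
  have h1 : ∀ i ∈ Finset.univ, IsVV K (fun x ↦ g i * F i x) := fun i _ ↦
    ((hF i).mulL1 (hg i)).congr (by ring)
  have h2 := IsVV.sum Finset.univ h1
  convert h2 using 1
  ext x τ
  simp [Finset.sum_apply]

lemma isL1_zero (k : ℤ) : IsL1 k (0 : ℍ → ℂ) where
  slash γ := by simp
  holo := mdifferentiable_const
  bdd := const_boundedAtFilter _ _

/-- the generic case -/
lemma IsMinFrame.dt_ne_zero_generic {k : X → ℤ} {F : X → X → ℍ → ℂ} (h : IsMinFrame k F)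
    (hX : ∀ x : X, (-1 : SL(2, ℤ)) • x = x) {τ : ℍ} (h4 : E₄ τ ≠ 0) (h6 : E₆ τ ≠ 0) :
    dt F τ ≠ 0 := by
  classical
  intro h0
  obtain ⟨c, hc, hrel⟩ := exists_rel h0
  obtain ⟨m, hm, hmax⟩ := exists_max_index k c hc
  have hab : ∀ i, c i ≠ 0 → ∃ a b : ℕ, k m + 4 - k i = 4 * a + 6 * b := by
    intro i hi
    have h1 := hmax i hi
    have h2 : Even (k m + 4 - k i) :=
      (Even.add (h.1.even hX m) ⟨2, rfl⟩).sub (h.1.even hX i)
    obtain ⟨a, b, hab⟩ := exists_ab (k := (k m + 4 - k i).toNat) (by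
      have : ((k m + 4 - k i).toNat : ℤ) = k m + 4 - k i := Int.toNat_of_nonneg (by omega)
      rw [← this] at h2
      exact_mod_cast h2) (by omega)
    exact ⟨a, b, by omega⟩
  choose! a b hab using hab
  let g : X → ℍ → ℂ := fun i ↦ (c i * (E₄ τ ^ a i * E₆ τ ^ b i)⁻¹) •
    ((E₄ : ℍ → ℂ) ^ a i * (E₆ : ℍ → ℂ) ^ b i)
  have hg : ∀ i, IsL1 ((k m + 4) - k i) (g i) := by
    intro i
    by_cases hi : c i = 0
    · have : g i = 0 := by simp [g, hi]
      rw [this]; exact isL1_zero _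
    · exact ((isL1_E4E6 (a i) (b i)).smul _).congr (hab i hi).symm
  have hgτ : ∀ i, g i τ = c i := by
    intro i
    have : E₄ τ ^ a i * E₆ τ ^ b i ≠ 0 := mul_ne_zero (pow_ne_zero _ h4) (pow_ne_zero _ h6)
    simp only [g, Pi.smul_apply, Pi.mul_apply, Pi.pow_apply, smul_eq_mul]
    field_simp
  have hG := isVV_comb h.1.vv (k m + 4) g hg
  set G : X → ℍ → ℂ := fun x τ ↦ ∑ i, g i τ * F i x τ with hGdef
  have hGτ : ∀ x, G x τ = 0 := by
    intro x
    have := congrFun hrel x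
    simp only [hGdef, hgτ]
    simpa using this
  have hlim : Tendsto (hForm τ) atImInfty (𝓝 (ModularForm.discriminant τ)) := by
    have h1 := (E4_tendsto.pow 3).const_mul (ModularForm.discriminant τ)
    have h2 := Delta_tendsto.const_mul (E₄ τ ^ 3)
    have h3 := h1.sub h2
    simp only [one_pow, mul_one, mul_zero, sub_zero] at h3
    refine h3.congr fun z ↦ ?_
    rw [hForm_apply]
  obtain ⟨G', hG', hGG'⟩ := hG.exists_div (isL1_hForm τ) (discriminant_ne_zero τ) hlim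
    (by
      intro x z hz
      obtain ⟨γ, rfl⟩ := hForm_zero_orbit h4 h6 hz
      exact vanish_orbit hG hGτ γ x)
    (fun z hz ↦ D_hForm_ne_zero h4 h6 hz)
  refine h.descent m (by omega : k m + 4 - 12 < k m) hG' g (hForm τ) (hg m).holo ?_ ?_
  · intro h0
    have := congrFun h0 τ
    rw [hgτ] at this
    exact hm this
  · intro x τ'
    exact hGG' x τ'

lemma IsMinFrame.dt_ne_zero_rho {k : X → ℤ} {F : X → X → ℍ → ℂ} (h : IsMinFrame k F) :
    dt F rho ≠ 0 := by
  classical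
  intro h0
  obtain ⟨c₀, hc₀, hrel₀⟩ := exists_rel h0
  obtain ⟨c, hc, hrel, heig⟩ := exists_eigen_relation (permOp gU) _ _
    (fun i ↦ permOp_eigen (h.1.vv i) gU_smul_rho) c₀ hc₀ hrel₀
  obtain ⟨m, hm, hmax⟩ := exists_max_index k c hc
  have h6 : E₆ rho ≠ 0 := (E4_ne_or_E6_ne rho).resolve_left (not_not.mpr E4_rho)
  have hn : ∀ i, c i ≠ 0 → ∃ n : ℕ, k m - k i = n * 6 := by
    intro i hi
    have h1 := hmax i hi
    have h2 := heig i m hi hm
    rw [denom_gU] at h2
    have h3 : ((rho : ℂ) + 1) ^ (k m - k i) = 1 := by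
      have hne : ((rho : ℂ) + 1) ≠ 0 := isPrimitiveRoot_rho_add_one.ne_zero (by norm_num)
      rw [zpow_neg, zpow_neg, inv_inj] at h2
      rw [zpow_sub₀ hne, h2, div_self (zpow_ne_zero _ hne)]
    rw [isPrimitiveRoot_rho_add_one.zpow_eq_one_iff_dvd] at h3
    obtain ⟨n, hn⟩ := h3
    refine ⟨n.toNat, ?_⟩
    push_cast at hn
    omega
  choose! n hn using hn
  let g : X → ℍ → ℂ := fun i ↦ (c i * (E₆ rho ^ n i)⁻¹) • ((E₆ : ℍ → ℂ) ^ n i)
  have hg : ∀ i, IsL1 (k m - k i) (g i) := by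
    intro i
    by_cases hi : c i = 0
    · have : g i = 0 := by simp [g, hi]
      rw [this]; exact isL1_zero _
    · exact ((isL1_E6.pow (n i)).smul _).congr (hn i hi).symm
  have hgτ : ∀ i, g i rho = c i := by
    intro i
    have : E₆ rho ^ n i ≠ 0 := pow_ne_zero _ h6
    simp only [g, Pi.smul_apply, Pi.pow_apply, smul_eq_mul]
    field_simp
  have hG := isVV_comb h.1.vv (k m) g hg
  set G : X → ℍ → ℂ := fun x τ ↦ ∑ i, g i τ * F i x τ with hGdef
  have hGτ : ∀ x, G x rho = 0 := by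
    intro x
    have := congrFun hrel x
    simp only [hGdef, hgτ]
    simpa using this
  obtain ⟨G', hG', hGG'⟩ := hG.exists_div isL1_E4 one_ne_zero E4_tendsto
    (by
      intro x z hz
      obtain ⟨γ, rfl⟩ := E4_zero hz
      exact vanish_orbit hG hGτ γ x)
    (fun z hz ↦ D_E4_ne_zero hz)
  refine h.descent m (by omega : k m - 4 < k m) hG' g E₄ (hg m).holo ?_ ?_
  · intro h0
    have := congrFun h0 rho
    rw [hgτ] at this
    exact hm this
  · intro x τ'
    exact hGG' x τ'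

lemma IsMinFrame.dt_ne_zero_I {k : X → ℤ} {F : X → X → ℍ → ℂ} (h : IsMinFrame k F) :
    dt F UpperHalfPlane.I ≠ 0 := by
  classical
  intro h0
  obtain ⟨c₀, hc₀, hrel₀⟩ := exists_rel h0
  obtain ⟨c, hc, hrel, heig⟩ := exists_eigen_relation (permOp ModularGroup.S) _ _
    (fun i ↦ permOp_eigen (h.1.vv i) S_smul_I) c₀ hc₀ hrel₀
  obtain ⟨m, hm, hmax⟩ := exists_max_index k c hc
  have h4 : E₄ UpperHalfPlane.I ≠ 0 := (E4_ne_or_E6_ne _).resolve_right (not_not.mpr E6_I)
  have hprim : IsPrimitiveRoot Complex.I 4 := Complex.isPrimitiveRoot_I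
  have hn : ∀ i, c i ≠ 0 → ∃ n : ℕ, k m - k i = n * 4 := by
    intro i hi
    have h1 := hmax i hi
    have h2 := heig i m hi hm
    rw [denom_S] at h2
    have hI : ((UpperHalfPlane.I : ℍ) : ℂ) = Complex.I := rfl
    rw [hI] at h2
    have h3 : Complex.I ^ (k m - k i) = 1 := by
      have hne : Complex.I ≠ 0 := Complex.I_ne_zero
      rw [zpow_neg, zpow_neg, inv_inj] at h2
      rw [zpow_sub₀ hne, h2, div_self (zpow_ne_zero _ hne)]
    rw [hprim.zpow_eq_one_iff_dvd] at h3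
    obtain ⟨n, hn⟩ := h3
    refine ⟨n.toNat, ?_⟩
    push_cast at hn
    omega
  choose! n hn using hn
  let g : X → ℍ → ℂ := fun i ↦ (c i * (E₄ UpperHalfPlane.I ^ n i)⁻¹) • ((E₄ : ℍ → ℂ) ^ n i)
  have hg : ∀ i, IsL1 (k m - k i) (g i) := by
    intro i
    by_cases hi : c i = 0
    · have : g i = 0 := by simp [g, hi]
      rw [this]; exact isL1_zero _
    · exact ((isL1_E4.pow (n i)).smul _).congr (hn i hi).symm
  have hgτ : ∀ i, g i UpperHalfPlane.I = c i := by
    intro i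
    have : E₄ UpperHalfPlane.I ^ n i ≠ 0 := pow_ne_zero _ h4
    simp only [g, Pi.smul_apply, Pi.pow_apply, smul_eq_mul]
    field_simp
  have hG := isVV_comb h.1.vv (k m) g hg
  set G : X → ℍ → ℂ := fun x τ ↦ ∑ i, g i τ * F i x τ with hGdef
  have hGτ : ∀ x, G x UpperHalfPlane.I = 0 := by
    intro x
    have := congrFun hrel x
    simp only [hGdef, hgτ]
    simpa using this
  obtain ⟨G', hG', hGG'⟩ := hG.exists_div isL1_E6 one_ne_zero E6_tendsto
    (by
      intro x z hz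
      obtain ⟨γ, rfl⟩ := E6_zero hz
      exact vanish_orbit hG hGτ γ x)
    (fun z hz ↦ D_E6_ne_zero hz)
  refine h.descent m (by omega : k m - 6 < k m) hG' g E₆ (hg m).holo ?_ ?_
  · intro h0
    have := congrFun h0 UpperHalfPlane.I
    rw [hgτ] at this
    exact hm this
  · intro x τ'
    exact hGG' x τ'

/-- **The determinant of a minimal frame vanishes nowhere.** -/
theorem IsMinFrame.dt_ne_zero {k : X → ℤ} {F : X → X → ℍ → ℂ} (h : IsMinFrame k F)
    (hX : ∀ x : X, (-1 : SL(2, ℤ)) • x = x) (τ : ℍ) : dt F τ ≠ 0 := by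
  have key : ∀ (γ : SL(2, ℤ)) (τ₀ : ℍ), dt F τ₀ ≠ 0 → dt F (γ • τ₀) ≠ 0 := by
    intro γ τ₀ h0 h1
    rw [dt_smul h.1.vv] at h1
    have e1 : denom γ τ₀ ^ (∑ i, k i) ≠ 0 := zpow_ne_zero _ (denom_ne_zero _ _)
    have e2 : ((Equiv.Perm.sign (MulAction.toPerm γ⁻¹ : Equiv.Perm X) : ℤ) : ℂ) ≠ 0 := by
      rcases Int.units_eq_one_or (Equiv.Perm.sign (MulAction.toPerm γ⁻¹ : Equiv.Perm X)) with h | h
      · rw [h]; simp
      · rw [h]; simp
    exact mul_ne_zero e1 (mul_ne_zero e2 h0) h1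
  by_cases h4 : E₄ τ = 0
  · obtain ⟨γ, rfl⟩ := E4_zero h4
    exact key γ rho h.dt_ne_zero_rho
  · by_cases h6 : E₆ τ = 0
    · obtain ⟨γ, rfl⟩ := E6_zero h6
      exact key γ _ h.dt_ne_zero_I
    · exact h.dt_ne_zero_generic hX h4 h6

end Fermat.Agent.S20
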