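import Fermat.Agent.S20.Dual

/-!
# The number of weight ten members of a minimal frame
-/

set_option autoImplicit false

noncomputable section

open UpperHalfPlane hiding I
open Real Complex Filter ModularForm ModularFormClass EisensteinSeries Derivative
open scoped Manifold MatrixGroups ModularForm Topology

namespace Fermat.Agent.S20

variable {X : Type} [MulAction SL(2, ℤ) X] [Fintype X] [DecidableEq X]

/-- number of members of weight `w` -/
def cw (k : X → ℤ) (w : ℤ) : ℕ := (Finset.univ.filter fun i ↦ k i = w).card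

/-- the set of possible weights -/
def WS : Finset ℤ := {0, 2, 4, 6, 8, 10}

omit [MulAction SL(2, ℤ) X] [DecidableEq X] in
lemma sum_weights_fiber {M : Type*} [AddCommMonoid M] {k : X → ℤ} (hk : ∀ i, k i ∈ WS)
    (f : ℤ → M) : ∑ i, f (k i) = cw k 0 • f 0 + cw k 2 • f 2 + cw k 4 • f 4 + cw k 6 • f 6 +
      cw k 8 • f 8 + cw k 10 • f 10 := by
  rw [← Finset.sum_fiberwise_of_maps_to (s := Finset.univ) (t := WS) (g := k) (fun i _ ↦ hk i)]
  have h1 : ∀ w ∈ WS, ∑ i ∈ Finset.univ.filter (fun i ↦ k i = w), f (k i) = cw k w • f w := by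
    intro w _
    rw [Finset.sum_congr rfl (g := fun _ ↦ f w) (by
      intro y hy; rw [(Finset.mem_filter.mp hy).2]), Finset.sum_const, cw]
  rw [Finset.sum_congr rfl h1]
  simp [WS, add_assoc]

lemma EB.mem_WS {n : ℕ} (B : EB X n) [NeZero n] {k : X → ℤ} {F : X → X → ℍ → ℂ}
    (h : IsMinFrame k F) (hX : ∀ x : X, (-1 : SL(2, ℤ)) • x = x) (i : X) : k i ∈ WS := by
  have h1 := h.1.nonneg i
  have h2 := B.weight_le h hX i
  obtain ⟨m, hm⟩ := h.1.even hX i
  simp only [WS, Finset.mem_insert, Finset.mem_singleton]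
  omega

lemma rho_pow_three : (rho : ℂ) ^ 3 = 1 := by
  linear_combination ((rho : ℂ) - 1) * rho_sq

/-- **The count of weight ten members.** -/
theorem EB.count_ten {n : ℕ} (B : EB X n) [NeZero n] [Nonempty X]
    [MulAction.IsPretransitive SL(2, ℤ) X] {k : X → ℤ} {F : X → X → ℍ → ℂ}
    (h : IsMinFrame k F) (hX : ∀ x : X, (-1 : SL(2, ℤ)) • x = x) :
    12 * (cw k 10 : ℤ) + 3 * fx X ModularGroup.S + 4 * fx X gU + 6 * eN B.e 0
      = 12 + Fintype.card X := by
  have hmem := B.mem_WS h hX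
  -- total number
  have t1 : (Fintype.card X : ℤ) = cw k 0 + cw k 2 + cw k 4 + cw k 6 + cw k 8 + cw k 10 := by
    have := sum_weights_fiber hmem (fun _ ↦ (1 : ℤ))
    simpa using this
  -- weight zero
  have t2 : cw k 0 = 1 := by
    obtain ⟨j, hj⟩ := B.exists_weight_zero h hX
    rw [cw, Finset.card_eq_one]
    refine ⟨j, ?_⟩
    ext i
    simp only [Finset.mem_filter, Finset.mem_univ, true_and, Finset.mem_singleton]
    exact ⟨fun hi ↦ h.1.weight_zero_unique hi hj, fun hi ↦ hi ▸ hj⟩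
  -- sum of weights
  have t3 : (2 : ℤ) * cw k 2 + 4 * cw k 4 + 6 * cw k 6 + 8 * cw k 8 + 10 * cw k 10
      = 6 * ((Fintype.card X : ℤ) - eN B.e 0) := by
    rw [← B.sum_weights h hX]
    have := sum_weights_fiber hmem (fun w ↦ w)
    rw [this]
    simp
    ring
  -- trace of S
  have t4 : (cw k 0 : ℤ) + cw k 4 + cw k 8 - (cw k 2 + cw k 6 + cw k 10) = fx X ModularGroup.S := by
    have h1 := sum_eig h.1.vv S_smul_I (h.dt_ne_zero hX _)
    rw [denom_S] at h1
    have hI : ((UpperHalfPlane.I : ℍ) : ℂ) = Complex.I := rfl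
    rw [hI] at h1
    have h2 := sum_weights_fiber hmem (fun w ↦ Complex.I ^ (-w))
    rw [h2] at h1
    have p2 : Complex.I ^ (-2 : ℤ) = -1 := by
      rw [zpow_neg, show (2 : ℤ) = ((2 : ℕ) : ℤ) by norm_num, zpow_natCast, Complex.I_sq]; norm_num
    have p4 : Complex.I ^ (-4 : ℤ) = 1 := by
      rw [show (-4 : ℤ) = (-2) * 2 by norm_num, zpow_mul, p2]; norm_num
    have p6 : Complex.I ^ (-6 : ℤ) = -1 := by
      rw [show (-6 : ℤ) = (-2) * 3 by norm_num, zpow_mul, p2]; norm_num
    have p8 : Complex.I ^ (-8 : ℤ) = 1 := by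
      rw [show (-8 : ℤ) = (-2) * 4 by norm_num, zpow_mul, p2]; norm_num
    have p10 : Complex.I ^ (-10 : ℤ) = -1 := by
      rw [show (-10 : ℤ) = (-2) * 5 by norm_num, zpow_mul, p2]; norm_num
    rw [p2, p4, p6, p8, p10] at h1
    have h3 : (((cw k 0 : ℤ) + cw k 4 + cw k 8 - (cw k 2 + cw k 6 + cw k 10) : ℤ) : ℂ)
        = ((fx X ModularGroup.S : ℤ) : ℂ) := by
      push_cast
      rw [← h1]
      simp
      ring
    exact_mod_cast h3
  -- trace of U
  have t5 : (cw k 2 : ℤ) + cw k 8 = cw k 4 + cw k 10 ∧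
      (cw k 0 : ℤ) + cw k 6 - (cw k 2 + cw k 8) = fx X gU := by
    have h1 := sum_eig h.1.vv gU_smul_rho (h.dt_ne_zero hX _)
    rw [denom_gU] at h1
    have h2 := sum_weights_fiber hmem (fun w ↦ ((rho : ℂ) + 1) ^ (-w))
    rw [h2] at h1
    have hr := rho_sq
    have hr3 := rho_pow_three
    have p2' : ((rho : ℂ) + 1) ^ (2 : ℤ) = rho := by
      rw [show (2 : ℤ) = ((2 : ℕ) : ℤ) by norm_num, zpow_natCast]
      linear_combination hr
    have hrho0 : (rho : ℂ) ≠ 0 := by
      intro h0; rw [h0] at hr3; norm_num at hr3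
    have p2 : ((rho : ℂ) + 1) ^ (-2 : ℤ) = -1 - rho := by
      rw [zpow_neg, p2']
      exact inv_eq_of_mul_eq_one_right (by linear_combination -hr)
    have p4 : ((rho : ℂ) + 1) ^ (-4 : ℤ) = rho := by
      rw [show (-4 : ℤ) = (-2) * 2 by norm_num, zpow_mul, p2,
        show (2 : ℤ) = ((2 : ℕ) : ℤ) by norm_num, zpow_natCast]
      linear_combination hr
    have p6 : ((rho : ℂ) + 1) ^ (-6 : ℤ) = 1 := by
      rw [show (-6 : ℤ) = (-2) * 3 by norm_num, zpow_mul, p2,
        show (3 : ℤ) = ((3 : ℕ) : ℤ) by norm_num, zpow_natCast]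
      linear_combination (-(rho : ℂ) - 2) * hr
    have p8 : ((rho : ℂ) + 1) ^ (-8 : ℤ) = -1 - rho := by
      have hne : (rho : ℂ) + 1 ≠ 0 := isPrimitiveRoot_rho_add_one.ne_zero (by norm_num)
      rw [show (-8 : ℤ) = (-6) + (-2) by norm_num, zpow_add₀ hne, p6, p2, one_mul]
    have p10 : ((rho : ℂ) + 1) ^ (-10 : ℤ) = rho := by
      have hne : (rho : ℂ) + 1 ≠ 0 := isPrimitiveRoot_rho_add_one.ne_zero (by norm_num)
      rw [show (-10 : ℤ) = (-6) + (-4) by norm_num, zpow_add₀ hne, p6, p4, one_mul]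
    rw [p2, p4, p6, p8, p10] at h1
    simp only [neg_zero, zpow_zero, nsmul_eq_mul, mul_one] at h1
    -- take imaginary and real parts
    have him := congrArg Complex.im h1
    have hre := congrArg Complex.re h1
    have hrim : (rho : ℂ).im ≠ 0 := UpperHalfPlane.im_ne_zero rho
    have hrre : (rho : ℂ).re = -1/2 := rfl
    simp only [Complex.add_im, Complex.add_re, Complex.mul_im, Complex.mul_re, Complex.sub_im,
      Complex.sub_re, Complex.neg_im, Complex.neg_re, Complex.natCast_im, Complex.natCast_re,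
      Complex.one_im, Complex.one_re, hrre] at him hre
    have him' : ((cw k 2 : ℝ) + cw k 8) = cw k 4 + cw k 10 := by
      apply mul_right_cancel₀ hrim
      linear_combination -him
    have hre' : (cw k 0 : ℝ) + cw k 6 - (cw k 2 + cw k 8) = fx X gU := by
      linear_combination hre - (1/2) * him'
    exact ⟨by exact_mod_cast him', by exact_mod_cast hre'⟩
  obtain ⟨t5, t6⟩ := t5
  have t2' : (cw k 0 : ℤ) = 1 := by exact_mod_cast t2
  linarith

end Fermat.Agent.S20
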