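import Fermat.Agent.S20.Exist

/-!
# The space of weight two cusp forms in terms of the dual frame
-/

set_option autoImplicit false

noncomputable section

open UpperHalfPlane hiding I
open Real Complex Filter ModularForm ModularFormClass EisensteinSeries Derivative
open scoped Manifold MatrixGroups ModularForm Topology

namespace Fermat.Agent.S20

open CongruenceSubgroup

section general
variable {X : Type} [MulAction SL(2, ℤ) X]

lemma IsVVCusp.congr {k l : ℤ} {F : X → ℍ → ℂ} (hF : IsVVCusp k F) (h : k = l) : IsVVCusp l F :=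
  h ▸ hF

lemma IsVVCusp.sum {ι : Type} [Fintype ι] {k : ℤ} {F : ι → X → ℍ → ℂ}
    (hF : ∀ i, IsVVCusp k (F i)) (c : ι → ℂ) :
    IsVVCusp k (fun x τ ↦ ∑ i, c i * F i x τ) where
  slash γ x := by
    apply slash_of_smul_apply
    intro τ
    rw [Finset.mul_sum]
    refine Finset.sum_congr rfl fun i _ ↦ ?_
    rw [(hF i).toVV.smul_apply]
    ring
  holo x := by
    have h2 : MDiff (∑ i, c i • F i x) := .sum fun i _ ↦ ((hF i).holo x).const_smul (c i)
    have e : (fun τ ↦ ∑ i, c i * F i x τ) = ∑ i, c i • F i x := by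
      ext τ; simp [Finset.sum_apply]
    rw [e]; exact h2
  zero x := by
    have h1 : Tendsto (fun τ ↦ ∑ i, c i * F i x τ) atImInfty (𝓝 (∑ i, c i * (0 : ℂ))) :=
      tendsto_finsetSum _ fun i _ ↦ ((hF i).zero x).const_mul _
    simp only [mul_zero, Finset.sum_const_zero] at h1
    exact h1

variable [Fintype X] [DecidableEq X] {k : X → ℤ} {F : X → X → ℍ → ℂ} {n : ℕ} (B : EB X n)

/-- a combination of the dual frame members of weight two which vanishes is trivial. -/
lemma dual_indep (h : IsMinFrame k F)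
    (hX : ∀ x : X, (-1 : SL(2, ℤ)) • x = x) (c : {j : X // k j = 10} → ℂ)
    (h0 : ∀ x τ, ∑ j : {j : X // k j = 10}, c j * dual F j x τ = 0) : c = 0 := by
  ext i
  have h1 : ∑ x, F i x UpperHalfPlane.I *
      ∑ j : {j : X // k j = 10}, c j * dual F j x UpperHalfPlane.I = 0 := by
    simp [h0]
  simp_rw [Finset.mul_sum] at h1
  rw [Finset.sum_comm] at h1
  have h2 : ∀ j : {j : X // k j = 10}, ∑ x, F i x UpperHalfPlane.I *
      (c j * dual F j x UpperHalfPlane.I) =
      c j * (if i = j then ModularForm.discriminant UpperHalfPlane.I else 0) := by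
    intro j
    have := dual_pair (h.dt_ne_zero hX) i j UpperHalfPlane.I
    have e : (if i = j then ModularForm.discriminant UpperHalfPlane.I else 0)
        = (if (i : X) = j then ModularForm.discriminant UpperHalfPlane.I else 0) := by
      by_cases hij : i = j
      · simp [hij]
      · have : (i : X) ≠ j := fun h ↦ hij (Subtype.ext h)
        simp [hij, this]
    rw [e, ← this, Finset.mul_sum]
    refine Finset.sum_congr rfl fun x _ ↦ ?_
    ring
  simp_rw [h2] at h1
  simp only [mul_ite, mul_zero, Finset.sum_ite_eq, Finset.mem_univ, if_true] at h1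
  exact (mul_eq_zero.mp h1).resolve_right (discriminant_ne_zero _)

include B in
/-- weight two vector valued cusp forms are combinations of the dual frame members. -/
lemma EB.exists_coeffs [NeZero n] (h : IsMinFrame k F)
    (hX : ∀ x : X, (-1 : SL(2, ℤ)) • x = x) {H : X → ℍ → ℂ} (hH : IsVVCusp 2 H) :
    ∃ c : {j : X // k j = 10} → ℂ,
      ∀ x τ, H x τ = ∑ j : {j : X // k j = 10}, c j * dual F j x τ := by
  have key : ∀ j, ∃ c : ℂ, (k j ≠ 10 → c = 0) ∧
      ∀ τ, ∑ x, H x τ * F j x τ = ModularForm.discriminant τ * c := by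
    intro j
    have h2 := hH.pair (h.1.vv j)
    obtain ⟨g, hg, hgeq⟩ := h2.exists_div
    have h3 := B.weight_le h hX j
    rcases h3.lt_or_eq with h4 | h4
    · refine ⟨0, fun _ ↦ rfl, fun τ ↦ ?_⟩
      have h5 : g = 0 := hg.eq_zero_of_neg (by omega)
      have := hgeq τ
      rw [h5] at this
      exact this
    · have h5 : IsL1 0 g := hg.congr (by omega)
      obtain ⟨c, hc⟩ := ModularForm.eq_const_of_weight_zero h5.toMF
      refine ⟨c, fun h6 ↦ absurd h4 h6, fun τ ↦ ?_⟩
      have h7 := hgeq τ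
      have h8 : g τ = c := congrFun hc τ
      rw [h8] at h7
      exact h7
  choose c hc1 hc2 using key
  refine ⟨fun j ↦ c j, fun x' τ ↦ ?_⟩
  have h1 : ∑ x, H x τ * ∑ j, dual F j x' τ * F j x τ = H x' τ * ModularForm.discriminant τ := by
    simp_rw [dual_pair' (h.dt_ne_zero hX)]
    simp
  have h2 : ∑ x, H x τ * ∑ j, dual F j x' τ * F j x τ =
      ∑ j, dual F j x' τ * (ModularForm.discriminant τ * c j) := by
    simp_rw [Finset.mul_sum]
    rw [Finset.sum_comm]
    refine Finset.sum_congr rfl fun j _ ↦ ?_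
    rw [← hc2, Finset.mul_sum]
    refine Finset.sum_congr rfl fun x _ ↦ ?_
    ring
  have h3 : ∑ j, c j * dual F j x' τ = ∑ j : {j : X // k j = 10}, c j * dual F j x' τ := by
    rw [← Finset.sum_subtype (Finset.univ.filter fun j ↦ k j = 10) (by simp)
      (fun j ↦ c j * dual F j x' τ), Finset.sum_filter]
    refine Finset.sum_congr rfl fun j _ ↦ ?_
    split_ifs with h5
    · rfl
    · rw [hc1 j h5, zero_mul]
  rw [h1] at h2
  have h4 := discriminant_ne_zero τ
  rw [← h3]
  apply mul_right_cancel₀ h4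
  rw [h2, Finset.sum_mul]
  refine Finset.sum_congr rfl fun j _ ↦ ?_
  ring

end general

section level
variable {N : ℕ} [NeZero N]

open Gamma0Comb (X)

/-- The base point. -/
def x0 (N : ℕ) : SL(2, ℤ) ⧸ Gamma0 N := ((1 : SL(2, ℤ)) : SL(2, ℤ) ⧸ Gamma0 N)

omit [NeZero N] in
lemma smul_x0 (γ : SL(2, ℤ)) : γ • x0 N = (γ : SL(2, ℤ) ⧸ Gamma0 N) := by
  have : γ • x0 N = ((γ * 1 : SL(2, ℤ)) : SL(2, ℤ) ⧸ Gamma0 N) := rfl
  rw [this, mul_one]

omit [NeZero N] in
lemma smul_x0_of_mem {γ : SL(2, ℤ)} (h : γ ∈ Gamma0 N) : γ • x0 N = x0 N := by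
  rw [smul_x0, x0, QuotientGroup.eq]
  simpa using h

/-- The cusp form attached to a vector valued cusp form. -/
def toCuspForm {k : ℤ} {H : (X N) → ℍ → ℂ} (hH : IsVVCusp k H) : CuspForm (Gamma0 N) k where
  toFun := H (x0 N)
  slash_action_eq' := by
    rintro _ ⟨γ, hγ, rfl⟩
    have h := hH.slash γ (x0 N)
    rw [smul_x0_of_mem (inv_mem hγ)] at h
    exact h
  holo' := hH.holo _
  zero_at_cusps' {c} hc := by
    rw [Subgroup.IsArithmetic.isCusp_iff_isCusp_SL2Z] at hc
    rw [OnePoint.isZeroAt_iff_forall_SL2Z hc]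
    intro γ _
    rw [hH.slash γ]
    exact hH.zero _

@[simp] lemma toCuspForm_apply {k : ℤ} {H : (X N) → ℍ → ℂ} (hH : IsVVCusp k H) (τ : ℍ) :
    toCuspForm hH τ = H (x0 N) τ := rfl

omit [NeZero N] in
lemma slash_of_cuspForm {k : ℤ} (f : CuspForm (Gamma0 N) k) (γ : SL(2, ℤ)) (hγ : γ ∈ Gamma0 N) :
    (f : ℍ → ℂ) ∣[k] γ = f := SlashInvariantForm.slash_action_eqn f γ (Subgroup.mem_map_of_mem _ hγ)

lemma isVVCusp_cosetFun {k : ℤ} (f : CuspForm (Gamma0 N) k) :
    IsVVCusp k (cosetFun (N := N) k f) where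
  slash := cosetFun_slash (slash_of_cuspForm f)
  holo x := MDifferentiable.slash f.holo' _ _
  zero x := CuspFormClass.zero_at_infty_slash f _

lemma cosetFun_x0 {k : ℤ} (f : CuspForm (Gamma0 N) k) :
    cosetFun (N := N) k f (x0 N) = f := by
  rw [x0, cosetFun_mk (slash_of_cuspForm f), inv_one, SlashAction.slash_one]

omit [NeZero N] in
lemma IsVVCusp.eq_zero_of_x0 {k : ℤ} {H : (X N) → ℍ → ℂ} (hH : IsVVCusp k H)
    (h0 : H (x0 N) = 0) : H = 0 := by
  ext x τ
  obtain ⟨g, rfl⟩ := QuotientGroup.mk_surjective x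
  have h1 := hH.slash g⁻¹ (x0 N)
  rw [inv_inv, smul_x0, h0, SlashAction.zero_slash] at h1
  rw [← h1]; rfl

variable [Fintype (X N)] [DecidableEq (X N)] {k : (X N) → ℤ} {F : (X N) → (X N) → ℍ → ℂ} {n : ℕ} [NeZero n]
  (B : EB (X N) n)

include B in
lemma EB.vvcusp_two (h : IsMinFrame k F) (c : {j : (X N) // k j = 10} → ℂ) :
    IsVVCusp 2 (fun x τ ↦ ∑ j : {j : (X N) // k j = 10}, c j * dual F j x τ) :=
  IsVVCusp.sum (fun j : {j : (X N) // k j = 10} ↦
    (B.dual_vvcusp h neg_one_smul_X j).congr (by rw [j.2]; norm_num)) c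

/-- The parametrisation of the space of cusp forms of weight two. -/
def EB.psi (h : IsMinFrame k F) : ({j : (X N) // k j = 10} → ℂ) →ₗ[ℂ] CuspForm (Gamma0 N) 2 where
  toFun c := toCuspForm (B.vvcusp_two h c)
  map_add' c d := by
    ext τ
    simp [add_mul, Finset.sum_add_distrib]
  map_smul' a c := by
    ext τ
    simp [Finset.mul_sum, mul_assoc]

lemma EB.psi_bijective (h : IsMinFrame k F) : Function.Bijective (B.psi h) := by
  constructor
  · rw [← LinearMap.ker_eq_bot, LinearMap.ker_eq_bot']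
    intro c hc
    apply dual_indep h neg_one_smul_X
    have h1 := (B.vvcusp_two h c).eq_zero_of_x0 (by
      ext τ
      exact congrArg (fun f : CuspForm (Gamma0 N) 2 ↦ f τ) hc)
    intro x τ
    exact congrFun (congrFun h1 x) τ
  · intro f
    obtain ⟨c, hc⟩ := B.exists_coeffs h neg_one_smul_X (isVVCusp_cosetFun f)
    refine ⟨c, ?_⟩
    ext τ
    have h1 := hc (x0 N) τ
    rw [cosetFun_x0] at h1
    exact h1.symm

include B in
theorem EB.finrank_eq (h : IsMinFrame k F) :
    Module.finrank ℂ (CuspForm (Gamma0 N) 2) = cw k 10 := by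
  have e := LinearEquiv.ofBijective _ (B.psi_bijective h)
  rw [← e.finrank_eq, Module.finrank_fintype_fun_eq_card, Fintype.card_subtype, cw]

end level

end Fermat.Agent.S20
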