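import Fermat.Agent.S20.Zeros

/-!
# Vector valued forms for a finite `SL(2,ℤ)`-set, and division lemmas
-/

set_option autoImplicit false

noncomputable section

open UpperHalfPlane hiding I
open Real Complex Filter ModularForm ModularFormClass EisensteinSeries Derivative
open scoped Manifold MatrixGroups ModularForm Topology

namespace Fermat.Agent.S20

/-- Division by a function with simple zeros. -/
lemma exists_div_of_simple {f h : ℍ → ℂ} (hf : MDiff f) (hh : MDiff h)
    (hz : ∀ z, h z = 0 → f z = 0) (hs : ∀ z, h z = 0 → D h z ≠ 0) :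
    ∃ g : ℍ → ℂ, MDiff g ∧ ∀ z, f z = h z * g z := by
  classical
  set F : ℂ → ℂ := f ∘ ofComplex with hF
  set H : ℂ → ℂ := h ∘ ofComplex with hH
  let g : ℍ → ℂ := fun z ↦ if h z = 0 then deriv F z / deriv H z else f z / h z
  refine ⟨g, ?_, ?_⟩
  swap
  · intro z
    by_cases h0 : h z = 0
    · rw [h0, zero_mul]; exact hz z h0
    · simp only [g, h0, if_false]
      rw [mul_div_cancel₀ _ h0]
  have hFd : DifferentiableOn ℂ F upperHalfPlaneSet := UpperHalfPlane.mdifferentiable_iff.mp hf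
  have hHd : DifferentiableOn ℂ H upperHalfPlaneSet := UpperHalfPlane.mdifferentiable_iff.mp hh
  intro z
  rw [UpperHalfPlane.mdifferentiableAt_iff]
  have hU : upperHalfPlaneSet ∈ 𝓝 (z : ℂ) := isOpen_upperHalfPlaneSet.mem_nhds z.im_pos
  by_cases h0 : h z = 0
  · have hd : deriv H z ≠ 0 := by
      have := hs z h0
      rw [normalizedDerivOfComplex] at this
      exact fun h ↦ this (by rw [← hH, h, mul_zero])
    have hFs : DifferentiableOn ℂ (dslope F z) upperHalfPlaneSet :=
      (Complex.differentiableOn_dslope hU).mpr hFd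
    have hHs : DifferentiableOn ℂ (dslope H z) upperHalfPlaneSet :=
      (Complex.differentiableOn_dslope hU).mpr hHd
    have hFz : F z = 0 := by simp [hF, hz z h0]
    have hHz : H z = 0 := by simp [hH, h0]
    have hcont : ContinuousAt (dslope H z) z := (hHs.differentiableAt hU).continuousAt
    have hne : ∀ᶠ w in 𝓝 (z : ℂ), dslope H z w ≠ 0 :=
      hcont.eventually_ne (by rw [dslope_same]; exact hd)
    have heq : g ∘ ofComplex =ᶠ[𝓝 (z : ℂ)] fun w ↦ dslope F z w / dslope H z w := by
      filter_upwards [hne, hU] with w hw hwU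
      have hwU' : 0 < w.im := hwU
      have e1 : ofComplex w = ⟨w, hwU'⟩ := ofComplex_apply_of_im_pos hwU'
      by_cases hwz : w = z
      · subst hwz
        have : h (ofComplex (z : ℂ)) = 0 := by simpa using h0
        simp only [Function.comp_apply, g, this, if_true, dslope_same]
        simp
      · have eF : F w = (w - z) * dslope F z w := by
          have := sub_smul_dslope F (z : ℂ) w
          rw [smul_eq_mul, hFz, sub_zero] at this
          exact this.symm
        have eH : H w = (w - z) * dslope H z w := by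
          have := sub_smul_dslope H (z : ℂ) w
          rw [smul_eq_mul, hHz, sub_zero] at this
          exact this.symm
        have hwz' : w - z ≠ 0 := sub_ne_zero.mpr hwz
        have hHw : h (ofComplex w) ≠ 0 := by
          have : H w ≠ 0 := by rw [eH]; exact mul_ne_zero hwz' hw
          exact this
        simp only [Function.comp_apply, g, hHw, if_false]
        have : f (ofComplex w) / h (ofComplex w) = F w / H w := rfl
        rw [this, eF, eH, mul_div_mul_left _ _ hwz']
    refine DifferentiableAt.congr_of_eventuallyEq ?_ heq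
    exact (hFs.differentiableAt hU).fun_div (hHs.differentiableAt hU) (by rw [dslope_same]; exact hd)
  · have hHz : H z ≠ 0 := by simpa [hH] using h0
    have hcont : ContinuousAt H z := (hHd.differentiableAt hU).continuousAt
    have heq : g ∘ ofComplex =ᶠ[𝓝 (z : ℂ)] fun w ↦ F w / H w := by
      filter_upwards [hcont.eventually_ne hHz] with w hw
      have hw' : h (ofComplex w) ≠ 0 := hw
      simp only [Function.comp_apply, g, hw', if_false, hF, hH]
    refine DifferentiableAt.congr_of_eventuallyEq ?_ heq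
    exact (hFd.differentiableAt hU).fun_div (hHd.differentiableAt hU) hHz

variable {X : Type} [MulAction SL(2, ℤ) X]

/-- Vector valued forms. -/
structure IsVV (k : ℤ) (F : X → ℍ → ℂ) : Prop where
  slash : ∀ (γ : SL(2, ℤ)) (x : X), (F x) ∣[k] γ = F (γ⁻¹ • x)
  holo : ∀ x, MDiff (F x)
  bdd : ∀ x, IsBoundedAtImInfty (F x)

lemma IsVV.smul_apply {k : ℤ} {F : X → ℍ → ℂ} (hF : IsVV k F) (γ : SL(2, ℤ)) (x : X) (τ : ℍ) :
    F x (γ • τ) = denom γ τ ^ k * F (γ⁻¹ • x) τ := by
  have := congrFun (hF.slash γ x) τ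
  rw [SL_slash_apply] at this
  have hd : denom γ τ ^ k ≠ 0 := zpow_ne_zero _ (denom_ne_zero _ _)
  rw [← this, zpow_neg]
  field_simp

lemma slash_of_smul_apply {k : ℤ} {f g : ℍ → ℂ} (γ : SL(2, ℤ))
    (h : ∀ τ : ℍ, f (γ • τ) = denom γ τ ^ k * g τ) : f ∣[k] γ = g := by
  ext τ
  rw [SL_slash_apply, h τ, zpow_neg]
  have hd : denom γ τ ^ k ≠ 0 := zpow_ne_zero _ (denom_ne_zero _ _)
  field_simp

lemma IsVV.congr {k l : ℤ} {F : X → ℍ → ℂ} (hF : IsVV k F) (h : k = l) : IsVV l F := h ▸ hF

lemma IsL1.congr {k l : ℤ} {f : ℍ → ℂ} (hF : IsL1 k f) (h : k = l) : IsL1 l f := h ▸ hF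

lemma IsVV.zero (k : ℤ) : IsVV k (0 : X → ℍ → ℂ) where
  slash γ x := by simp
  holo x := mdifferentiable_const
  bdd x := const_boundedAtFilter _ _

lemma IsVV.add {k : ℤ} {F G : X → ℍ → ℂ} (hF : IsVV k F) (hG : IsVV k G) : IsVV k (F + G) where
  slash γ x := by simp [SlashAction.add_slash, hF.slash, hG.slash]
  holo x := (hF.holo x).add (hG.holo x)
  bdd x := (hF.bdd x).add (hG.bdd x)

lemma IsVV.mulL1 {k l : ℤ} {F : X → ℍ → ℂ} (hF : IsVV k F) {g : ℍ → ℂ} (hg : IsL1 l g) :
    IsVV (l + k) (fun x ↦ g * F x) where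
  slash γ x := by rw [mul_slash_SL2, hg.slash, hF.slash]
  holo x := hg.holo.mul (hF.holo x)
  bdd x := hg.bdd.mul (hF.bdd x)

lemma IsVV.sum {ι : Type} {k : ℤ} (s : Finset ι) {F : ι → X → ℍ → ℂ}
    (hF : ∀ i ∈ s, IsVV k (F i)) : IsVV k (fun x ↦ ∑ i ∈ s, F i x) := by
  classical
  induction s using Finset.induction_on with
  | empty =>
    convert IsVV.zero (X := X) k using 1
    ext x; simp
  | insert i s hi ih =>
    have h1 := hF i (Finset.mem_insert_self i s)
    have h2 := ih fun j hj ↦ hF j (Finset.mem_insert_of_mem hj)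
    convert h1.add h2 using 1
    ext x τ
    simp [Finset.sum_insert hi]

/-- zero-weight invariants -/
lemma IsVV.eq_zero_of_odd {k : ℤ} {F : X → ℍ → ℂ} (hF : IsVV k F)
    (hX : ∀ x : X, (-1 : SL(2, ℤ)) • x = x) (hk : Odd k) : F = 0 := by
  ext x τ
  have h := hF.smul_apply (-1) x τ
  have e1 : ((-1 : SL(2, ℤ)) • τ) = τ := by
    simp
  have e2 : ((-1 : SL(2, ℤ))⁻¹ • x) = x := by
    rw [inv_smul_eq_iff, hX]
  rw [e1, e2] at h
  have e3 : denom (-1 : SL(2, ℤ)) τ = -1 := by
    simp [denom]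
  rw [e3, hk.neg_one_zpow] at h
  have : (2 : ℂ) * F x τ = 0 := by linear_combination h
  simpa using this

/-- division of VV forms by a level one form with simple zeros, nonzero at infinity -/
lemma IsVV.exists_div {k l : ℤ} {F : X → ℍ → ℂ} (hF : IsVV k F) {h : ℍ → ℂ} (hh : IsL1 l h)
    {L : ℂ} (hL : L ≠ 0) (hlim : Tendsto h atImInfty (𝓝 L))
    (hz : ∀ x z, h z = 0 → F x z = 0) (hs : ∀ z, h z = 0 → D h z ≠ 0) :
    ∃ G : X → ℍ → ℂ, IsVV (k - l) G ∧ ∀ x z, F x z = h z * G x z := by
  have := fun x ↦ exists_div_of_simple (hF.holo x) hh.holo (hz x) hs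
  choose G hG1 hG2 using this
  refine ⟨G, ⟨?_, hG1, ?_⟩, hG2⟩
  · -- slash
    intro γ x
    have hne : h ≠ 0 := by
      rintro rfl
      have : Tendsto (0 : ℍ → ℂ) atImInfty (𝓝 0) := tendsto_const_nhds
      exact hL (tendsto_nhds_unique hlim this)
    have e : h * (G x ∣[k - l] γ - G (γ⁻¹ • x)) = 0 := by
      have e1 : (h * G x) ∣[k] γ = h * (G x ∣[k - l] γ) := by
        have := mul_slash_SL2 l (k - l) γ h (G x)
        rw [hh.slash] at this
        rw [← this]
        congr 1; ring
      have e2 : h * G x = F x := by ext z; simp [hG2 x z]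
      have e3 : h * G (γ⁻¹ • x) = F (γ⁻¹ • x) := by ext z; simp [hG2 _ z]
      rw [mul_sub, ← e1, e2, e3, hF.slash, sub_self]
    have hm : MDiff (G x ∣[k - l] γ - G (γ⁻¹ • x)) :=
      (MDifferentiable.slash (hG1 x) _ _).sub (hG1 _)
    rcases (UpperHalfPlane.mul_eq_zero_iff hh.holo hm).mp e with h0 | h0
    · exact absurd h0 hne
    · exact sub_eq_zero.mp h0
  · intro x
    have hev : ∀ᶠ z in atImInfty, ‖L‖ / 2 ≤ ‖h z‖ := by
      have : Tendsto (fun z ↦ ‖h z‖) atImInfty (𝓝 ‖L‖) := hlim.norm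
      have hL' : ‖L‖ / 2 < ‖L‖ := by
        have := norm_pos_iff.mpr hL
        linarith
      filter_upwards [this.eventually (lt_mem_nhds hL')] with z hz using hz.le
    have hb := hF.bdd x
    rw [IsBoundedAtImInfty, BoundedAtFilter] at hb ⊢
    refine Asymptotics.IsBigO.trans ?_ hb
    have hLpos := norm_pos_iff.mpr hL
    refine Asymptotics.IsBigO.of_bound (2 / ‖L‖) ?_
    filter_upwards [hev] with z hz
    rw [hG2 x z, norm_mul]
    calc ‖G x z‖ = (2 / ‖L‖) * (‖L‖ / 2 * ‖G x z‖) := by field_simp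
      _ ≤ 2 / ‖L‖ * (‖h z‖ * ‖G x z‖) := by gcongr

/-- division by the discriminant -/
lemma IsVV.exists_div_Delta {k : ℤ} {F : X → ℍ → ℂ} (hF : IsVV k F)
    (hO : ∀ x, F x =O[atImInfty] ModularForm.discriminant) :
    ∃ G : X → ℍ → ℂ, IsVV (k - 12) G ∧ ∀ x z, F x z = ModularForm.discriminant z * G x z := by
  refine ⟨fun x z ↦ F x z / ModularForm.discriminant z, ⟨?_, ?_, ?_⟩, ?_⟩
  · intro γ x
    have := div_slash_SL2 k 12 γ (F x) ModularForm.discriminant
    rw [hF.slash, isL1Cusp_Delta.slash] at this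
    exact this
  · intro x
    exact (hF.holo x).div holo_Delta discriminant_ne_zero
  · intro x
    exact (Asymptotics.div_isBoundedUnder_of_isBigO (hO x)).isBigO_one ℝ
  · intro x z
    rw [mul_div_cancel₀ _ (discriminant_ne_zero z)]

end Fermat.Agent.S20
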