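import Fermat.Agent.S20.JInj

/-!
# The zeros of `E₄`, `E₆`, `hForm τ₀` and division lemmas
-/

set_option autoImplicit false

noncomputable section

open UpperHalfPlane hiding I
open Real Complex Filter ModularForm ModularFormClass EisensteinSeries Derivative
open scoped Manifold MatrixGroups ModularForm Topology

namespace Fermat.Agent.S20

lemma exists_root (n : ℕ) (hn : n ≠ 0) (a : ℂ) : ∃ l : ℂ, l ^ n = a :=
  IsAlgClosed.exists_pow_nat_eq a (Nat.pos_of_ne_zero hn)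

lemma E4_zero_orbit {τ₁ τ₂ : ℍ} (h1 : E₄ τ₁ = 0) (h2 : E₄ τ₂ = 0) :
    ∃ γ : SL(2, ℤ), γ • τ₁ = τ₂ := by
  have a1 := (E4_ne_or_E6_ne τ₁).resolve_left (not_not.mpr h1)
  have a2 := (E4_ne_or_E6_ne τ₂).resolve_left (not_not.mpr h2)
  obtain ⟨l, hl⟩ := exists_root 6 (by norm_num) (E₆ τ₂ / E₆ τ₁)
  have hl0 : l ≠ 0 := by
    rintro rfl
    rw [zero_pow (by norm_num)] at hl
    exact div_ne_zero a2 a1 hl.symm
  refine exists_smul_eq_of_ratio hl0 (by rw [h1, h2, mul_zero]) ?_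
  rw [hl, div_mul_cancel₀ _ a1]

lemma E6_zero_orbit {τ₁ τ₂ : ℍ} (h1 : E₆ τ₁ = 0) (h2 : E₆ τ₂ = 0) :
    ∃ γ : SL(2, ℤ), γ • τ₁ = τ₂ := by
  have a1 := (E4_ne_or_E6_ne τ₁).resolve_right (not_not.mpr h1)
  have a2 := (E4_ne_or_E6_ne τ₂).resolve_right (not_not.mpr h2)
  obtain ⟨l, hl⟩ := exists_root 4 (by norm_num) (E₄ τ₂ / E₄ τ₁)
  have hl0 : l ≠ 0 := by
    rintro rfl
    rw [zero_pow (by norm_num)] at hl
    exact div_ne_zero a2 a1 hl.symm
  refine exists_smul_eq_of_ratio hl0 ?_ (by rw [h1, h2, mul_zero])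
  rw [hl, div_mul_cancel₀ _ a1]

lemma hForm_zero_orbit {τ₀ z : ℍ} (h4 : E₄ τ₀ ≠ 0) (h6 : E₆ τ₀ ≠ 0) (h : hForm τ₀ z = 0) :
    ∃ γ : SL(2, ℤ), γ • τ₀ = z := by
  have hΔ0 := discriminant_ne_zero τ₀
  have hΔz := discriminant_ne_zero z
  rw [hForm_apply] at h
  have hE4 : E₄ z ≠ 0 := by
    intro h0
    rw [h0] at h
    have : E₄ τ₀ ^ 3 * ModularForm.discriminant z = 0 := by linear_combination -h
    exact mul_ne_zero (pow_ne_zero 3 h4) hΔz this
  have e1 := Delta_eq z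
  have e2 := Delta_eq τ₀
  have h' : ModularForm.discriminant τ₀ * E₆ z ^ 2 = E₆ τ₀ ^ 2 * ModularForm.discriminant z := by
    linear_combination h + ModularForm.discriminant τ₀ * e1 - ModularForm.discriminant z * e2
  have hE6 : E₆ z ≠ 0 := by
    intro h0
    rw [h0] at h'
    have e3 : E₆ τ₀ ^ 2 * ModularForm.discriminant z = 0 := by linear_combination -h'
    exact mul_ne_zero (pow_ne_zero 2 h6) hΔz e3
  set a := E₄ z / E₄ τ₀ with ha
  set b := E₆ z / E₆ τ₀ with hb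
  have ha0 : a ≠ 0 := div_ne_zero hE4 h4
  have hb0 : b ≠ 0 := div_ne_zero hE6 h6
  have hab : a ^ 3 = b ^ 2 := by
    rw [ha, hb, div_pow, div_pow, div_eq_div_iff (pow_ne_zero 3 h4) (pow_ne_zero 2 h6)]
    apply mul_left_cancel₀ hΔ0
    linear_combination E₆ τ₀ ^ 2 * h - E₄ τ₀ ^ 3 * h'
  obtain ⟨l, hl⟩ := exists_root 2 (by norm_num) (b / a)
  have hl0 : l ≠ 0 := by
    rintro rfl
    rw [zero_pow (by norm_num)] at hl
    exact div_ne_zero hb0 ha0 hl.symm
  have hl4 : l ^ 4 = a := by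
    have : l ^ 4 = (l ^ 2) ^ 2 := by ring
    rw [this, hl, div_pow, ← hab]
    field_simp
  have hl6 : l ^ 6 = b := by
    have : l ^ 6 = (l ^ 2) ^ 3 := by ring
    rw [this, hl, div_pow, hab]
    field_simp
  refine exists_smul_eq_of_ratio hl0 ?_ ?_
  · rw [hl4, ha, div_mul_cancel₀ _ h4]
  · rw [hl6, hb, div_mul_cancel₀ _ h6]

/-- The point `ρ = (-1 + √3 i)/2`. -/
def rho : ℍ := ⟨⟨-1/2, √3 / 2⟩, by simp⟩

lemma rho_sq : (rho : ℂ) ^ 2 + rho + 1 = 0 := by
  have h3 : (√3 : ℝ) ^ 2 = 3 := Real.sq_sqrt (by norm_num)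
  apply Complex.ext
  · simp [rho, pow_two]
    nlinarith
  · simp [rho, pow_two]
    ring

/-- `ST` -/
def gU : SL(2, ℤ) := ModularGroup.S * ModularGroup.T

lemma gU_coe : (gU : Matrix (Fin 2) (Fin 2) ℤ) = !![0, -1; 1, 1] := by
  simp [gU, ModularGroup.S, ModularGroup.T]

lemma denom_gU (z : ℍ) : denom gU z = z + 1 := by
  simp [denom, gU_coe]

lemma denom_S (z : ℍ) : denom ModularGroup.S z = z := by
  simp [ModularGroup.denom_S]

lemma gU_smul_rho : gU • rho = rho := by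
  ext
  rw [UpperHalfPlane.specialLinearGroup_apply]
  have hne : (rho : ℂ) + 1 ≠ 0 := by
    intro h
    have := congrArg Complex.im h
    simp at this
    exact (UpperHalfPlane.im_ne_zero rho) this
  simp [gU_coe]
  rw [div_eq_iff hne]
  linear_combination - rho_sq

lemma S_smul_I : ModularGroup.S • (UpperHalfPlane.I : ℍ) = UpperHalfPlane.I := by
  rw [UpperHalfPlane.modular_S_smul]
  ext
  simp

/-- `ζ = ρ + 1`, a primitive sixth root of unity -/
lemma isPrimitiveRoot_rho_add_one : IsPrimitiveRoot ((rho : ℂ) + 1) 6 := by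
  have h := rho_sq
  have h3 : ((rho : ℂ) + 1) ^ 3 = -1 := by linear_combination ((rho : ℂ) + 2) * h
  have h2 : ((rho : ℂ) + 1) ^ 2 = rho := by linear_combination h
  rw [IsPrimitiveRoot.iff_def]
  constructor
  · have : ((rho : ℂ) + 1) ^ 6 = (((rho : ℂ) + 1) ^ 3) ^ 2 := by ring
    rw [this, h3]; norm_num
  · intro l hl
    -- reduce mod 6
    have h6 : ((rho : ℂ) + 1) ^ 6 = 1 := by
      have : ((rho : ℂ) + 1) ^ 6 = (((rho : ℂ) + 1) ^ 3) ^ 2 := by ring
      rw [this, h3]; norm_num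
    have hmod : ((rho : ℂ) + 1) ^ (l % 6) = 1 := by
      have e := hl
      rw [← Nat.mod_add_div l 6, pow_add, pow_mul, h6, one_pow, mul_one] at e
      exact e
    have hlt : l % 6 < 6 := Nat.mod_lt _ (by norm_num)
    have him : (rho : ℂ).im ≠ 0 := UpperHalfPlane.im_ne_zero rho
    have hre : (rho : ℂ).re = -1/2 := rfl
    rw [Nat.dvd_iff_mod_eq_zero]
    generalize l % 6 = m at hmod hlt
    interval_cases m
    · rfl
    · exfalso
      rw [pow_one] at hmod
      have := congrArg Complex.im hmod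
      simp at this
      exact (UpperHalfPlane.im_ne_zero rho) this
    · exfalso
      rw [h2] at hmod
      have := congrArg Complex.im hmod
      simp at this
      exact (UpperHalfPlane.im_ne_zero rho) this
    · exfalso
      rw [h3] at hmod
      norm_num at hmod
    · exfalso
      have e : ((rho : ℂ) + 1) ^ 4 = -(rho + 1) := by
        have : ((rho : ℂ) + 1) ^ 4 = ((rho : ℂ) + 1) ^ 3 * (rho + 1) := by ring
        rw [this, h3]; ring
      rw [e] at hmod
      have := congrArg Complex.im hmod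
      simp at this
      exact (UpperHalfPlane.im_ne_zero rho) this
    · exfalso
      have e : ((rho : ℂ) + 1) ^ 5 = -rho := by
        have : ((rho : ℂ) + 1) ^ 5 = ((rho : ℂ) + 1) ^ 3 * ((rho : ℂ) + 1) ^ 2 := by ring
        rw [this, h3, h2]; ring
      rw [e] at hmod
      have := congrArg Complex.im hmod
      simp at this
      exact (UpperHalfPlane.im_ne_zero rho) this

lemma IsL1.smul_apply {k : ℤ} {f : ℍ → ℂ} (hf : IsL1 k f) (γ : SL(2, ℤ)) (τ : ℍ) :
    f (γ • τ) = denom γ τ ^ k * f τ := by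
  have := congrFun (hf.slash γ) τ
  rw [SL_slash_apply] at this
  have hd : denom γ τ ^ k ≠ 0 := zpow_ne_zero _ (denom_ne_zero _ _)
  rw [← this, zpow_neg]
  field_simp

lemma E4_rho : E₄ rho = 0 := by
  have h := isL1_E4.smul_apply gU rho
  rw [gU_smul_rho, denom_gU] at h
  have hp := isPrimitiveRoot_rho_add_one
  have : ((rho : ℂ) + 1) ^ (4 : ℤ) ≠ 1 := by
    have := hp.pow_ne_one_of_pos_of_lt (l := 4) (by norm_num) (by norm_num)
    exact_mod_cast this
  by_contra h0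
  apply this
  have h' : ((rho : ℂ) + 1) ^ (4 : ℤ) * E₄ rho = 1 * E₄ rho := by
    rw [one_mul]; exact h.symm
  exact mul_right_cancel₀ h0 h'

lemma E6_I : E₆ UpperHalfPlane.I = 0 := by
  have h := isL1_E6.smul_apply ModularGroup.S UpperHalfPlane.I
  rw [S_smul_I, denom_S] at h
  have hI : ((UpperHalfPlane.I : ℍ) : ℂ) = Complex.I := rfl
  rw [hI] at h
  have : Complex.I ^ (6 : ℤ) = -1 := by
    have : Complex.I ^ (6 : ℤ) = (Complex.I ^ 2) ^ 3 := by
      rw [← pow_mul]; norm_cast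
    rw [this, Complex.I_sq]; norm_num
  rw [this] at h
  have h2 : (2 : ℂ) * E₆ UpperHalfPlane.I = 0 := by linear_combination h
  exact (mul_eq_zero.mp h2).resolve_left two_ne_zero

lemma E4_zero {z : ℍ} (h : E₄ z = 0) : ∃ γ : SL(2, ℤ), γ • rho = z := E4_zero_orbit E4_rho h
lemma E6_zero {z : ℍ} (h : E₆ z = 0) : ∃ γ : SL(2, ℤ), γ • UpperHalfPlane.I = z :=
  E6_zero_orbit E6_I h

end Fermat.Agent.S20
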